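/-
S15lib / Dict / Defs  (helper8) — Project E, block (DICT)

Elementary definitions for the moduli dictionary: coordinates of points, the `2`-division value
`ψ₂(P) = 2y + a₁x + a₃`, and Vélu's invariants `c₄', c₆'` of the quotient `E/⟨Q⟩` by a point `Q` of
odd order `p`, written as sums over the multiples `k • Q`, `1 ≤ k ≤ (p-1)/2`.

With `t_P = 6x² + b₂x + b₄`, `u_P = 4x³ + b₂x² + 2b₄x + b₆` (`= ψ₂(P)²`) Vélu's curve is
`a₄' = a₄ - 5t`, `a₆' = a₆ - b₂ t - 7w`, `t = Σ t_P`, `w = Σ (u_P + x_P t_P)`, whence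
`c₄' = c₄ + 240 t`, `c₆' = c₆ + 504 b₂ t + 6048 w`.
-/
import Mathlib

set_option autoImplicit false

noncomputable section

namespace Fermat.Agent.S15lib.Dict

open WeierstrassCurve

variable {K : Type*} [Field K]

/-- the `x`-coordinate of a point (`0` at the origin) -/
def ptX {W : WeierstrassCurve K} : W.toAffine.Point → K
  | .zero => 0
  | .some x _ _ => x

/-- the `y`-coordinate of a point (`0` at the origin) -/
def ptY {W : WeierstrassCurve K} : W.toAffine.Point → K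
  | .zero => 0
  | .some _ y _ => y

@[simp] lemma ptX_zero {W : WeierstrassCurve K} : ptX (0 : W.toAffine.Point) = 0 := rfl
@[simp] lemma ptY_zero {W : WeierstrassCurve K} : ptY (0 : W.toAffine.Point) = 0 := rfl
@[simp] lemma ptX_some {W : WeierstrassCurve K} {x y : K} (h : W.toAffine.Nonsingular x y) :
    ptX (Affine.Point.some x y h) = x := rfl
@[simp] lemma ptY_some {W : WeierstrassCurve K} {x y : K} (h : W.toAffine.Nonsingular x y) :
    ptY (Affine.Point.some x y h) = y := rfl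

/-- `ψ₂(P) = 2y + a₁x + a₃` -/
def psi2 (W : WeierstrassCurve K) (P : W.toAffine.Point) : K :=
  2 * ptY P + W.a₁ * ptX P + W.a₃

variable [DecidableEq K]

/-- Vélu's `t = Σ_{k=1}^{(p-1)/2} (6x_k² + b₂x_k + b₄)`, `x_k = x(k • Q)` -/
def veluT (W : WeierstrassCurve K) (Q : W.toAffine.Point) (p : ℕ) : K :=
  ∑ k ∈ Finset.Icc 1 ((p - 1) / 2), (6 * ptX (k • Q) ^ 2 + W.b₂ * ptX (k • Q) + W.b₄)

/-- Vélu's `w = Σ_{k=1}^{(p-1)/2} (10x_k³ + 2b₂x_k² + 3b₄x_k + b₆)` -/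
def veluW (W : WeierstrassCurve K) (Q : W.toAffine.Point) (p : ℕ) : K :=
  ∑ k ∈ Finset.Icc 1 ((p - 1) / 2),
    (10 * ptX (k • Q) ^ 3 + 2 * W.b₂ * ptX (k • Q) ^ 2 + 3 * W.b₄ * ptX (k • Q) + W.b₆)

/-- `c₄(E/⟨Q⟩) = c₄ + 240 t` -/
def veluC4 (W : WeierstrassCurve K) (Q : W.toAffine.Point) (p : ℕ) : K :=
  W.c₄ + 240 * veluT W Q p

/-- `c₆(E/⟨Q⟩) = c₆ + 504 b₂ t + 6048 w` -/
def veluC6 (W : WeierstrassCurve K) (Q : W.toAffine.Point) (p : ℕ) : K :=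
  W.c₆ + 504 * W.b₂ * veluT W Q p + 6048 * veluW W Q p

/-- `∏_{k=1}^{p-1} ψ₂(k • Q)` -/
def veluPsi (W : WeierstrassCurve K) (Q : W.toAffine.Point) (p : ℕ) : K :=
  ∏ k ∈ Finset.Icc 1 (p - 1), psi2 W (k • Q)

/-- `j(E/⟨Q⟩) = 1728 c₄'³ / (c₄'³ - c₆'²)` -/
def veluJ (W : WeierstrassCurve K) (Q : W.toAffine.Point) (p : ℕ) : K :=
  1728 * veluC4 W Q p ^ 3 / (veluC4 W Q p ^ 3 - veluC6 W Q p ^ 2)

end Fermat.Agent.S15lib.Dict
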