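/-
S15lib / Dict / Iface  (helper8) — Project E, block (DICT): the sub-blocks and the glue.

`DictStmt` (see `S15lib/Iface.lean`) is split into

* (EA) `VeluCStmt`      complex-analytic: for `E/ℂ` and a point `Q` of odd prime order `p`, Vélu's
                        invariants `c₄', c₆'` of `E/⟨Q⟩` satisfy
                        `(c₄'³ - c₆'²) ∏_{k=1}^{p-1} ψ₂(kQ)⁴ = 1728 Δ^p`   and   `Φ_p(j'; j) = 0`.
* (EL0) `LocalIntStmt`  points of order prime to `ℓ` are `A`-integral (kernel of reduction, `S05lib`).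
* (EL1) `LocalNodeStmt` an integral point outside the zero component has `ψ₂(Q) ∈ 𝔪_A`.
* (EL2) `LocalHardStmt` `ℓ ≥ 5` multiplicative, `Q ∈ E⁰` of order `p ≠ ℓ`: `c₄'` and all `ψ₂(kQ)` are units.
* (M)  `ModStmt`        the modular layer: a rational pair `(a, b)` with `Φ_p(b; a) = 0` and one prime of
                        `ℚ` at which `a` has a pole is a Galois-fixed place `x` of `FBar p`; at a place
                        `A ∣ ℓ ≠ p` with `a ∉ A` the place `x` reduces to the cusp `∞` if `b / a^p` is a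
                        unit and to the cusp `0` otherwise (Newton polygon of `Φ_p`).

Glue: `a = c₄³/Δ`, `b = 1728 c₄'³/(c₄'³ - c₆'²)`, `b / a^p = c₄'³ ∏ψ₂(kQ)⁴ / c₄^{3p}`.
-/
import Fermat.Agent.S15lib.Iface
import Fermat.Agent.S15lib.Dict.Defs
import Fermat.Agent.S37lib.ConjNorm.KroneckerVal
import Fermat.Agent.S18lib.Gink.Residue

set_option autoImplicit false

noncomputable section

namespace Fermat.Agent.S15lib.Dict

open AlgebraicCurve ModularCurve WeierstrassCurve WeierstrassCurve.Affine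
open Fermat.Agent.S28lib Fermat.Agent.S37lib.ConjNorm Fermat.Agent.S18lib

local notation "Qb" => AlgebraicClosure ℚ
local notation "GQ" => (AlgebraicClosure ℚ ≃ₐ[ℚ] AlgebraicClosure ℚ)

/-- **(EA)** Vélu over `ℂ`: the discriminant identity and the modular equation.
`phiZ p : Zb[X][X]` is the modular polynomial over the algebraic integers `Zb ⊆ ℂ`
(`S28lib.PhiIntegral`; `(phiZ p).map (mapRingHom zbIncl) = phiC p`, `phiC_map_eval`);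
`biEval₂ ι Φ x y` = `Φ` at outer variable `x`, inner variable `y`. -/
def VeluCStmt : Prop :=
  ∀ {p : ℕ} [Fact p.Prime] (_hodd : p ≠ 2) (E : WeierstrassCurve ℂ) (_hΔ : E.Δ ≠ 0)
    (Q : E.toAffine.Point) (_hQ : addOrderOf Q = p),
    (veluC4 E Q p ^ 3 - veluC6 E Q p ^ 2) * veluPsi E Q p ^ 4 = 1728 * E.Δ ^ p ∧
    biEval₂ zbIncl (phiZ p) (veluJ E Q p) (E.c₄ ^ 3 / E.Δ) = 0

/-- the second derivative of `℘` in closed form: `6℘² - g₂/2`. -/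
def wpDD (L : PeriodPair) (z : ℂ) : ℂ := 6 * L.weierstrassP z ^ 2 - L.g₂ / 2

/-- **(EA)(U)** uniformisation: a curve `E/ℂ` with a point `Q` of exact order `p` comes from a lattice
`Λ = L.lattice` (`g₂ = c₄/12`, `g₃ = c₆/216`) and a `p`-division point `z₀ ∉ Λ`, `p z₀ ∈ Λ`, with
`x(kQ) = ℘(kz₀) - b₂/12`, `ψ₂(kQ) = 2y + a₁x + a₃ = ℘'(kz₀)` for every `k` prime to `p`
(existence of the lattice: `jInv` onto + homothety, `ProgramR.LevelOne`; `(℘, ℘')` onto the affine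
curve; the addition theorem). -/
def UnifStmt : Prop :=
  ∀ {p : ℕ} [Fact p.Prime] (E : WeierstrassCurve ℂ) (_hΔ : E.Δ ≠ 0)
    (Q : E.toAffine.Point) (_hQ : addOrderOf Q = p),
    ∃ (L : PeriodPair) (z₀ : ℂ), L.g₂ = E.c₄ / 12 ∧ L.g₃ = E.c₆ / 216 ∧
      z₀ ∉ L.lattice ∧ (p : ℂ) * z₀ ∈ L.lattice ∧
      ∀ k : ℕ, ¬ p ∣ k →
        ptX (k • Q) = L.weierstrassP (k * z₀) - E.b₂ / 12 ∧
        psi2 E (k • Q) = L.derivWeierstrassP (k * z₀)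

/-- **(EA)(V)** Vélu on lattices: `Λ' = Λ + ℤ z₀` has
`g₂' = g₂ + 10 Σ_{k=1}^{p-1} wpDD(kz₀)`, `g₃' = g₃ + 14 Σ_{k=1}^{p-1} (℘'² + ℘ wpDD)(kz₀)`
(coset sums of `G₄, G₆`; the fourth derivative of `℘` is `12(℘'² + ℘ wpDD)`), and
`Δ(Λ') ∏_{k=1}^{p-1} ℘'(kz₀)⁴ = Δ(Λ)^p`, `Φ_p(j(Λ'); j(Λ)) = 0`. -/
def VeluLatStmt : Prop :=
  ∀ {p : ℕ} [Fact p.Prime] (_hodd : p ≠ 2) (L : PeriodPair) (z₀ : ℂ) (_hz : z₀ ∉ L.lattice)
    (_hpz : (p : ℂ) * z₀ ∈ L.lattice),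
    let g₂' : ℂ := L.g₂ + 10 * ∑ k ∈ Finset.Icc 1 (p - 1), wpDD L (k * z₀)
    let g₃' : ℂ := L.g₃ + 14 * ∑ k ∈ Finset.Icc 1 (p - 1),
      (L.derivWeierstrassP (k * z₀) ^ 2 + L.weierstrassP (k * z₀) * wpDD L (k * z₀))
    (g₂' ^ 3 - 27 * g₃' ^ 2) * (∏ k ∈ Finset.Icc 1 (p - 1), L.derivWeierstrassP (k * z₀)) ^ 4 =
        (L.g₂ ^ 3 - 27 * L.g₃ ^ 2) ^ p ∧
      biEval₂ zbIncl (phiZ p) (1728 * g₂' ^ 3 / (g₂' ^ 3 - 27 * g₃' ^ 2))
        (1728 * L.g₂ ^ 3 / (L.g₂ ^ 3 - 27 * L.g₃ ^ 2)) = 0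

/-- **(EL0)** torsion of order prime to `ℓ` is integral at `A ∣ ℓ`. -/
def LocalIntStmt : Prop :=
  ∀ (W : WeierstrassCurve ℤ) {ℓ : ℕ} (_hℓ : ℓ.Prime) (A : ValuationSubring Qb)
    (_hA : A.LiesOverPrime ℓ) (P : ((W.map (Int.castRingHom ℚ))⁄Qb).Point) (n : ℕ)
    (_hn : ¬ ℓ ∣ n) (_hP : n • P = 0), ptX P ∈ A ∧ ptY P ∈ A

/-- **(EL1)** an integral point outside the zero component reduces to the singular point, where
`∂F/∂y = 2y + a₁x + a₃` vanishes. -/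
def LocalNodeStmt : Prop :=
  ∀ (W : WeierstrassCurve ℤ) (A : ValuationSubring Qb)
    (Q : ((W.map (Int.castRingHom ℚ))⁄Qb).Point) (_hQ : Q ≠ 0) (_hx : ptX Q ∈ A) (_hy : ptY Q ∈ A),
    ¬ W.InZeroComponentAt A Q → A.valuation (psi2 _ Q) < 1

/-- **(EL2)** the hard direction, `ℓ ≥ 5`. -/
def LocalHardStmt : Prop :=
  ∀ {p : ℕ} (_hp : p.Prime) (_hp2 : p ≠ 2) (W : WeierstrassCurve ℤ) {ℓ : ℕ} (_hℓ : ℓ.Prime)
    (_hℓp : ℓ ≠ p) (_hℓ2 : ℓ ≠ 2) (_hℓ3 : ℓ ≠ 3) (_hℓΔ : (ℓ : ℤ) ∣ W.Δ) (_hℓc₄ : ¬ (ℓ : ℤ) ∣ W.c₄)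
    (A : ValuationSubring Qb) (_hA : A.LiesOverPrime ℓ)
    (Q : ((W.map (Int.castRingHom ℚ))⁄Qb).Point) (_hQord : addOrderOf Q = p),
    W.InZeroComponentAt A Q →
      A.valuation (veluC4 _ Q p) = 1 ∧ A.valuation (veluPsi _ Q p) = 1

/-- **(M)** the modular layer. -/
def ModStmt : Prop :=
  ∀ {p : ℕ} [Fact p.Prime] (_hp5 : 5 ≤ p) (a b : Qb) (_ha : ∀ σ : GQ, σ a = a) (_hb : ∀ σ : GQ, σ b = b)
    (_hΦ : biEval₂ (Gink.intToQbar : Zb →+* Qb) (phiZ p) b a = 0)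
    (_h₀ : ∃ ℓ₀ : ℕ, ℓ₀.Prime ∧ ℓ₀ ≠ p ∧ ∃ A₀ : ValuationSubring Qb, A₀.LiesOverPrime ℓ₀ ∧ a ∉ A₀),
    haveI : NeZero p := ⟨(Fact.out : p.Prime).ne_zero⟩
    ∃ x : Place Qb (FB p), (∀ σ : GQ, gal p σ • x = x) ∧
      ∀ {ℓ : ℕ} (_hℓ : ℓ.Prime) (_hℓp : ℓ ≠ p) (A : ValuationSubring Qb) (_hA : A.LiesOverPrime ℓ)
        (_haA : a ∉ A) (h : ReductionInputsModL A p) (c : Place Qb (FB p)),
        (A.valuation (b * (a⁻¹) ^ p) = 1 → IsCuspInf p c →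
            placeReductionModL h x = placeReductionModL h c) ∧
        (A.valuation (b * (a⁻¹) ^ p) < 1 → IsCuspZero p c →
            placeReductionModL h x = placeReductionModL h c)

/-- (DICT) in the form actually used by `S15lib/End.lean`: the zero-component branch only at
`ℓ ∉ {2, 3}` (in `s15_of_stmts` the primes `2, 3` are only used through the other branch). -/
def DictStmt' : Prop :=
  ∀ {p : ℕ} (hp : p.Prime) (_hp' : p ∉ ({2, 3, 5, 7, 13} : Finset ℕ))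
    (W : WeierstrassCurve ℤ) (_hΔ : W.Δ ≠ 0)
    (Q : ((W.map (Int.castRingHom ℚ))⁄(AlgebraicClosure ℚ)).Point)
    (_hQfix : ∀ σ : GQ, σ • Q = Q) (_hQord : addOrderOf Q = p),
    haveI : NeZero p := ⟨hp.ne_zero⟩
    ∃ x : Place Qb (FB p), (∀ σ : GQ, gal p σ • x = x) ∧
      ∀ {ℓ : ℕ} (_hℓ : ℓ.Prime) (_hℓp : ℓ ≠ p) (_hℓΔ : (ℓ : ℤ) ∣ W.Δ) (_hℓc₄ : ¬ (ℓ : ℤ) ∣ W.c₄)
        (A : ValuationSubring Qb) (_hA : A.LiesOverPrime ℓ) (h : ReductionInputsModL A p)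
        (c : Place Qb (FB p)),
        ((ℓ ≠ 2 ∧ ℓ ≠ 3 ∧ W.InZeroComponentAt A Q ∧ IsCuspInf p c) ∨
          (¬ W.InZeroComponentAt A Q ∧ IsCuspZero p c)) →
          placeReductionModL h x = placeReductionModL h c

end Fermat.Agent.S15lib.Dict
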