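/-
S15lib / Dict / Lat  (helper9) — Project E, block (DICT)(EA)(V3): the lattice layer of Vélu.

* `G_congr`, `g₂_congr`, `g₃_congr` : the Eisenstein sums only depend on the lattice;
* `exists_oriented`  : every lattice is `λ(ℤτ + ℤ)` with `τ ∈ ℍ`;
* `jL`               : the `j`-invariant `1728 g₂³/(g₂³ - 27g₃²)` of a period pair,
  `jL_periodPairOf : jL (λ(ℤτ+ℤ)) = jInv τ`, `disc_ne_zero : g₂³ - 27g₃² ≠ 0`;
* `exists_superlattice` : for `z₀ ∉ Λ`, `p z₀ ∈ Λ` (`p` prime) there is a period pair `L'` with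
  lattice `Λ + ℤ z₀`, and `Φ_p(jL L', jL L) = 0`.
-/
import Mathlib
import Fermat.Agent.ProgramR.LevelOne.JInjective
import Fermat.Agent.S28lib.PhiIntegral
import Fermat.Agent.S37lib.ConjNorm.KroneckerVal

set_option autoImplicit false
set_option linter.style.haveILetI false
set_option linter.unusedSectionVars false

noncomputable section

namespace Fermat.Agent.S15lib.Dict.Lat

open UpperHalfPlane hiding I
open Complex ModularForm Finset
open Fermat.Agent.ProgramR.LevelOne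
open scoped Real Nat PeriodPair

/-! ### `ζ(6)` -/

theorem bernoulli'_five : bernoulli' 5 = 0 :=
  bernoulli'_eq_zero_of_odd (by decide) (by norm_num)

theorem bernoulli'_six : bernoulli' 6 = 1 / 42 := by
  have h2 : Nat.choose 6 2 = 15 := by decide
  have h3 : Nat.choose 6 3 = 20 := by decide
  have h4 : Nat.choose 6 4 = 15 := by decide
  rw [bernoulli'_def]
  norm_num [sum_range_succ, sum_range_zero, h2, h3, h4, bernoulli'_five]

theorem riemannZeta_six : riemannZeta 6 = (π : ℂ) ^ 6 / 945 := by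
  have h := riemannZeta_two_mul_nat (k := 3) (by norm_num)
  have hb : bernoulli (2 * 3) = 1 / 42 := by
    rw [bernoulli_eq_bernoulli'_of_ne_one (by norm_num)]
    exact bernoulli'_six
  rw [hb] at h
  have h6 : ((2 * 3 : ℕ)! : ℂ) = 720 := by
    norm_num [Nat.factorial]
  have e : (2 : ℂ) * (3 : ℕ) = 6 := by norm_num
  rw [e] at h
  rw [h]
  push_cast
  rw [h6]
  norm_num
  ring

/-! ### dependence on the lattice only -/

theorem G_congr {L L' : PeriodPair} (h : L.lattice = L'.lattice) (n : ℕ) : L.G n = L'.G n := by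
  have key : ∀ S S' : Submodule ℤ ℂ, S = S' →
      ∑' l : S, (((l : ℂ)) ^ n)⁻¹ = ∑' l : S', (((l : ℂ)) ^ n)⁻¹ := by
    rintro S _ rfl
    rfl
  exact key _ _ h

theorem g₂_congr {L L' : PeriodPair} (h : L.lattice = L'.lattice) : L.g₂ = L'.g₂ := by
  rw [PeriodPair.g₂, PeriodPair.g₂, G_congr h]

theorem g₃_congr {L L' : PeriodPair} (h : L.lattice = L'.lattice) : L.g₃ = L'.g₃ := by
  rw [PeriodPair.g₃, PeriodPair.g₃, G_congr h]

theorem weierstrassP_congr {L L' : PeriodPair} (h : L.lattice = L'.lattice) (z : ℂ) :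
    ℘[L] z = ℘[L'] z := by
  have key : ∀ S S' : Submodule ℤ ℂ, S = S' →
      ∑' l : S, (1 / (z - l) ^ 2 - 1 / (l : ℂ) ^ 2) =
        ∑' l : S', (1 / (z - l) ^ 2 - 1 / (l : ℂ) ^ 2) := by
    rintro S _ rfl
    rfl
  exact key _ _ h

theorem derivWeierstrassP_congr {L L' : PeriodPair} (h : L.lattice = L'.lattice) (z : ℂ) :
    ℘'[L] z = ℘'[L'] z := by
  have key : ∀ S S' : Submodule ℤ ℂ, S = S' →
      ∑' l : S, (2 / (z - l) ^ 3 : ℂ) = ∑' l : S', (2 / (z - l) ^ 3 : ℂ) := by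
    rintro S _ rfl
    rfl
  unfold PeriodPair.derivWeierstrassP
  rw [key _ _ h]

/-! ### the `j`-invariant of a lattice -/

/-- the `j`-invariant `1728 g₂³/(g₂³ - 27 g₃²)` of a period pair -/
def jL (L : PeriodPair) : ℂ := 1728 * L.g₂ ^ 3 / (L.g₂ ^ 3 - 27 * L.g₃ ^ 2)

theorem jL_congr {L L' : PeriodPair} (h : L.lattice = L'.lattice) : jL L = jL L' := by
  rw [jL, jL, g₂_congr h, g₃_congr h]

theorem g₂_periodPairOf' (lam : ℂ) (hlam : lam ≠ 0) (τ : ℍ) :
    (periodPairOf lam hlam τ).g₂ = 4 * (π : ℂ) ^ 4 / 3 * (lam ^ 4)⁻¹ * E₄ τ := by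
  rw [g₂_periodPairOf]
  have h4 : riemannZeta ((4 : ℕ) : ℂ) = (π : ℂ) ^ 4 / 90 := by
    have := riemannZeta_four
    simpa using this
  rw [h4]
  ring

theorem g₃_periodPairOf' (lam : ℂ) (hlam : lam ≠ 0) (τ : ℍ) :
    (periodPairOf lam hlam τ).g₃ = 8 * (π : ℂ) ^ 6 / 27 * (lam ^ 6)⁻¹ * E₆ τ := by
  rw [g₃_periodPairOf]
  have h6 : riemannZeta ((6 : ℕ) : ℂ) = (π : ℂ) ^ 6 / 945 := by
    have := riemannZeta_six
    simpa using this
  rw [h6]
  ring

theorem disc_periodPairOf (lam : ℂ) (hlam : lam ≠ 0) (τ : ℍ) :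
    (periodPairOf lam hlam τ).g₂ ^ 3 - 27 * (periodPairOf lam hlam τ).g₃ ^ 2 =
      64 * (π : ℂ) ^ 12 / 27 * (lam ^ 12)⁻¹ * (1728 * ModularForm.discriminant τ) := by
  rw [g₂_periodPairOf', g₃_periodPairOf', ModularForm.discriminant_eq_E₄_cube_sub_E₆_sq τ]
  field_simp
  ring

theorem disc_periodPairOf_ne_zero (lam : ℂ) (hlam : lam ≠ 0) (τ : ℍ) :
    (periodPairOf lam hlam τ).g₂ ^ 3 - 27 * (periodPairOf lam hlam τ).g₃ ^ 2 ≠ 0 := by
  rw [disc_periodPairOf]
  have hπ : (π : ℂ) ≠ 0 := by exact_mod_cast Real.pi_ne_zero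
  have hΔ := ModularForm.discriminant_ne_zero τ
  have h12 : lam ^ 12 ≠ 0 := pow_ne_zero _ hlam
  exact mul_ne_zero (mul_ne_zero (div_ne_zero (mul_ne_zero (by norm_num) (pow_ne_zero _ hπ))
    (by norm_num)) (inv_ne_zero h12)) (mul_ne_zero (by norm_num) hΔ)

theorem jL_periodPairOf (lam : ℂ) (hlam : lam ≠ 0) (τ : ℍ) :
    jL (periodPairOf lam hlam τ) = jInv τ := by
  have hne := disc_periodPairOf_ne_zero lam hlam τ
  rw [jL, jInv_def, div_eq_div_iff hne (ModularForm.discriminant_ne_zero τ), disc_periodPairOf,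
    g₂_periodPairOf']
  have hπ : (π : ℂ) ≠ 0 := by exact_mod_cast Real.pi_ne_zero
  field_simp
  ring

/-! ### oriented bases -/

/-- every lattice is `λ(ℤτ + ℤ)` with `τ` in the upper half plane -/
theorem exists_oriented (L : PeriodPair) :
    ∃ (lam : ℂ) (hlam : lam ≠ 0) (τ : ℍ), L.lattice = (periodPairOf lam hlam τ).lattice := by
  have hind := L.indep
  rw [LinearIndependent.pair_iff] at hind
  have h2 : L.ω₂ ≠ 0 := by
    intro h0
    have := hind 0 1 (by simp [h0])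
    exact one_ne_zero this.2
  -- `ω₁ / ω₂` is not real
  have him : (L.ω₁ / L.ω₂).im ≠ 0 := by
    intro h0
    have hre : L.ω₁ / L.ω₂ = ((L.ω₁ / L.ω₂).re : ℂ) := by
      apply Complex.ext <;> simp [h0]
    obtain ⟨r, h1⟩ : ∃ r : ℝ, L.ω₁ = (r : ℂ) * L.ω₂ :=
      ⟨(L.ω₁ / L.ω₂).re, by rw [← hre, div_mul_cancel₀ _ h2]⟩
    have := hind 1 (-r) (by
      simp only [one_smul, Complex.real_smul]
      push_cast
      linear_combination h1)
    exact one_ne_zero this.1
  rcases lt_or_gt_of_ne him with hneg | hpos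
  · -- `τ = -ω₁/ω₂`
    have hpos' : 0 < (-(L.ω₁ / L.ω₂)).im := by
      rw [Complex.neg_im]; linarith
    refine ⟨L.ω₂, h2, ⟨-(L.ω₁ / L.ω₂), hpos'⟩, ?_⟩
    ext x
    rw [PeriodPair.mem_lattice, mem_lattice_periodPairOf]
    constructor
    · rintro ⟨m, n, rfl⟩
      refine ⟨-m, n, ?_⟩
      show ((-m : ℤ) : ℂ) * (L.ω₂ * (-(L.ω₁ / L.ω₂))) + n * L.ω₂ = _
      push_cast
      field_simp
    · rintro ⟨m, n, rfl⟩
      refine ⟨-m, n, ?_⟩
      show _ = (m : ℂ) * (L.ω₂ * (-(L.ω₁ / L.ω₂))) + n * L.ω₂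
      push_cast
      field_simp
  · refine ⟨L.ω₂, h2, ⟨L.ω₁ / L.ω₂, hpos⟩, ?_⟩
    ext x
    rw [PeriodPair.mem_lattice, mem_lattice_periodPairOf]
    constructor
    · rintro ⟨m, n, rfl⟩
      refine ⟨m, n, ?_⟩
      show (m : ℂ) * (L.ω₂ * (L.ω₁ / L.ω₂)) + n * L.ω₂ = _
      field_simp
    · rintro ⟨m, n, rfl⟩
      refine ⟨m, n, ?_⟩
      show _ = (m : ℂ) * (L.ω₂ * (L.ω₁ / L.ω₂)) + n * L.ω₂
      field_simp

theorem disc_ne_zero (L : PeriodPair) : L.g₂ ^ 3 - 27 * L.g₃ ^ 2 ≠ 0 := by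
  obtain ⟨lam, hlam, τ, h⟩ := exists_oriented L
  rw [g₂_congr h, g₃_congr h]
  exact disc_periodPairOf_ne_zero lam hlam τ

/-! ### the modular equation -/

open Polynomial in
theorem psiPoly_eval_heckeMatrix (p : ℕ) (τ : ℍ) {b : ℕ} (hb : b < p) :
    (Fermat.Agent.S28lib.psiPoly p τ).eval (jInv (heckeMatrix p b • τ)) = 0 := by
  rw [Fermat.Agent.S28lib.psiPoly, eval_mul, eval_prod]
  apply mul_eq_zero_of_left
  apply Finset.prod_eq_zero (Finset.mem_range.2 hb)
  simp

open Polynomial in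
theorem psiPoly_eval_heckeDiag (p : ℕ) (τ : ℍ) :
    (Fermat.Agent.S28lib.psiPoly p τ).eval (jInv (heckeDiagMatrix p • τ)) = 0 := by
  rw [Fermat.Agent.S28lib.psiPoly, eval_mul]
  apply mul_eq_zero_of_right
  simp

open Polynomial Fermat.Agent.S28lib Fermat.Agent.S37lib.ConjNorm in
/-- `Φ_p(x, j(τ)) = Ψ_τ(x)` -/
theorem biEval₂_phiZ_jInv (p : ℕ) [Fact p.Prime] (x : ℂ) (τ : ℍ) :
    biEval₂ zbIncl (phiZ p) x (jInv τ) = (psiPoly p τ).eval x := by
  have hp : p.Prime := Fact.out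
  have h1 := biEval₂_map zbIncl (RingHom.id ℂ) (phiZ p) x (jInv τ)
  rw [RingHom.id_comp] at h1
  rw [← h1, phiZ_map, biEval₂, ← phiC_map_eval hp τ, Polynomial.eval₂_eq_eval_map]
  congr 2

/-! ### the superlattice `Λ + ℤ z₀` -/

theorem lattice_periodPairOf (lam : ℂ) (hlam : lam ≠ 0) (τ : ℍ) :
    (periodPairOf lam hlam τ).lattice = Submodule.span ℤ {lam * (τ : ℂ), lam} := rfl

theorem mem_sup_span {Λ : Submodule ℤ ℂ} {z₀ x : ℂ} {y : ℂ} (hy : y ∈ Λ) (k : ℤ)
    (h : x = y + k * z₀) : x ∈ Λ ⊔ Submodule.span ℤ {z₀} := by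
  rw [h]
  refine Submodule.add_mem _ (Submodule.mem_sup_left hy) (Submodule.mem_sup_right ?_)
  rw [Submodule.mem_span_singleton]
  exact ⟨k, by simp⟩

theorem exists_superlattice_aux {p : ℕ} (hp : p.Prime) (lam : ℂ) (hlam : lam ≠ 0) (τ : ℍ)
    {z₀ : ℂ} (hz₀ : z₀ ∉ (periodPairOf lam hlam τ).lattice)
    (hpz : (p : ℂ) * z₀ ∈ (periodPairOf lam hlam τ).lattice) :
    ∃ (lam' : ℂ) (hlam' : lam' ≠ 0) (τ' : ℍ),
      (periodPairOf lam' hlam' τ').lattice =
        (periodPairOf lam hlam τ).lattice ⊔ Submodule.span ℤ {z₀} ∧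
      ((∃ b < p, τ' = heckeMatrix p b • τ) ∨ τ' = heckeDiagMatrix p • τ) := by
  have hp0 : p ≠ 0 := hp.ne_zero
  have hpC : (p : ℂ) ≠ 0 := by exact_mod_cast hp0
  obtain ⟨m, n, hmn⟩ := mem_lattice_periodPairOf.1 hpz
  have hz : z₀ = ((m : ℂ) * (lam * τ) + n * lam) / p := by
    rw [hmn]; field_simp
  have hprime : Prime (p : ℤ) := Nat.prime_iff_prime_int.1 hp
  have hτmem : lam * (τ : ℂ) ∈ (periodPairOf lam hlam τ).lattice :=
    (periodPairOf lam hlam τ).ω₁_mem_lattice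
  have hlmem : lam ∈ (periodPairOf lam hlam τ).lattice :=
    (periodPairOf lam hlam τ).ω₂_mem_lattice
  by_cases hm : (p : ℤ) ∣ m
  · -- case B: `Λ' = (λ/p)(ℤ pτ + ℤ)`
    obtain ⟨m₁, rfl⟩ := hm
    have hn : ¬ (p : ℤ) ∣ n := by
      rintro ⟨n₁, rfl⟩
      apply hz₀
      rw [mem_lattice_periodPairOf]
      refine ⟨m₁, n₁, ?_⟩
      rw [hz]
      push_cast
      field_simp
    have hcop : IsCoprime n (p : ℤ) := by
      rw [isCoprime_comm]
      exact (Prime.coprime_iff_not_dvd hprime).2 hn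
    obtain ⟨u, v, huv⟩ := hcop
    have huvC : (u : ℂ) * n + v * p = 1 := by exact_mod_cast huv
    have hlam' : lam / p ≠ 0 := div_ne_zero hlam hpC
    refine ⟨lam / p, hlam', heckeDiagMatrix p • τ, ?_, Or.inr rfl⟩
    have hcoe : ((heckeDiagMatrix p • τ : ℍ) : ℂ) = (p : ℂ) * τ := coe_heckeDiagMatrix_smul hp0 τ
    apply le_antisymm
    · rw [lattice_periodPairOf, Submodule.span_le]
      intro x hx
      rw [Set.mem_insert_iff, Set.mem_singleton_iff] at hx
      rcases hx with rfl | rfl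
      · apply Submodule.mem_sup_left
        rw [hcoe]
        have : lam / p * ((p : ℂ) * τ) = lam * τ := by field_simp
        rw [this]
        exact hτmem
      · -- `λ/p = u z₀ - u m₁ λτ + v λ`
        refine mem_sup_span (y := (-(u * m₁) : ℤ) • (lam * (τ : ℂ)) + v • lam)
          (Submodule.add_mem _ (Submodule.smul_mem _ _ hτmem) (Submodule.smul_mem _ _ hlmem)) u ?_
        rw [hz]
        simp only [zsmul_eq_mul]
        push_cast
        field_simp
        linear_combination (-1 : ℂ) * huvC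
    · apply sup_le
      · rw [lattice_periodPairOf lam hlam τ, Submodule.span_le]
        intro x hx
        rw [Set.mem_insert_iff, Set.mem_singleton_iff] at hx
        rw [SetLike.mem_coe, mem_lattice_periodPairOf]
        rcases hx with rfl | rfl
        · refine ⟨1, 0, ?_⟩
          rw [hcoe]
          push_cast
          field_simp
          ring
        · refine ⟨0, p, ?_⟩
          push_cast
          field_simp
          ring
      · rw [Submodule.span_le, Set.singleton_subset_iff, SetLike.mem_coe,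
          mem_lattice_periodPairOf]
        refine ⟨m₁, n, ?_⟩
        rw [hcoe, hz]
        push_cast
        field_simp
  · -- case A: `Λ' = λ(ℤ(τ+b)/p + ℤ)`
    have hcop : IsCoprime m (p : ℤ) := by
      rw [isCoprime_comm]
      exact (Prime.coprime_iff_not_dvd hprime).2 hm
    obtain ⟨u, v, huv⟩ := hcop
    have huvC : (u : ℂ) * m + v * p = 1 := by exact_mod_cast huv
    have hpZ : (0 : ℤ) < p := by exact_mod_cast hp.pos
    set b : ℕ := ((n * u) % (p : ℤ)).toNat with hb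
    set sq : ℤ := (n * u) / (p : ℤ) with hsq
    have hbZ : (b : ℤ) = (n * u) % (p : ℤ) := by
      rw [hb, Int.toNat_of_nonneg (Int.emod_nonneg _ hpZ.ne')]
    have hblt : b < p := by
      have : (b : ℤ) < p := by rw [hbZ]; exact Int.emod_lt_of_pos _ hpZ
      exact_mod_cast this
    have hdiv : n * u = b + p * sq := by
      rw [hbZ, hsq]; exact (Int.emod_add_mul_ediv _ _).symm
    have hdivC : (n : ℂ) * u = b + p * sq := by exact_mod_cast hdiv
    refine ⟨lam, hlam, heckeMatrix p b • τ, ?_, Or.inl ⟨b, hblt, rfl⟩⟩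
    have hcoe : ((heckeMatrix p b • τ : ℍ) : ℂ) = ((τ : ℂ) + b) / p :=
      coe_heckeMatrix_smul hp0 b τ
    apply le_antisymm
    · rw [lattice_periodPairOf, Submodule.span_le]
      intro x hx
      rw [Set.mem_insert_iff, Set.mem_singleton_iff] at hx
      rcases hx with rfl | rfl
      · -- `λτ' = u z₀ + v λτ - s λ`
        refine mem_sup_span (y := v • (lam * (τ : ℂ)) + (-sq) • lam)
          (Submodule.add_mem _ (Submodule.smul_mem _ _ hτmem) (Submodule.smul_mem _ _ hlmem)) u ?_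
        rw [hz, hcoe]
        simp only [zsmul_eq_mul]
        push_cast
        field_simp
        linear_combination (-(τ : ℂ)) * huvC - hdivC
      · exact Submodule.mem_sup_left hlmem
    · apply sup_le
      · rw [lattice_periodPairOf lam hlam τ, Submodule.span_le]
        intro x hx
        rw [Set.mem_insert_iff, Set.mem_singleton_iff] at hx
        rw [SetLike.mem_coe, mem_lattice_periodPairOf]
        rcases hx with rfl | rfl
        · refine ⟨p, -b, ?_⟩
          rw [hcoe]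
          push_cast
          field_simp
          ring
        · refine ⟨0, 1, ?_⟩
          push_cast
          ring
      · rw [Submodule.span_le, Set.singleton_subset_iff, SetLike.mem_coe,
          mem_lattice_periodPairOf]
        refine ⟨m, n * v + m * sq, ?_⟩
        rw [hcoe, hz]
        push_cast
        field_simp
        linear_combination (n : ℂ) * huvC - (m : ℂ) * hdivC

open Fermat.Agent.S28lib Fermat.Agent.S37lib.ConjNorm in
/-- **the lattice layer of Vélu**: for `z₀ ∉ Λ` with `p z₀ ∈ Λ` the group `Λ + ℤ z₀` is the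
lattice of a period pair `L'`, and `Φ_p(j(L'), j(L)) = 0`. -/
theorem exists_superlattice (L : PeriodPair) {p : ℕ} [Fact p.Prime] {z₀ : ℂ}
    (hz₀ : z₀ ∉ L.lattice) (hpz : (p : ℂ) * z₀ ∈ L.lattice) :
    ∃ L' : PeriodPair, L'.lattice = L.lattice ⊔ Submodule.span ℤ {z₀} ∧
      biEval₂ zbIncl (phiZ p) (jL L') (jL L) = 0 := by
  have hp : p.Prime := Fact.out
  obtain ⟨lam, hlam, τ, hL⟩ := exists_oriented L
  rw [hL] at hz₀ hpz
  obtain ⟨lam', hlam', τ', hlat, hτ'⟩ := exists_superlattice_aux hp lam hlam τ hz₀ hpz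
  refine ⟨periodPairOf lam' hlam' τ', by rw [hlat, hL], ?_⟩
  rw [jL_congr hL, jL_periodPairOf, jL_periodPairOf, biEval₂_phiZ_jInv]
  rcases hτ' with ⟨b, hb, rfl⟩ | rfl
  · exact psiPoly_eval_heckeMatrix p τ hb
  · exact psiPoly_eval_heckeDiag p τ

end Fermat.Agent.S15lib.Dict.Lat
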