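/-
S15lib / Dict / LatSum  (helper9) — Project E, block (DICT)(EA)(V1): coset sums.

For `z₀ ∉ Λ`, `p z₀ ∈ Λ` (`p` prime) and a period pair `L'` with lattice `Λ' = Λ + ℤ z₀`:

* `tsum_superlattice`  : `∑_{Λ'} f = ∑_{k<p} ∑_{l ∈ Λ} f (l + k z₀)`;
* `iteratedDeriv_weierstrassP` : `℘⁽ⁿ⁾(x) = (n+1)! ∑_l (l - x)^{-(n+2)}` (`x ∉ Λ`, `n ≠ 0`);
* `deriv_derivWeierstrassP`    : `℘'' = 6℘² - g₂/2` off the lattice;
* `g₂_superlattice`, `g₃_superlattice` : Vélu's formulas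
  `g₂(Λ') = g₂ + 10 ∑_{k=1}^{p-1} ℘''(k z₀)`,
  `g₃(Λ') = g₃ + 14 ∑_{k=1}^{p-1} (℘'(k z₀)² + ℘(k z₀) ℘''(k z₀))`.
-/
import Mathlib
import Fermat.Agent.S15lib.Dict.Lat

set_option autoImplicit false
set_option linter.style.haveILetI false
set_option linter.unusedSectionVars false

noncomputable section

namespace Fermat.Agent.S15lib.Dict.Lat

open Complex Finset Filter Topology
open Fermat.Agent.ProgramR.LevelOne
open scoped Nat PeriodPair

/-! ### cosets of `Λ` in `Λ + ℤ z₀` -/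

section Coset

variable (L : PeriodPair) {p : ℕ} {z₀ : ℂ}

/-- `k z₀ ∈ Λ ↔ p ∣ k` -/
theorem intCast_mul_mem_iff (hp : p.Prime) (hz₀ : z₀ ∉ L.lattice)
    (hpz : (p : ℂ) * z₀ ∈ L.lattice) (k : ℤ) : (k : ℂ) * z₀ ∈ L.lattice ↔ (p : ℤ) ∣ k := by
  constructor
  · intro hk
    by_contra hdvd
    have hprime : Prime (p : ℤ) := Nat.prime_iff_prime_int.1 hp
    have hcop : IsCoprime k (p : ℤ) := by
      rw [isCoprime_comm]
      exact (Prime.coprime_iff_not_dvd hprime).2 hdvd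
    obtain ⟨u, v, huv⟩ := hcop
    apply hz₀
    have h1 : z₀ = u • ((k : ℂ) * z₀) + v • ((p : ℂ) * z₀) := by
      have huvC : (u : ℂ) * k + v * p = 1 := by exact_mod_cast huv
      simp only [zsmul_eq_mul]
      linear_combination (-z₀) * huvC
    rw [h1]
    exact Submodule.add_mem _ (Submodule.smul_mem _ _ hk) (Submodule.smul_mem _ _ hpz)
  · rintro ⟨q, rfl⟩
    have : ((p * q : ℤ) : ℂ) * z₀ = q • ((p : ℂ) * z₀) := by
      simp only [zsmul_eq_mul]
      push_cast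
      ring
    rw [this]
    exact Submodule.smul_mem _ _ hpz

theorem natCast_mul_notMem (hp : p.Prime) (hz₀ : z₀ ∉ L.lattice)
    (hpz : (p : ℂ) * z₀ ∈ L.lattice) {k : ℕ} (hk : ¬ p ∣ k) : (k : ℂ) * z₀ ∉ L.lattice := by
  intro h
  have := (intCast_mul_mem_iff L hp hz₀ hpz k).1 (by simpa using h)
  exact hk (by exact_mod_cast this)

variable {L} {L' : PeriodPair}

/-- the map `(k, l) ↦ l + k z₀` from `Fin p × Λ` to `Λ'` -/
def cosetMap (hL' : L'.lattice = L.lattice ⊔ Submodule.span ℤ {z₀}) :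
    Fin p × L.lattice → L'.lattice := fun x =>
  ⟨(x.2 : ℂ) + ((x.1 : ℕ) : ℂ) * z₀, by
    rw [hL']
    exact mem_sup_span x.2.2 ((x.1 : ℕ) : ℤ) (by push_cast; rfl)⟩

theorem cosetMap_bijective (hp : p.Prime) (hz₀ : z₀ ∉ L.lattice)
    (hpz : (p : ℂ) * z₀ ∈ L.lattice)
    (hL' : L'.lattice = L.lattice ⊔ Submodule.span ℤ {z₀}) :
    Function.Bijective (cosetMap (p := p) hL') := by
  constructor
  · rintro ⟨k, l⟩ ⟨k', l'⟩ h
    have h1 : (l : ℂ) + ((k : ℕ) : ℂ) * z₀ = (l' : ℂ) + ((k' : ℕ) : ℂ) * z₀ :=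
      congrArg Subtype.val h
    have h2 : ((((k : ℕ) : ℤ) - ((k' : ℕ) : ℤ) : ℤ) : ℂ) * z₀ ∈ L.lattice := by
      have : ((((k : ℕ) : ℤ) - ((k' : ℕ) : ℤ) : ℤ) : ℂ) * z₀ = (l' : ℂ) - l := by
        push_cast
        linear_combination h1
      rw [this]
      exact Submodule.sub_mem _ l'.2 l.2
    have h3 := (intCast_mul_mem_iff L hp hz₀ hpz _).1 h2
    have hk : (k : ℕ) = (k' : ℕ) := by
      have hk1 := k.2
      have hk2 := k'.2
      obtain ⟨q, hq⟩ := h3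
      have hq0 : q = 0 := by
        by_contra hne
        have : (p : ℤ) ≤ |(p : ℤ) * q| := by
          rw [abs_mul]
          have h1 : (1 : ℤ) ≤ |q| := Int.one_le_abs hne
          have h2 : |(p : ℤ)| = p := abs_of_nonneg (by positivity)
          rw [h2]
          nlinarith [show (0 : ℤ) ≤ p by positivity]
        rw [← hq] at this
        have h4 : |((k : ℕ) : ℤ) - ((k' : ℕ) : ℤ)| < p := by
          rw [abs_lt]
          constructor <;> omega
        omega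
      rw [hq0, mul_zero] at hq
      omega
    have hkk : k = k' := Fin.ext hk
    subst hkk
    have hl : (l : ℂ) = l' := by linear_combination h1
    have : l = l' := Subtype.ext hl
    rw [this]
  · rintro ⟨x, hx⟩
    have hx' := hx
    rw [hL', Submodule.mem_sup] at hx'
    obtain ⟨y, hy, w, hw, rfl⟩ := hx'
    rw [Submodule.mem_span_singleton] at hw
    obtain ⟨c, rfl⟩ := hw
    have hpZ : (0 : ℤ) < p := by exact_mod_cast hp.pos
    have hlt : (c % (p : ℤ)).toNat < p := by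
      have h1 : c % (p : ℤ) < p := Int.emod_lt_of_pos _ hpZ
      have h2 : 0 ≤ c % (p : ℤ) := Int.emod_nonneg _ hpZ.ne'
      omega
    refine ⟨(⟨(c % (p : ℤ)).toNat, hlt⟩,
      ⟨y + (c / (p : ℤ)) • ((p : ℂ) * z₀),
        Submodule.add_mem _ hy (Submodule.smul_mem _ _ hpz)⟩), ?_⟩
    apply Subtype.ext
    show y + (c / (p : ℤ)) • ((p : ℂ) * z₀) + (((c % (p : ℤ)).toNat : ℕ) : ℂ) * z₀ = y + c • z₀
    have h2 : 0 ≤ c % (p : ℤ) := Int.emod_nonneg _ hpZ.ne'
    have h3 : (((c % (p : ℤ)).toNat : ℕ) : ℂ) = ((c % (p : ℤ) : ℤ) : ℂ) := by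
      have : (((c % (p : ℤ)).toNat : ℕ) : ℤ) = c % (p : ℤ) := Int.toNat_of_nonneg h2
      exact_mod_cast this
    have h4 : ((c % (p : ℤ) : ℤ) : ℂ) + (p : ℂ) * ((c / (p : ℤ) : ℤ) : ℂ) = c := by
      have := Int.emod_add_mul_ediv c (p : ℤ)
      exact_mod_cast this
    rw [h3]
    simp only [zsmul_eq_mul]
    linear_combination z₀ * h4

/-- **coset decomposition** of sums over `Λ' = Λ + ℤ z₀` -/
theorem tsum_superlattice (hp : p.Prime) (hz₀ : z₀ ∉ L.lattice)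
    (hpz : (p : ℂ) * z₀ ∈ L.lattice)
    (hL' : L'.lattice = L.lattice ⊔ Submodule.span ℤ {z₀}) (f : ℂ → ℂ)
    (hf : Summable fun l : L'.lattice => f l) :
    ∑' l : L'.lattice, f l = ∑ k ∈ Finset.range p, ∑' l : L.lattice, f (l + k * z₀) := by
  set e := Equiv.ofBijective _ (cosetMap_bijective hp hz₀ hpz hL')
  have hf' : Summable fun x : Fin p × L.lattice => f (e x) := (e.summable_iff).2 hf
  rw [← e.tsum_eq (fun l : L'.lattice => f l), hf'.tsum_prod, tsum_fintype,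
    ← Fin.sum_univ_eq_sum_range (fun k => ∑' l : L.lattice, f (l + k * z₀)) p]
  rfl

/-- summability on the cosets -/
theorem summable_coset (hp : p.Prime) (hz₀ : z₀ ∉ L.lattice)
    (hpz : (p : ℂ) * z₀ ∈ L.lattice)
    (hL' : L'.lattice = L.lattice ⊔ Submodule.span ℤ {z₀}) (f : ℂ → ℂ)
    (hf : Summable fun l : L'.lattice => f l) {k : ℕ} (hk : k < p) :
    Summable fun l : L.lattice => f (l + k * z₀) := by
  set e := Equiv.ofBijective _ (cosetMap_bijective hp hz₀ hpz hL')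
  have hf' : Summable fun x : Fin p × L.lattice => f (e x) := (e.summable_iff).2 hf
  exact hf'.prod_factor ⟨k, hk⟩

end Coset

/-! ### derivatives of `℘` as lattice sums -/

section Deriv

variable (L : PeriodPair)

/-- `℘⁽ⁿ⁾(x) = (n+1)! ∑_l (l - x)^{-(n+2)}` off the lattice -/
theorem iteratedDeriv_weierstrassP {x : ℂ} (hx : x ∉ L.lattice) {n : ℕ} (hn : n ≠ 0) :
    iteratedDeriv n ℘[L] x = (n + 1)! * L.sumInvPow x (n + 2) := by
  have h := L.iteratedDeriv_weierstrassPExcept_self x (n := n)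
  rw [L.weierstrassPExcept_of_notMem x hx, if_neg hn] at h
  exact h

theorem isOpen_compl_lattice : IsOpen (L.lattice : Set ℂ)ᶜ := L.isClosed_lattice.isOpen_compl

theorem differentiableAt_weierstrassP {x : ℂ} (hx : x ∉ L.lattice) :
    DifferentiableAt ℂ ℘[L] x :=
  (L.differentiableOn_weierstrassP x hx).differentiableAt
    ((isOpen_compl_lattice L).mem_nhds hx)

theorem differentiableAt_derivWeierstrassP {x : ℂ} (hx : x ∉ L.lattice) :
    DifferentiableAt ℂ ℘'[L] x :=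
  (L.differentiableOn_derivWeierstrassP x hx).differentiableAt
    ((isOpen_compl_lattice L).mem_nhds hx)

theorem hasDerivAt_weierstrassP {x : ℂ} (hx : x ∉ L.lattice) :
    HasDerivAt ℘[L] (℘'[L] x) x := by
  have := (differentiableAt_weierstrassP L hx).hasDerivAt
  rwa [L.deriv_weierstrassP] at this

theorem isPreconnected_compl_lattice : IsPreconnected (L.lattice : Set ℂ)ᶜ := by
  have hr : 1 < Module.rank ℝ ℂ := by
    rw [Complex.rank_real_complex]; norm_num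
  exact ((countable_lattice L).isPathConnected_compl_of_one_lt_rank hr).isConnected.isPreconnected

/-- helper8's `wpDD`: `6 ℘² - g₂/2` (the second derivative of `℘`) -/
def wpDD (L : PeriodPair) (z : ℂ) : ℂ := 6 * ℘[L] z ^ 2 - L.g₂ / 2

/-- **the second derivative of `℘` is `6℘² - g₂/2`** off the lattice -/
theorem deriv_derivWeierstrassP {z : ℂ} (hz : z ∉ L.lattice) :
    deriv ℘'[L] z = 6 * ℘[L] z ^ 2 - L.g₂ / 2 := by
  set U : Set ℂ := (L.lattice : Set ℂ)ᶜ with hU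
  have hUo : IsOpen U := isOpen_compl_lattice L
  -- `℘' · (2℘'' - 12℘² + g₂) = 0` on `U`
  have hprod : ∀ x ∈ U, ℘'[L] x * (2 * deriv ℘'[L] x - 12 * ℘[L] x ^ 2 + L.g₂) = 0 := by
    intro x hx
    have hx' : x ∉ L.lattice := hx
    have h1 : HasDerivAt (fun w => ℘'[L] w ^ 2) (2 * ℘'[L] x * deriv ℘'[L] x) x := by
      have h0 := (differentiableAt_derivWeierstrassP L hx').hasDerivAt
      exact (h0.fun_pow 2).congr_deriv (by norm_num)
    have h2 : HasDerivAt (fun w => 4 * ℘[L] w ^ 3 - L.g₂ * ℘[L] w - L.g₃)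
        (4 * (3 * ℘[L] x ^ 2 * ℘'[L] x) - L.g₂ * ℘'[L] x) x := by
      have hP := hasDerivAt_weierstrassP L hx'
      exact ((((hP.fun_pow 3).const_mul 4).fun_sub (hP.const_mul L.g₂)).fun_sub
        (hasDerivAt_const x L.g₃)).congr_deriv (by norm_num)
    have heq : (fun w => ℘'[L] w ^ 2) =ᶠ[𝓝 x]
        fun w => 4 * ℘[L] w ^ 3 - L.g₂ * ℘[L] w - L.g₃ := by
      filter_upwards [hUo.mem_nhds hx] with w hw
      exact L.derivWeierstrassP_sq w hw
    have h3 := h1.unique (h2.congr_of_eventuallyEq heq)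
    linear_combination h3
  -- the analytic function `f = 2℘'' - 12℘² + g₂`
  set f : ℂ → ℂ := fun x => 2 * deriv ℘'[L] x - 12 * ℘[L] x ^ 2 + L.g₂ with hf
  have hfA : AnalyticOnNhd ℂ f U := by
    have hA1 : AnalyticOnNhd ℂ ℘[L] U := L.analyticOnNhd_weierstrassP
    have hA2 : AnalyticOnNhd ℂ (deriv ℘'[L]) U := L.analyticOnNhd_derivWeierstrassP.deriv
    intro x hx
    have h1 := hA1 x hx
    have h2 := hA2 x hx
    exact ((analyticAt_const.mul h2).sub (analyticAt_const.mul (h1.pow 2))).add analyticAt_const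
  -- `℘' ≠ 0` on a punctured neighbourhood of `0`
  have hQ : ∀ᶠ w in 𝓝 (0 : ℂ), wpQ L w ≠ 0 := by
    have hc : ContinuousAt (wpQ L) 0 := (analyticAt_wpQ L).continuousAt
    have h0 : wpQ L 0 ≠ 0 := by rw [wpQ_zero]; norm_num
    exact hc.eventually_ne h0
  have hev : ∀ᶠ w in 𝓝 (0 : ℂ), w ≠ 0 → (f w = 0 ∧ w ∈ U) := by
    filter_upwards [hQ, eventually_not_mem_lattice L] with w hw hwl hw0
    have hwU : w ∈ U := hwl hw0
    refine ⟨?_, hwU⟩
    have h1 := hprod w hwU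
    rw [wpQ_eq L hw0] at hw
    have h2 : ℘'[L] w ≠ 0 := fun h => hw (by rw [h, mul_zero])
    exact (mul_eq_zero.1 h1).resolve_left h2
  have hev2 := eventually_eventually_nhds.mpr hev
  have hfreq : ∃ᶠ w in 𝓝 (0 : ℂ), w ≠ 0 := by
    have h1 : ∃ᶠ w in 𝓝[≠] (0 : ℂ), w ≠ 0 :=
      (eventually_mem_nhdsWithin (a := (0 : ℂ)) (s := {0}ᶜ)).frequently
    exact h1.filter_mono nhdsWithin_le_nhds
  obtain ⟨z₁, ⟨hz₁, hz₁'⟩, hz₁0⟩ := ((hev2.and hev).and_frequently hfreq).exists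
  have hne : ∀ᶠ w in 𝓝 z₁, w ≠ 0 := (continuous_id.continuousAt).eventually_ne hz₁0
  have heq : f =ᶠ[𝓝 z₁] (fun _ => (0 : ℂ)) := by
    filter_upwards [hz₁, hne] with w hw hw0
    exact (hw hw0).1
  have hzero := hfA.eqOn_of_preconnected_of_eventuallyEq analyticOnNhd_const
    (isPreconnected_compl_lattice L) (hz₁' hz₁0).2 heq
  have := hzero hz
  simp only [hf] at this
  linear_combination (1 / 2 : ℂ) * this

theorem deriv_derivWeierstrassP' {z : ℂ} (hz : z ∉ L.lattice) :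
    deriv ℘'[L] z = wpDD L z := deriv_derivWeierstrassP L hz

/-- the second derivative as a lattice sum: `wpDD = 6 ∑ (l - x)⁻⁴` -/
theorem wpDD_eq_sumInvPow {x : ℂ} (hx : x ∉ L.lattice) : wpDD L x = 6 * L.sumInvPow x 4 := by
  rw [← deriv_derivWeierstrassP' L hx]
  have h := iteratedDeriv_weierstrassP L hx (n := 2) (by norm_num)
  rw [iteratedDeriv_succ', iteratedDeriv_one, L.deriv_weierstrassP] at h
  rw [h]
  norm_num [Nat.factorial]

/-- the fourth derivative: `12 (℘'² + ℘ ℘'')` -/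
theorem iteratedDeriv_four_weierstrassP {x : ℂ} (hx : x ∉ L.lattice) :
    iteratedDeriv 4 ℘[L] x = 12 * (℘'[L] x ^ 2 + ℘[L] x * wpDD L x) := by
  have hUo : IsOpen (L.lattice : Set ℂ)ᶜ := isOpen_compl_lattice L
  rw [iteratedDeriv_succ', L.deriv_weierstrassP, iteratedDeriv_succ']
  have h1 : deriv ℘'[L] =ᶠ[𝓝 x] wpDD L := by
    filter_upwards [hUo.mem_nhds hx] with w hw
    exact deriv_derivWeierstrassP' L hw
  rw [h1.iteratedDeriv_eq 2, iteratedDeriv_succ, iteratedDeriv_one]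
  have h2 : deriv (wpDD L) =ᶠ[𝓝 x] fun w => 12 * (℘[L] w * ℘'[L] w) := by
    filter_upwards [hUo.mem_nhds hx] with w hw
    have hP := hasDerivAt_weierstrassP L hw
    have : HasDerivAt (wpDD L) (6 * (2 * ℘[L] w * ℘'[L] w)) w := by
      have h0 := ((hP.fun_pow 2).const_mul 6).fun_sub (hasDerivAt_const w (L.g₂ / 2))
      have h1 : wpDD L = fun y => 6 * ℘[L] y ^ 2 - L.g₂ / 2 := rfl
      rw [h1]
      exact h0.congr_deriv (by norm_num)
    rw [this.deriv]
    ring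
  rw [h2.deriv_eq]
  have hP := hasDerivAt_weierstrassP L hx
  have hP' : HasDerivAt ℘'[L] (wpDD L x) x := by
    have := (differentiableAt_derivWeierstrassP L hx).hasDerivAt
    rwa [deriv_derivWeierstrassP' L hx] at this
  have := ((hP.fun_mul hP').const_mul 12)
  rw [this.deriv]
  ring

/-- the fourth derivative as a lattice sum -/
theorem wp4_eq_sumInvPow {x : ℂ} (hx : x ∉ L.lattice) :
    12 * (℘'[L] x ^ 2 + ℘[L] x * wpDD L x) = 120 * L.sumInvPow x 6 := by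
  rw [← iteratedDeriv_four_weierstrassP L hx, iteratedDeriv_weierstrassP L hx (n := 4) (by norm_num)]
  norm_num [Nat.factorial]

/-- `∑ (l + x)⁻ⁿ = ∑ (l - x)⁻ⁿ` for even `n` -/
theorem sumInvPow_neg (x : ℂ) {n : ℕ} (hn : Even n) : L.sumInvPow (-x) n = L.sumInvPow x n := by
  unfold PeriodPair.sumInvPow
  rw [← (Equiv.neg L.lattice).tsum_eq]
  refine tsum_congr fun l => ?_
  simp only [Equiv.neg_apply, NegMemClass.coe_neg, sub_neg_eq_add]
  rw [← hn.neg_pow]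
  ring_nf

end Deriv

/-! ### Vélu's formulas for `g₂`, `g₃` of the superlattice -/

section Velu

variable {L L' : PeriodPair} {p : ℕ} {z₀ : ℂ}

/-- `G_n(Λ') = G_n(Λ) + ∑_{k=1}^{p-1} ∑_l (l - k z₀)⁻ⁿ`, `n ≥ 4` even -/
theorem G_superlattice (hp : p.Prime) (hz₀ : z₀ ∉ L.lattice) (hpz : (p : ℂ) * z₀ ∈ L.lattice)
    (hL' : L'.lattice = L.lattice ⊔ Submodule.span ℤ {z₀}) {n : ℕ} (hn : 2 < n) (heven : Even n) :
    L'.G n = L.G n + ∑ k ∈ Finset.Icc 1 (p - 1), L.sumInvPow (k * z₀) n := by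
  have hsum : Summable fun l : L'.lattice => (((l : ℂ)) ^ n)⁻¹ := by
    have := (L'.hasSum_sumInvPow 0 hn).summable
    simpa using this
  have h := tsum_superlattice hp hz₀ hpz hL' (fun w => (w ^ n)⁻¹) hsum
  rw [PeriodPair.G, h]
  have hrange : Finset.range p = insert 0 (Finset.Icc 1 (p - 1)) := by
    ext k
    simp only [Finset.mem_range, Finset.mem_insert, Finset.mem_Icc]
    have := hp.pos
    omega
  rw [hrange, Finset.sum_insert (by simp)]
  congr 1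
  · simp [PeriodPair.G]
  · refine Finset.sum_congr rfl fun k _ => ?_
    rw [← sumInvPow_neg L _ heven]
    unfold PeriodPair.sumInvPow
    refine tsum_congr fun l => ?_
    rw [sub_neg_eq_add]

theorem g₂_superlattice (hp : p.Prime) (hz₀ : z₀ ∉ L.lattice) (hpz : (p : ℂ) * z₀ ∈ L.lattice)
    (hL' : L'.lattice = L.lattice ⊔ Submodule.span ℤ {z₀}) :
    L'.g₂ = L.g₂ + 10 * ∑ k ∈ Finset.Icc 1 (p - 1), wpDD L (k * z₀) := by
  rw [PeriodPair.g₂, PeriodPair.g₂, G_superlattice hp hz₀ hpz hL' (by norm_num) (by decide),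
    mul_add, Finset.mul_sum, Finset.mul_sum]
  congr 1
  refine Finset.sum_congr rfl fun k hk => ?_
  have hk' : ¬ p ∣ k := by
    rw [Finset.mem_Icc] at hk
    intro hdvd
    have := Nat.le_of_dvd (by omega) hdvd
    have := hp.pos
    omega
  rw [wpDD_eq_sumInvPow L (natCast_mul_notMem L hp hz₀ hpz hk')]
  ring

theorem g₃_superlattice (hp : p.Prime) (hz₀ : z₀ ∉ L.lattice) (hpz : (p : ℂ) * z₀ ∈ L.lattice)
    (hL' : L'.lattice = L.lattice ⊔ Submodule.span ℤ {z₀}) :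
    L'.g₃ = L.g₃ + 14 * ∑ k ∈ Finset.Icc 1 (p - 1),
      (℘'[L] (k * z₀) ^ 2 + ℘[L] (k * z₀) * wpDD L (k * z₀)) := by
  rw [PeriodPair.g₃, PeriodPair.g₃, G_superlattice hp hz₀ hpz hL' (by norm_num) (by decide),
    mul_add, Finset.mul_sum, Finset.mul_sum]
  congr 1
  refine Finset.sum_congr rfl fun k hk => ?_
  have hk' : ¬ p ∣ k := by
    rw [Finset.mem_Icc] at hk
    intro hdvd
    have := Nat.le_of_dvd (by omega) hdvd
    have := hp.pos
    omega
  have h := wp4_eq_sumInvPow L (natCast_mul_notMem L hp hz₀ hpz hk')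
  linear_combination (-7 / 6 : ℂ) * h

end Velu

/-! ### the modular equation for Vélu's invariants -/

section Modular

open Fermat.Agent.S28lib Fermat.Agent.S37lib.ConjNorm

/-- the superlattice `Λ + ℤ z₀` as a period pair, with Vélu's formulas for its invariants and the
modular equation -/
theorem exists_superlattice_velu (L : PeriodPair) {p : ℕ} [Fact p.Prime] {z₀ : ℂ}
    (hz₀ : z₀ ∉ L.lattice) (hpz : (p : ℂ) * z₀ ∈ L.lattice) :
    ∃ L' : PeriodPair, L'.lattice = L.lattice ⊔ Submodule.span ℤ {z₀} ∧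
      L'.g₂ = L.g₂ + 10 * ∑ k ∈ Finset.Icc 1 (p - 1), wpDD L (k * z₀) ∧
      L'.g₃ = L.g₃ + 14 * ∑ k ∈ Finset.Icc 1 (p - 1),
        (℘'[L] (k * z₀) ^ 2 + ℘[L] (k * z₀) * wpDD L (k * z₀)) ∧
      biEval₂ zbIncl (phiZ p) (jL L') (jL L) = 0 := by
  have hp : p.Prime := Fact.out
  obtain ⟨L', hL', hΦ⟩ := exists_superlattice L hz₀ hpz
  exact ⟨L', hL', g₂_superlattice hp hz₀ hpz hL', g₃_superlattice hp hz₀ hpz hL', hΦ⟩

/-- **the second conjunct of helper8's `VeluLatStmt`** (with `wpDD` unfolded) -/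
theorem veluLat_modular {p : ℕ} [Fact p.Prime] (L : PeriodPair) (z₀ : ℂ)
    (hz : z₀ ∉ L.lattice) (hpz : (p : ℂ) * z₀ ∈ L.lattice) :
    let g₂' : ℂ := L.g₂ + 10 * ∑ k ∈ Finset.Icc 1 (p - 1),
      (6 * L.weierstrassP (k * z₀) ^ 2 - L.g₂ / 2)
    let g₃' : ℂ := L.g₃ + 14 * ∑ k ∈ Finset.Icc 1 (p - 1),
      (L.derivWeierstrassP (k * z₀) ^ 2 +
        L.weierstrassP (k * z₀) * (6 * L.weierstrassP (k * z₀) ^ 2 - L.g₂ / 2))
    biEval₂ zbIncl (phiZ p) (1728 * g₂' ^ 3 / (g₂' ^ 3 - 27 * g₃' ^ 2))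
      (1728 * L.g₂ ^ 3 / (L.g₂ ^ 3 - 27 * L.g₃ ^ 2)) = 0 := by
  intro g₂' g₃'
  obtain ⟨L', _, h2, h3, hΦ⟩ := exists_superlattice_velu L hz hpz
  have e2 : L'.g₂ = g₂' := h2
  have e3 : L'.g₃ = g₃' := h3
  rw [jL, jL, e2, e3] at hΦ
  exact hΦ

/-- the discriminant of Vélu's invariants is the discriminant of the superlattice; in particular
it does not vanish -/
theorem veluLat_disc_ne_zero {p : ℕ} [Fact p.Prime] (L : PeriodPair) (z₀ : ℂ)
    (hz : z₀ ∉ L.lattice) (hpz : (p : ℂ) * z₀ ∈ L.lattice) :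
    let g₂' : ℂ := L.g₂ + 10 * ∑ k ∈ Finset.Icc 1 (p - 1),
      (6 * L.weierstrassP (k * z₀) ^ 2 - L.g₂ / 2)
    let g₃' : ℂ := L.g₃ + 14 * ∑ k ∈ Finset.Icc 1 (p - 1),
      (L.derivWeierstrassP (k * z₀) ^ 2 +
        L.weierstrassP (k * z₀) * (6 * L.weierstrassP (k * z₀) ^ 2 - L.g₂ / 2))
    g₂' ^ 3 - 27 * g₃' ^ 2 ≠ 0 := by
  intro g₂' g₃'
  obtain ⟨L', _, h2, h3, _⟩ := exists_superlattice_velu L hz hpz
  have e2 : L'.g₂ = g₂' := h2
  have e3 : L'.g₃ = g₃' := h3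
  rw [← e2, ← e3]
  exact disc_ne_zero L'

end Modular

end Fermat.Agent.S15lib.Dict.Lat
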