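/-
S15lib / Dict / ModRedAbs  (helper8) — Project E, block (DICT), modular layer (M)

Abstract part of the reduction argument, over a reduction datum `D : RedDatum A F Fk`:
if `f ∈ O^×` takes a unit value `u₀ ∈ A^×` at the place `x`, vanishes at the place `c`, and has no
pole in the fibre of `r` through `x`, then `r x ≠ r c`  (`r_ne_of_value`).

Also: values of ratios `t / s^n` at a place (`ord_ratio_sub_pos`).
-/
import Mathlib
import Fermat.Agent.S18lib.Setup.DatumFibre
import Fermat.Agent.S18lib.Cech.CurveBasics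

set_option autoImplicit false
set_option linter.unusedSectionVars false

noncomputable section

namespace Fermat.Agent.S15lib.Dict

open AlgebraicCurve Fermat.Agent.S18lib

/-! ### push-forward of a divisor which is effective on one fibre -/

theorem mapDomain_pos_of_fibre {ι κ : Type*} (r : ι → κ) (E : ι →₀ ℤ) (Q : κ)
    (hnn : ∀ P, r P = Q → 0 ≤ E P) {P₀ : ι} (hP₀ : r P₀ = Q) (hpos : 0 < E P₀) :
    0 < Finsupp.mapDomain r E Q := by
  classical
  rw [mapDomain_apply_eq_sum]
  have hmem : P₀ ∈ E.support := Finsupp.mem_support_iff.mpr hpos.ne'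
  have hterm : ∀ P ∈ E.support, 0 ≤ (if r P = Q then E P else 0) := fun P _ => by
    split_ifs with h
    · exact hnn P h
    · exact le_rfl
  have h1 := Finset.single_le_sum hterm hmem
  rw [if_pos hP₀] at h1
  exact lt_of_lt_of_le hpos h1

/-! ### values of ratios -/

section Ratio

variable {K F : Type*} [Field K] [Field F] [Algebra K F]

/-- positivity of `ord` in terms of the adic valuation -/
theorem adicValuation_lt_one_of_ord_pos (P : Place K F) {f : F} (h : 0 < P.ord f) :
    P.adicValuation f < 1 := by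
  have hf : f ≠ 0 := by
    rintro rfl
    rw [Place.ord_zero] at h
    exact lt_irrefl _ h
  have h0 := P.adicValuation_ne_zero hf
  unfold Place.ord at h
  have h1 : WithZero.log (P.adicValuation f) < 0 := by omega
  rw [← WithZero.log_one] at h1
  exact (WithZero.log_lt_log h0 one_ne_zero).mp h1

theorem ord_pos_of_adicValuation_lt_one (P : Place K F) {f : F} (hf : f ≠ 0)
    (h : P.adicValuation f < 1) : 0 < P.ord f := by
  have h0 := P.adicValuation_ne_zero hf
  have h1 : WithZero.log (P.adicValuation f) < WithZero.log 1 :=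
    (WithZero.log_lt_log h0 one_ne_zero).mpr h
  rw [WithZero.log_one] at h1
  unfold Place.ord
  omega

theorem adicValuation_algebraMap (P : Place K F) {c : K} (hc : c ≠ 0) :
    P.adicValuation (algebraMap K F c) = 1 := by
  have h1 : algebraMap K F c ∈ P.toValuationSubring := P.algebraMap_mem' c
  have h2 : algebraMap K F c⁻¹ ∈ P.toValuationSubring := P.algebraMap_mem' c⁻¹
  have hmul : (⟨algebraMap K F c, h1⟩ : P.toValuationSubring) * ⟨algebraMap K F c⁻¹, h2⟩ = 1 := by
    ext
    simp only [MulMemClass.mk_mul_mk, OneMemClass.coe_one]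
    rw [← map_mul, mul_inv_cancel₀ hc, map_one]
  have hu : IsUnit (⟨algebraMap K F c, h1⟩ : P.toValuationSubring) := IsUnit.of_mul_eq_one _ hmul
  exact (P.adicValuation_coe_eq_one_iff ⟨algebraMap K F c, h1⟩).mpr hu

/-- if `s ≡ α ≠ 0` and `t ≡ β` at `P` then `t / s^n ≡ β / α^n` at `P` -/
theorem adicValuation_ratio_sub_lt_one (P : Place K F) {s t : F} {α β : K} (hα : α ≠ 0)
    (hs : P.adicValuation (s - algebraMap K F α) < 1)
    (ht : P.adicValuation (t - algebraMap K F β) < 1) (n : ℕ) :
    P.adicValuation (t * (s⁻¹) ^ n - algebraMap K F (β * (α⁻¹) ^ n)) < 1 := by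
  set v := P.adicValuation with hv
  have hvα : v (algebraMap K F α) = 1 := adicValuation_algebraMap P hα
  have hvs : v s = 1 := by
    have e : s = (s - algebraMap K F α) + algebraMap K F α := by ring
    rw [e, Valuation.map_add_eq_of_lt_right v (by rw [hvα]; exact hs), hvα]
  have hs0 : s ≠ 0 := by
    rintro rfl
    rw [map_zero] at hvs
    exact zero_ne_one hvs
  have hα0 : algebraMap K F α ≠ 0 := (map_ne_zero _).2 hα
  have hvβ : v (algebraMap K F β) ≤ 1 := by
    rcases eq_or_ne β 0 with rfl | hβ
    · rw [map_zero, map_zero]; exact zero_le_one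
    · rw [adicValuation_algebraMap P hβ]
  -- `s^n ≡ α^n`
  have hpow : v (s ^ n - algebraMap K F α ^ n) < 1 := by
    have hcomm : Commute s (algebraMap K F α) := Commute.all _ _
    rw [← hcomm.geom_sum₂_mul, map_mul]
    have hsum : v (∑ i ∈ Finset.range n, s ^ i * algebraMap K F α ^ (n - 1 - i)) ≤ 1 := by
      refine Valuation.map_sum_le v fun i _ => ?_
      rw [map_mul, map_pow, map_pow, hvs, hvα, one_pow, one_pow, one_mul]
    calc v (∑ i ∈ Finset.range n, s ^ i * algebraMap K F α ^ (n - 1 - i)) *
          v (s - algebraMap K F α) ≤ 1 * v (s - algebraMap K F α) :=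
          mul_le_mul_left hsum _
      _ < 1 := by rw [one_mul]; exact hs
  have e : t * (s⁻¹) ^ n - algebraMap K F (β * (α⁻¹) ^ n) =
      (t - algebraMap K F β) * (s⁻¹) ^ n +
        algebraMap K F β * (-(s ^ n - algebraMap K F α ^ n) * ((s⁻¹) ^ n * (algebraMap K F α)⁻¹ ^ n)) := by
    rw [map_mul, map_pow, map_inv₀]
    have h1 : s ^ n * (s⁻¹) ^ n = 1 := by rw [← mul_pow, mul_inv_cancel₀ hs0, one_pow]
    have h2 : algebraMap K F α ^ n * ((algebraMap K F α)⁻¹) ^ n = 1 := by
      rw [← mul_pow, mul_inv_cancel₀ hα0, one_pow]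
    linear_combination (algebraMap K F β * ((algebraMap K F α)⁻¹) ^ n) * h1 -
      (algebraMap K F β * (s⁻¹) ^ n) * h2
  rw [e]
  refine Valuation.map_add_lt v ?_ ?_
  · rw [map_mul, map_pow, map_inv₀, hvs, inv_one, one_pow, mul_one]
    exact ht
  · rw [map_mul, map_mul, map_mul, map_pow, map_pow, map_inv₀, map_inv₀, hvs, hvα, inv_one, one_pow,
      mul_one, mul_one, Valuation.map_neg]
    calc v (algebraMap K F β) * v (s ^ n - algebraMap K F α ^ n)
        ≤ 1 * v (s ^ n - algebraMap K F α ^ n) := mul_le_mul_left hvβ _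
      _ < 1 := by rw [one_mul]; exact hpow

end Ratio

/-! ### the separation lemma -/

namespace RedDatumAux

variable {L : Type*} [Field L] {A : ValuationSubring L}
variable {F : Type*} [Field F] [Algebra L F]
variable {Fk : Type*} [Field Fk] [Algebra (IsLocalRing.ResidueField A) Fk]
variable (D : RedDatum A F Fk)
variable [HasPrincipalDivisors L F] [HasPrincipalDivisors (IsLocalRing.ResidueField A) Fk]

local notation "k" => IsLocalRing.ResidueField A

/-- **separation**: `f ∈ O^×` with a unit value `u₀` at `x`, a zero at `c` and no pole in the fibre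
of `r` through `x`: then `r x ≠ r c`. -/
theorem r_ne_of_value {f : F} (hf0 : D.redF f ≠ 0) (u₀ : A)
    (hu₀ : IsLocalRing.residue A u₀ ≠ 0) {x c : Place L F}
    (hx : 0 < x.ord (f - algebraMap L F (u₀ : L))) (hc : 0 < c.ord f)
    (hreg : ∀ P : Place L F, D.r P = D.r x → 0 ≤ P.ord f) : D.r x ≠ D.r c := by
  intro hxc
  have hfO : f ∈ D.O := D.mem_of_redF_ne_zero hf0
  set Q := D.r x with hQ
  -- `f̄` vanishes at `Q`
  have h1 : 0 < Q.ord (D.redF f) := by
    have := mapDomain_pos_of_fibre D.r (divOf (K := L) f) Q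
      (fun P hP => by rw [divOf_apply']; exact hreg P hP) hxc.symm
      (by rw [divOf_apply']; exact hc)
    rwa [D.mapDomain_divOf hf0, divOf_apply'] at this
  have hred : D.redF (f - algebraMap L F (u₀ : L)) =
      D.redF f - algebraMap k Fk (IsLocalRing.residue A u₀) := by
    rw [D.redF_sub hfO (D.algebraMap_mem u₀), D.redF_algebraMap]
  have hconst : Q.ord (algebraMap k Fk (IsLocalRing.residue A u₀)) = 0 :=
    ord_algebraMap_eq_zero Q hu₀
  have hne : D.redF (f - algebraMap L F (u₀ : L)) ≠ 0 := by
    rw [hred, sub_ne_zero]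
    intro h0
    rw [h0, hconst] at h1
    exact lt_irrefl _ h1
  -- `f̄ - ū₀` vanishes at `Q`
  have h2 : 0 < Q.ord (D.redF f - algebraMap k Fk (IsLocalRing.residue A u₀)) := by
    have hu0L : (u₀ : L) ≠ 0 := by
      intro h0
      apply hu₀
      have : u₀ = 0 := Subtype.ext h0
      rw [this, map_zero]
    have := mapDomain_pos_of_fibre D.r (divOf (K := L) (f - algebraMap L F (u₀ : L))) Q
      (fun P hP => by
        rw [divOf_apply']
        have h3 : 0 ≤ P.ord f := hreg P hP
        have h4 : P.ord (algebraMap L F (u₀ : L)) = 0 := ord_algebraMap_eq_zero P hu0L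
        by_cases hz : f - algebraMap L F (u₀ : L) = 0
        · rw [hz, Place.ord_zero]
        · have hfz : f ≠ 0 := by
            rintro rfl
            rw [D.redF_zero] at hf0
            exact hf0 rfl
          have := Fermat.Agent.S18lib.Cech.ord_add_ge P (f := f) (g := -algebraMap L F (u₀ : L))
            (n := 0) (Or.inr h3) (Or.inr (by rw [Fermat.Agent.S18lib.Cech.ord_neg, h4]))
          rw [← sub_eq_add_neg] at this
          rcases this with h5 | h5
          · exact absurd h5 hz
          · exact h5)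
      rfl (by rw [divOf_apply']; exact hx)
    rwa [D.mapDomain_divOf hne, divOf_apply', hred] at this
  -- contradiction: the nonzero constant `ū₀` would vanish at `Q`
  have hf0' : D.redF f ≠ 0 := hf0
  have e : algebraMap k Fk (IsLocalRing.residue A u₀) =
      D.redF f + -(D.redF f - algebraMap k Fk (IsLocalRing.residue A u₀)) := by ring
  have h3 := Fermat.Agent.S18lib.Cech.ord_add_ge Q (f := D.redF f)
    (g := -(D.redF f - algebraMap k Fk (IsLocalRing.residue A u₀))) (n := 1)
    (Or.inr (by omega)) (Or.inr (by rw [Fermat.Agent.S18lib.Cech.ord_neg]; omega))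
  rw [← e, hconst] at h3
  rcases h3 with h3 | h3
  · rw [map_eq_zero] at h3
    exact hu₀ h3
  · omega

end RedDatumAux

end Fermat.Agent.S15lib.Dict
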