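/-
S15lib / Dict / PhiShape  (helper8)  — Project E, block DICT, modular layer (M)

**The shape of the modular polynomial `Φ_p = phiZ p` (over the algebraic integers `Zb`).**
Writing `Φ_p = ∑_m c_m(Y) X^m` (outer variable `X`, inner variable `Y`, as in `S28lib`):

* `natDegree_coeff_le`     : `deg c_m ≤ p` for `1 ≤ m ≤ p`;
* `coeff_coeff_p`          : the coefficient of `Y^p` in `c_p` is `-1`;
* `natDegree_coeff_zero_le`: `deg c_0 ≤ p + 1`;
* `coeff_zero_coeff`       : the coefficient of `Y^{p+1}` in `c_0` is `1`   (`p` odd).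

All of this is read off from the factored modular equation `S28lib.phiZ_factor`
`Φ_p(X, j(q^p)) = (X - j(q^{p²})) ∏_{i<p} (X - j(ζ^i q))` by comparing pole orders in `q`.
-/
import Mathlib
import Fermat.Agent.S28lib.PhiIntegral

set_option autoImplicit false

noncomputable section

namespace Fermat.Agent.S15lib.Dict

open ModularCurve Polynomial Fermat.Agent.S28lib

/-! ### a poor man's order function on Laurent series -/

section OrdGE

variable {R : Type*} [CommRing R]

/-- all coefficients of `f` below `n` vanish -/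
def OrdGE (f : LaurentSeries R) (n : ℤ) : Prop := ∀ m, m < n → f.coeff m = 0

theorem OrdGE.mono {f : LaurentSeries R} {a b : ℤ} (h : OrdGE f a) (hab : b ≤ a) : OrdGE f b :=
  fun m hm => h m (lt_of_lt_of_le hm hab)

theorem OrdGE.add {f g : LaurentSeries R} {a : ℤ} (hf : OrdGE f a) (hg : OrdGE g a) :
    OrdGE (f + g) a := fun m hm => by
  rw [HahnSeries.coeff_add, hf m hm, hg m hm, add_zero]

theorem OrdGE.neg {f : LaurentSeries R} {a : ℤ} (hf : OrdGE f a) : OrdGE (-f) a := fun m hm => by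
  rw [HahnSeries.coeff_neg, hf m hm, neg_zero]

theorem OrdGE.sub {f g : LaurentSeries R} {a : ℤ} (hf : OrdGE f a) (hg : OrdGE g a) :
    OrdGE (f - g) a := by
  rw [sub_eq_add_neg]; exact hf.add hg.neg

theorem ordGE_zero (a : ℤ) : OrdGE (0 : LaurentSeries R) a := fun _ _ => rfl

theorem ordGE_one : OrdGE (1 : LaurentSeries R) 0 := fun m hm => by
  rw [HahnSeries.coeff_one, if_neg (ne_of_lt hm)]

/-- the coefficients of a product below and at the sum of the orders -/
theorem coeff_mul_of_ordGE {f g : LaurentSeries R} {a b : ℤ} (hf : OrdGE f a) (hg : OrdGE g b) :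
    OrdGE (f * g) (a + b) ∧ (f * g).coeff (a + b) = f.coeff a * g.coeff b := by
  constructor
  · intro m hm
    rw [HahnSeries.coeff_mul]
    apply Finset.sum_eq_zero
    intro ij hij
    obtain ⟨hi, hj, hsum⟩ := Finset.mem_antidiagonal.mp hij
    exfalso
    have h1 : a ≤ ij.1 := by
      by_contra hlt
      exact hi (hf _ (not_le.mp hlt))
    have h2 : b ≤ ij.2 := by
      by_contra hlt
      exact hj (hg _ (not_le.mp hlt))
    omega
  · rw [HahnSeries.coeff_mul]
    by_cases hab : f.coeff a = 0 ∨ g.coeff b = 0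
    · rw [Finset.sum_eq_zero]
      · rcases hab with h | h
        · rw [h, zero_mul]
        · rw [h, mul_zero]
      · intro ij hij
        obtain ⟨hi, hj, hsum⟩ := Finset.mem_antidiagonal.mp hij
        have h1 : a ≤ ij.1 := by
          by_contra hlt
          exact hi (hf _ (not_le.mp hlt))
        have h2 : b ≤ ij.2 := by
          by_contra hlt
          exact hj (hg _ (not_le.mp hlt))
        have h3 : ij.1 = a := by omega
        have h4 : ij.2 = b := by omega
        rcases hab with h | h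
        · rw [h3, h, zero_mul]
        · rw [h4, h, mul_zero]
    · push Not at hab
      rw [Finset.sum_eq_single (a, b)]
      · intro ij hij hne
        obtain ⟨hi, hj, hsum⟩ := Finset.mem_antidiagonal.mp hij
        exfalso
        have h1 : a ≤ ij.1 := by
          by_contra hlt
          exact hi (hf _ (not_le.mp hlt))
        have h2 : b ≤ ij.2 := by
          by_contra hlt
          exact hj (hg _ (not_le.mp hlt))
        apply hne
        ext
        · show ij.1 = a
          omega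
        · show ij.2 = b
          omega
      · intro hnot
        exfalso
        apply hnot
        rw [Finset.mem_antidiagonal]
        exact ⟨hab.1, hab.2, rfl⟩

theorem OrdGE.mul {f g : LaurentSeries R} {a b : ℤ} (hf : OrdGE f a) (hg : OrdGE g b) :
    OrdGE (f * g) (a + b) := (coeff_mul_of_ordGE hf hg).1

end OrdGE


/-! ### coefficients of a product of linear factors -/

section LinProd

variable {R : Type*} [CommRing R] [Nontrivial R]

/-- the coefficients of `∏_{i ∈ s} (X - r_i)` when every `r_i` has a pole of order `≤ 1` -/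
theorem ordGE_coeff_prod_X_sub_C {ι : Type*} [DecidableEq ι] (s : Finset ι)
    (r : ι → LaurentSeries R) (hr : ∀ i ∈ s, OrdGE (r i) (-1)) :
    (∀ m : ℕ, m ≤ s.card → OrdGE ((∏ i ∈ s, (X - C (r i))).coeff m) (-((s.card : ℤ) - m))) ∧
      ((∏ i ∈ s, (X - C (r i))).coeff 0).coeff (-(s.card : ℤ)) = ∏ i ∈ s, (-(r i).coeff (-1)) := by
  induction s using Finset.induction_on with
  | empty =>
    refine ⟨fun m hm => ?_, ?_⟩
    · have hm0 : m = 0 := by simpa using hm
      subst hm0
      simp only [Finset.prod_empty, coeff_one_zero, Finset.card_empty, Nat.cast_zero, sub_self,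
        neg_zero]
      exact ordGE_one
    · simp
  | insert a s ha ih =>
    have hr' : ∀ i ∈ s, OrdGE (r i) (-1) := fun i hi => hr i (Finset.mem_insert_of_mem hi)
    obtain ⟨ih1, ih2⟩ := ih hr'
    have hra : OrdGE (r a) (-1) := hr a (Finset.mem_insert_self a s)
    set G := ∏ i ∈ s, (X - C (r i)) with hG
    have hGdeg : G.natDegree = s.card := by
      rw [hG, natDegree_prod_of_monic _ _ (fun i _ => monic_X_sub_C (r i))]
      simp
    have hGmonic : G.Monic := monic_prod_of_monic _ _ (fun i _ => monic_X_sub_C (r i))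
    rw [Finset.prod_insert ha, Finset.card_insert_of_notMem ha]
    have hcoeff : ∀ m : ℕ, ((X - C (r a)) * G).coeff (m + 1) = G.coeff m - r a * G.coeff (m + 1) := by
      intro m
      rw [sub_mul, coeff_sub, coeff_X_mul, coeff_C_mul]
    have hcoeff0 : ((X - C (r a)) * G).coeff 0 = - (r a * G.coeff 0) := by
      rw [sub_mul, coeff_sub, coeff_X_mul_zero, coeff_C_mul, zero_sub]
    refine ⟨fun m hm => ?_, ?_⟩
    · rcases Nat.eq_zero_or_pos m with rfl | hmpos
      · rw [hcoeff0]
        have h1 := (hra.mul (ih1 0 (Nat.zero_le _))).neg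
        refine h1.mono ?_
        push_cast
        omega
      · obtain ⟨m', rfl⟩ : ∃ m', m = m' + 1 := ⟨m - 1, by omega⟩
        rw [hcoeff]
        have hm' : m' ≤ s.card := by omega
        refine OrdGE.sub ((ih1 m' hm').mono (by push_cast; omega)) ?_
        by_cases hm'' : m' + 1 ≤ s.card
        · refine (hra.mul (ih1 (m' + 1) hm'')).mono ?_
          push_cast
          omega
        · have : G.coeff (m' + 1) = 0 := coeff_eq_zero_of_natDegree_lt (by omega)
          rw [this, mul_zero]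
          exact ordGE_zero _
    · rw [hcoeff0, HahnSeries.coeff_neg]
      have h1 := (coeff_mul_of_ordGE hra (ih1 0 (Nat.zero_le _))).2
      have h2 : (-((s.card + 1 : ℕ) : ℤ)) = -1 + -((s.card : ℤ) - (0 : ℕ)) := by
        push_cast; ring
      rw [h2, h1, Finset.prod_insert ha]
      have h3 : (-((s.card : ℤ) - ((0 : ℕ) : ℤ))) = -(s.card : ℤ) := by simp
      rw [h3, ih2]
      ring

end LinProd


/-! ### the right-hand side of the factored modular equation -/

section RHS

variable {R : Type*} [CommRing R]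

theorem ordGE_jqModC : OrdGE (jqModC R) (-1) := fun _ hm => coeff_jqModC_of_lt R hm

theorem ordGE_twist {ζ : Rˣ} {f : LaurentSeries R} {a : ℤ} (hf : OrdGE f a) :
    OrdGE (twist ζ f) a := fun m hm => by
  rw [twist_coeff, hf m hm, mul_zero]

theorem ordGE_qExpand {f : LaurentSeries R} {a : ℤ} (N : ℕ) [NeZero N] (hf : OrdGE f a) : OrdGE (qExpand R N f) ((N : ℤ) * a) := fun m hm => by
  by_cases hd : (N : ℤ) ∣ m
  · obtain ⟨k, rfl⟩ := hd
    rw [qExpand_coeff_mul]
    apply hf
    have hN : (0 : ℤ) < N := by exact_mod_cast Nat.pos_of_ne_zero (NeZero.ne N)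
    exact lt_of_mul_lt_mul_left hm hN.le
  · exact qExpand_coeff_of_not_dvd N f hd

variable (R) in
/-- the big root `j(q^{p²})` -/
def bigRoot (p : ℕ) [NeZero p] : LaurentSeries R := qExpand R p (qExpand R p (jqModC R))

theorem ordGE_bigRoot (p : ℕ) [NeZero p] : OrdGE (bigRoot R p) (-((p : ℤ) * p)) := by
  have h1 := ordGE_qExpand p (ordGE_jqModC (R := R))
  have h2 := ordGE_qExpand p h1
  refine h2.mono (le_of_eq ?_)
  ring

theorem coeff_bigRoot (p : ℕ) [NeZero p] : (bigRoot R p).coeff (-((p : ℤ) * p)) = 1 := by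
  have h : (-((p : ℤ) * p)) = (p : ℤ) * ((p : ℤ) * (-1)) := by ring
  rw [bigRoot, h, qExpand_coeff_mul, qExpand_coeff_mul, coeff_jqModC_neg_one]

/-- the coefficients of the right-hand side `(X - j(q^{p²})) ∏_{i<p} (X - j(ζ^i q))` -/
theorem modRHS_coeff_shape [Nontrivial R] (p : ℕ) [NeZero p] (hp2 : 2 ≤ p) (ζ : Rˣ) :
    (∀ m : ℕ, m ≤ p → OrdGE ((modRHS R p ζ).coeff m) (-((p : ℤ) * p + ((p : ℤ) - m)))) ∧
      ((modRHS R p ζ).coeff 0).coeff (-((p : ℤ) * p + p)) =
        - ∏ i ∈ Finset.range p, (-(((ζ ^ i)⁻¹ : Rˣ) : R)) ∧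
      ((modRHS R p ζ).coeff p).coeff (-((p : ℤ) * p)) = -1 := by
  classical
  set r : ℕ → LaurentSeries R := fun i => twist (ζ ^ i) (jqModC R) with hr
  have hrord : ∀ i ∈ Finset.range p, OrdGE (r i) (-1) := fun i _ => ordGE_twist ordGE_jqModC
  obtain ⟨h1, h2⟩ := ordGE_coeff_prod_X_sub_C (Finset.range p) r hrord
  rw [Finset.card_range] at h1 h2
  set G := ∏ i ∈ Finset.range p, (X - C (r i)) with hG
  have hGdeg : G.natDegree = p := by
    rw [hG, natDegree_prod_of_monic _ _ (fun i _ => monic_X_sub_C (r i))]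
    simp
  have hGmonic : G.Monic := monic_prod_of_monic _ _ (fun i _ => monic_X_sub_C (r i))
  have hRHS : modRHS R p ζ = (X - C (bigRoot R p)) * G := rfl
  have hcoeff : ∀ m : ℕ, ((X - C (bigRoot R p)) * G).coeff (m + 1) =
      G.coeff m - bigRoot R p * G.coeff (m + 1) := by
    intro m
    rw [sub_mul, coeff_sub, coeff_X_mul, coeff_C_mul]
  have hcoeff0 : ((X - C (bigRoot R p)) * G).coeff 0 = - (bigRoot R p * G.coeff 0) := by
    rw [sub_mul, coeff_sub, coeff_X_mul_zero, coeff_C_mul, zero_sub]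
  have hp0 : (0 : ℤ) ≤ p := by positivity
  have hpp : (1 : ℤ) ≤ (p : ℤ) * p := by
    have : (2 : ℤ) ≤ p := by exact_mod_cast hp2
    nlinarith
  refine ⟨fun m hm => ?_, ?_, ?_⟩
  · rw [hRHS]
    rcases Nat.eq_zero_or_pos m with rfl | hmpos
    · rw [hcoeff0]
      refine ((ordGE_bigRoot p).mul (h1 0 (Nat.zero_le _))).neg.mono ?_
      push_cast
      omega
    · obtain ⟨m', rfl⟩ : ∃ m', m = m' + 1 := ⟨m - 1, by omega⟩
      rw [hcoeff]
      refine OrdGE.sub ((h1 m' (by omega)).mono (by push_cast; omega)) ?_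
      refine ((ordGE_bigRoot p).mul (h1 (m' + 1) hm)).mono ?_
      push_cast
      omega
  · rw [hRHS, hcoeff0, HahnSeries.coeff_neg]
    have h3 := (coeff_mul_of_ordGE (ordGE_bigRoot (R := R) p) (h1 0 (Nat.zero_le _))).2
    have h4 : (-((p : ℤ) * p + p)) = -((p : ℤ) * p) + -((p : ℤ) - ((0 : ℕ) : ℤ)) := by
      push_cast; ring
    rw [h4, h3, coeff_bigRoot, one_mul]
    have h5 : (-((p : ℤ) - ((0 : ℕ) : ℤ))) = -(p : ℤ) := by simp
    rw [h5, h2]
    congr 1
    refine Finset.prod_congr rfl fun i _ => ?_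
    rw [hr, twist_coeff, coeff_jqModC_neg_one, mul_one, zpow_neg_one]
  · obtain ⟨p', rfl⟩ : ∃ p', p = p' + 1 := ⟨p - 1, by omega⟩
    rw [hRHS, hcoeff]
    have hG1 : G.coeff (p' + 1) = 1 := by
      have := hGmonic.coeff_natDegree
      rwa [hGdeg] at this
    rw [hG1, mul_one, HahnSeries.coeff_sub, coeff_bigRoot]
    have h6 := h1 p' (by omega)
    have hp' : (1 : ℤ) ≤ p' := by
      have : 2 ≤ p' + 1 := hp2
      exact_mod_cast (by omega : 1 ≤ p')
    rw [h6 _ (by push_cast; nlinarith), zero_sub]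

end RHS


/-! ### the shape of `phiZ p` -/

section PhiZ

variable (p : ℕ) [Fact p.Prime]

/-- `p ≠ 0` as an instance, from `Fact p.Prime` -/
local instance neZero_of_fact : NeZero p := ⟨(Fact.out : p.Prime).ne_zero⟩

/-- the coefficients of `Φ_p`, evaluated at `Y = j(q^p)`, are the coefficients of the factored
right-hand side -/
theorem qExpand_evalJ_coeff_phiZ (m : ℕ) :
    qExpand Zb p (evalJ Zb (jqModC Zb) ((phiZ p).coeff m)) = (modRHS Zb p (zetaZ p)).coeff m := by
  rw [← phiZ_factor p, modLHS, coeff_map, qExpand_evalJ_eq]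

/-- a coefficient of a polynomial `P` over `Zb` is a Laurent coefficient of `P(j(q^p))` -/
theorem coeff_eq_coeff_qExpand {P : Zb[X]} {d : ℕ} (hd : P.natDegree ≤ d) :
    P.coeff d = (qExpand Zb p (evalJ Zb (jqModC Zb) P)).coeff (-((p : ℤ) * d)) := by
  have h : (-((p : ℤ) * d)) = (p : ℤ) * (-(d : ℤ)) := by ring
  rw [h, qExpand_coeff_mul, coeff_evalJ_jqModC_neg_of_le hd]

/-- degree bound from a pole-order bound -/
theorem natDegree_le_of_ordGE {P : Zb[X]} {d : ℕ}
    (h : OrdGE (qExpand Zb p (evalJ Zb (jqModC Zb) P)) (-((p : ℤ) * d + ((p : ℤ) - 1)))) :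
    P.natDegree ≤ d := by
  by_contra hlt
  rw [not_le] at hlt
  have hP : P ≠ 0 := by
    rintro rfl
    simp at hlt
  have h1 := coeff_eq_coeff_qExpand p (P := P) le_rfl
  have hp1 : (1 : ℤ) ≤ p := by exact_mod_cast (Fact.out : p.Prime).one_lt.le
  have hD : (d : ℤ) + 1 ≤ P.natDegree := by exact_mod_cast hlt
  rw [h _ (by nlinarith)] at h1
  exact hP (leadingCoeff_eq_zero.mp h1)

/-- `deg_Y c_m ≤ p` for `1 ≤ m ≤ p` -/
theorem natDegree_coeff_le {m : ℕ} (hm1 : 1 ≤ m) (hmp : m ≤ p) :
    ((phiZ p).coeff m).natDegree ≤ p := by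
  apply natDegree_le_of_ordGE p
  rw [qExpand_evalJ_coeff_phiZ]
  refine ((modRHS_coeff_shape p (Fact.out : p.Prime).two_le (zetaZ p)).1 m hmp).mono ?_
  have : (1 : ℤ) ≤ m := by exact_mod_cast hm1
  omega

/-- `deg_Y c_0 ≤ p + 1` -/
theorem natDegree_coeff_zero_le : ((phiZ p).coeff 0).natDegree ≤ p + 1 := by
  apply natDegree_le_of_ordGE p
  rw [qExpand_evalJ_coeff_phiZ]
  refine ((modRHS_coeff_shape p (Fact.out : p.Prime).two_le (zetaZ p)).1 0 (Nat.zero_le _)).mono ?_
  push_cast
  have : (1 : ℤ) ≤ p := by exact_mod_cast (Fact.out : p.Prime).one_lt.le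
  nlinarith

/-- the coefficient of `X^p Y^p` in `Φ_p` is `-1` -/
theorem coeff_coeff_p : ((phiZ p).coeff p).coeff p = -1 := by
  rw [coeff_eq_coeff_qExpand p (natDegree_coeff_le p (Fact.out : p.Prime).one_lt.le le_rfl),
    qExpand_evalJ_coeff_phiZ]
  exact (modRHS_coeff_shape p (Fact.out : p.Prime).two_le (zetaZ p)).2.2

/-- the coefficient of `Y^{p+1}` in `Φ_p(0, Y)` is `1` (for odd `p`) -/
theorem coeff_zero_coeff (hodd : Odd p) : ((phiZ p).coeff 0).coeff (p + 1) = 1 := by
  rw [coeff_eq_coeff_qExpand p (natDegree_coeff_zero_le p), qExpand_evalJ_coeff_phiZ]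
  have h := (modRHS_coeff_shape p (Fact.out : p.Prime).two_le (zetaZ p)).2.1
  have hexp : (-((p : ℤ) * ((p + 1 : ℕ) : ℤ))) = -((p : ℤ) * p + p) := by push_cast; ring
  rw [hexp, h]
  -- `∏_{i<p} (-(ζ^i)⁻¹) = -1` for odd `p`
  have h2 : (∏ i ∈ Finset.range p, ((zetaZ p) ^ i)⁻¹ : Zbˣ) = 1 := by
    rw [Finset.prod_inv_distrib, Finset.prod_pow_eq_pow_sum, inv_eq_one]
    obtain ⟨k, hk⟩ := hodd
    have hsum2 : (∑ i ∈ Finset.range p, i) * 2 = (p * k) * 2 := by
      rw [Finset.sum_range_id_mul_two, hk]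
      simp only [Nat.add_sub_cancel]
      ring
    have hsum : ∑ i ∈ Finset.range p, i = p * k :=
      Nat.eq_of_mul_eq_mul_right (by norm_num : 0 < 2) hsum2
    rw [hsum, pow_mul, zetaZ_pow, one_pow]
  rw [Finset.prod_neg, Finset.card_range, ← Units.coe_prod, h2, Units.val_one, mul_one,
    hodd.neg_one_pow]
  ring

end PhiZ

end Fermat.Agent.S15lib.Dict
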