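/-
S15lib / Dict / Newton  (helper8)  — Project E, block DICT, modular layer (M)

**The Newton polygon of `Φ_p(X, a)` at a pole of `a`.**
`K` a field, `O` a valuation subring of `K` receiving the algebraic integers `Zb`, residue
characteristic `≠ p`.  If `a ∉ O` and `Φ_p(b, a) = 0` (outer variable `b`, inner variable `a`) then
`b ∉ O` and EITHER `b / a^p` is a unit of `O` congruent to `1` (the "cusp ∞" branch)
OR `b^p / a` is a unit congruent to `1` (the "cusp 0" branch); and `b` is a SIMPLE root of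
`Φ_p(X, a)`.  Used three times: for numbers (`K = ℚ̄`, `O = A`), for places of `FBar p` and for
places of the reduction `FRes A p`.
-/
import Mathlib
import Fermat.Agent.S15lib.Dict.PhiShape
import Fermat.Agent.S37lib.ConjNorm.KroneckerVal

set_option autoImplicit false

noncomputable section

namespace Fermat.Agent.S15lib.Dict

open ModularCurve Polynomial Fermat.Agent.S28lib Fermat.Agent.S37lib.ConjNorm

section Reflect

variable {K : Type*} [Field K] (O : ValuationSubring K) (ι₀ : Zb →+* O)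

/-- evaluation at `a` through the reflected polynomial at `a⁻¹` -/
theorem eval₂_eq_reflect_mul_pow (P : Zb[X]) {d : ℕ} (hd : P.natDegree ≤ d) {a : K} (ha : a ≠ 0)
    (α : O) (hα : (α : K) = a⁻¹) :
    P.eval₂ (O.subtype.comp ι₀) a = (((P.reflect d).eval₂ ι₀ α : O) : K) * a ^ d := by
  let _ : Invertible a := invertibleOfNonzero ha
  have h := eval₂_reflect_mul_pow (O.subtype.comp ι₀) a d P hd
  rw [← h]
  congr 1
  have h2 := Polynomial.hom_eval₂ (P.reflect d) ι₀ O.subtype α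
  rw [invOf_eq_inv, ← hα]
  exact h2.symm

/-- the residue of the reflected evaluation at a non-unit is the top coefficient -/
theorem residue_reflect_eval₂ (P : Zb[X]) (d : ℕ) (α : O)
    (hα : α ∈ IsLocalRing.maximalIdeal O) :
    IsLocalRing.residue O ((P.reflect d).eval₂ ι₀ α) = IsLocalRing.residue O (ι₀ (P.coeff d)) := by
  rw [Polynomial.hom_eval₂, (IsLocalRing.residue_eq_zero_iff α).mpr hα, Polynomial.eval₂_at_zero,
    coeff_reflect, revAt_zero]
  rfl

end Reflect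


/-! ### the expansion of `Φ_p(b, a)` -/

section Expand

variable {K : Type*} [Field K] (O : ValuationSubring K) (ι₀ : Zb →+* O)
variable (p : ℕ) [Fact p.Prime]

/-- the coefficient `c_m(a)` of `X^m` in `Φ_p(X, a)` -/
def cAt (a : K) (m : ℕ) : K := ((phiZ p).coeff m).eval₂ (O.subtype.comp ι₀) a

theorem biEval₂_eq_sum (a b : K) :
    biEval₂ (O.subtype.comp ι₀) (phiZ p) b a =
      b ^ (p + 1) + ∑ m ∈ Finset.range (p + 1), cAt O ι₀ p a m * b ^ m := by
  rw [biEval₂, Polynomial.eval₂_eq_sum_range, phiZ_natDegree, Finset.sum_range_succ, add_comm]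
  congr 1
  · have h1 : (phiZ p).coeff (p + 1) = 1 := by
      have := (phiZ_monic p).coeff_natDegree
      rwa [phiZ_natDegree] at this
    rw [h1, map_one, one_mul]

/-- the derivative of `Φ_p(X, a)` at `b`, times `b` -/
theorem derivative_eval_mul (a b : K) :
    (((phiZ p).map (Polynomial.eval₂RingHom (O.subtype.comp ι₀) a)).derivative.eval b) * b =
      ((p + 1 : ℕ) : K) * b ^ (p + 1) +
        ∑ m ∈ Finset.range (p + 1), (m : K) * (cAt O ι₀ p a m * b ^ m) := by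
  have hdeg : ((phiZ p).map (Polynomial.eval₂RingHom (O.subtype.comp ι₀) a)).natDegree = p + 1 := by
    rw [(phiZ_monic p).natDegree_map, phiZ_natDegree]
  rw [Polynomial.derivative_eval, Polynomial.sum_over_range' _ (by intro n; simp) (p + 2)
    (by rw [hdeg]; omega), Finset.sum_mul, Finset.sum_range_succ, add_comm]
  congr 1
  · have h1 : (phiZ p).coeff (p + 1) = 1 := by
      have := (phiZ_monic p).coeff_natDegree
      rwa [phiZ_natDegree] at this
    rw [coeff_map, h1, map_one, one_mul, Nat.add_sub_cancel, mul_assoc, ← pow_succ]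
  · refine Finset.sum_congr rfl fun m _ => ?_
    rw [coeff_map]
    rcases Nat.eq_zero_or_pos m with rfl | hm
    · simp
    · have : b ^ (m - 1) * b = b ^ m := by
        rw [← pow_succ]; congr 1; omega
      rw [cAt, coe_eval₂RingHom, mul_assoc, this]
      ring

end Expand


/-! ### the normalised coefficients at a pole of `a` -/

section Gamma

variable {K : Type*} [Field K] (O : ValuationSubring K) (ι₀ : Zb →+* O)
variable (p : ℕ) [Fact p.Prime]

/-- the normalised coefficients `γ_m = c_m(a) / a^p` (`1 ≤ m ≤ p`), `γ₀ = c_0(a) / a^{p+1}`: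
they lie in `O`, `γ_p ≡ -1` and `γ₀ ≡ 1` modulo the maximal ideal. -/
theorem exists_gamma (hodd : Odd p) {a : K} (ha : a ∉ O) :
    ∃ (α : O) (γ : ℕ → O) (γ0 : O), (α : K) = a⁻¹ ∧ α ∈ IsLocalRing.maximalIdeal O ∧
      (∀ m, 1 ≤ m → m ≤ p → cAt O ι₀ p a m = (γ m : K) * a ^ p) ∧
      cAt O ι₀ p a 0 = (γ0 : K) * a ^ (p + 1) ∧
      IsLocalRing.residue O (γ p) = -1 ∧ IsLocalRing.residue O γ0 = 1 := by
  have ha0 : a ≠ 0 := by
    rintro rfl
    exact ha O.zero_mem
  have hinv : a⁻¹ ∈ O := (O.mem_or_inv_mem a).resolve_left ha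
  set α : O := ⟨a⁻¹, hinv⟩ with hα
  have hαm : α ∈ IsLocalRing.maximalIdeal O := by
    rw [IsLocalRing.mem_maximalIdeal, mem_nonunits_iff]
    intro hu
    obtain ⟨u, hu⟩ := hu
    apply ha
    have h1 : ((u⁻¹ : Oˣ) : O) * α = 1 := by rw [← hu]; exact u.inv_mul
    have h2 : (((u⁻¹ : Oˣ) : O) : K) * a⁻¹ = 1 := by
      have := congrArg (fun x : O => (x : K)) h1
      simpa using this
    have h3 : (((u⁻¹ : Oˣ) : O) : K) = a := by
      field_simp at h2
      exact h2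
    rw [← h3]
    exact Subtype.property _
  refine ⟨α, fun m => (((phiZ p).coeff m).reflect p).eval₂ ι₀ α,
    (((phiZ p).coeff 0).reflect (p + 1)).eval₂ ι₀ α, rfl, hαm, ?_, ?_, ?_, ?_⟩
  · intro m hm1 hmp
    exact eval₂_eq_reflect_mul_pow O ι₀ _ (natDegree_coeff_le p hm1 hmp) ha0 α rfl
  · exact eval₂_eq_reflect_mul_pow O ι₀ _ (natDegree_coeff_zero_le p) ha0 α rfl
  · rw [residue_reflect_eval₂ O ι₀ _ _ α hαm, coeff_coeff_p, map_neg, map_one, map_neg, map_one]
  · rw [residue_reflect_eval₂ O ι₀ _ _ α hαm, coeff_zero_coeff p hodd, map_one, map_one]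

end Gamma


/-! ### the two key identities -/

section Key

variable {K : Type*} [Field K] (O : ValuationSubring K) (ι₀ : Zb →+* O)
variable (p : ℕ) [Fact p.Prime]

omit [Fact p.Prime] in
theorem term_identity {a b : K} (ha0 : a ≠ 0) (hb0 : b ≠ 0) (g : K) {m : ℕ} (hm : m ≤ p) :
    g * a ^ p * b ^ m * ((a⁻¹) ^ (p + 1) * (b⁻¹) ^ p) = a⁻¹ * (g * (b⁻¹) ^ (p - m)) := by
  have h1 : (b⁻¹) ^ p = (b⁻¹) ^ (p - m) * (b⁻¹) ^ m := by
    rw [← pow_add]; congr 1; omega
  have h2 : b ^ m * (b⁻¹) ^ m = 1 := by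
    rw [← mul_pow, mul_inv_cancel₀ hb0, one_pow]
  have h3 : a ^ p * (a⁻¹) ^ (p + 1) = a⁻¹ := by
    rw [pow_succ, ← mul_assoc, ← mul_pow, mul_inv_cancel₀ ha0, one_pow, one_mul]
  calc g * a ^ p * b ^ m * ((a⁻¹) ^ (p + 1) * (b⁻¹) ^ p)
      = g * (a ^ p * (a⁻¹) ^ (p + 1)) * ((b⁻¹) ^ (p - m) * (b ^ m * (b⁻¹) ^ m)) := by
        rw [h1]; ring
    _ = a⁻¹ * (g * (b⁻¹) ^ (p - m)) := by rw [h2, h3]; ring

/-- **the key identity**: `Φ_p(b, a) · a^{-(p+1)} b^{-p}` in normalised form -/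
theorem key_identity {a b : K} (ha0 : a ≠ 0) (hb0 : b ≠ 0) (γ : ℕ → K) (γ0 : K)
    (hγ : ∀ m, 1 ≤ m → m ≤ p → cAt O ι₀ p a m = γ m * a ^ p)
    (hγ0 : cAt O ι₀ p a 0 = γ0 * a ^ (p + 1)) :
    biEval₂ (O.subtype.comp ι₀) (phiZ p) b a * ((a⁻¹) ^ (p + 1) * (b⁻¹) ^ p) =
      a⁻¹ * (b * (a⁻¹) ^ p + ∑ m ∈ Finset.Ico 1 (p + 1), γ m * (b⁻¹) ^ (p - m)) +
        γ0 * (b⁻¹) ^ p := by
  rw [biEval₂_eq_sum, Finset.range_eq_Ico, Finset.sum_eq_sum_Ico_succ_bot (Nat.succ_pos p),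
    add_mul, add_mul, pow_zero, mul_one, hγ0, Finset.sum_mul, mul_add, Finset.mul_sum]
  have h1 : b ^ (p + 1) * ((a⁻¹) ^ (p + 1) * (b⁻¹) ^ p) = a⁻¹ * (b * (a⁻¹) ^ p) := by
    have : b ^ (p + 1) * (b⁻¹) ^ p = b := by
      rw [pow_succ, mul_comm (b ^ p) b, mul_assoc, ← mul_pow, mul_inv_cancel₀ hb0, one_pow, mul_one]
    calc b ^ (p + 1) * ((a⁻¹) ^ (p + 1) * (b⁻¹) ^ p)
        = (b ^ (p + 1) * (b⁻¹) ^ p) * (a⁻¹) ^ (p + 1) := by ring
      _ = a⁻¹ * (b * (a⁻¹) ^ p) := by rw [this, pow_succ]; ring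
  have h2 : γ0 * a ^ (p + 1) * ((a⁻¹) ^ (p + 1) * (b⁻¹) ^ p) = γ0 * (b⁻¹) ^ p := by
    have : a ^ (p + 1) * (a⁻¹) ^ (p + 1) = 1 := by
      rw [← mul_pow, mul_inv_cancel₀ ha0, one_pow]
    calc γ0 * a ^ (p + 1) * ((a⁻¹) ^ (p + 1) * (b⁻¹) ^ p)
        = γ0 * (a ^ (p + 1) * (a⁻¹) ^ (p + 1)) * (b⁻¹) ^ p := by ring
      _ = γ0 * (b⁻¹) ^ p := by rw [this, mul_one]
  have h3 : ∑ m ∈ Finset.Ico (0 + 1) (p + 1),
        cAt O ι₀ p a m * b ^ m * ((a⁻¹) ^ (p + 1) * (b⁻¹) ^ p) =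
      ∑ m ∈ Finset.Ico 1 (p + 1), a⁻¹ * (γ m * (b⁻¹) ^ (p - m)) := by
    refine Finset.sum_congr rfl fun m hm => ?_
    obtain ⟨hm1, hm2⟩ := Finset.mem_Ico.mp hm
    rw [hγ m hm1 (by omega)]
    exact term_identity p ha0 hb0 (γ m) (by omega)
  rw [h1, h2, h3]
  ring

/-- **the derivative identity** -/
theorem key_identity_derivative {a b : K} (ha0 : a ≠ 0) (hb0 : b ≠ 0) (γ : ℕ → K)
    (hγ : ∀ m, 1 ≤ m → m ≤ p → cAt O ι₀ p a m = γ m * a ^ p) :
    (((phiZ p).map (Polynomial.eval₂RingHom (O.subtype.comp ι₀) a)).derivative.eval b) * b *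
        ((a⁻¹) ^ (p + 1) * (b⁻¹) ^ p) =
      a⁻¹ * (((p + 1 : ℕ) : K) * (b * (a⁻¹) ^ p) +
        ∑ m ∈ Finset.Ico 1 (p + 1), (m : K) * (γ m * (b⁻¹) ^ (p - m))) := by
  rw [derivative_eval_mul, Finset.range_eq_Ico, Finset.sum_eq_sum_Ico_succ_bot (Nat.succ_pos p),
    add_mul, add_mul, Nat.cast_zero, zero_mul, zero_mul, zero_add, Finset.sum_mul, mul_add,
    Finset.mul_sum]
  have h1 : ((p + 1 : ℕ) : K) * b ^ (p + 1) * ((a⁻¹) ^ (p + 1) * (b⁻¹) ^ p) =
      a⁻¹ * (((p + 1 : ℕ) : K) * (b * (a⁻¹) ^ p)) := by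
    have : b ^ (p + 1) * (b⁻¹) ^ p = b := by
      rw [pow_succ, mul_comm (b ^ p) b, mul_assoc, ← mul_pow, mul_inv_cancel₀ hb0, one_pow, mul_one]
    calc ((p + 1 : ℕ) : K) * b ^ (p + 1) * ((a⁻¹) ^ (p + 1) * (b⁻¹) ^ p)
        = ((p + 1 : ℕ) : K) * (b ^ (p + 1) * (b⁻¹) ^ p) * (a⁻¹) ^ (p + 1) := by ring
      _ = a⁻¹ * (((p + 1 : ℕ) : K) * (b * (a⁻¹) ^ p)) := by rw [this, pow_succ]; ring
  have h3 : ∑ m ∈ Finset.Ico (0 + 1) (p + 1),
        (m : K) * (cAt O ι₀ p a m * b ^ m) * ((a⁻¹) ^ (p + 1) * (b⁻¹) ^ p) =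
      ∑ m ∈ Finset.Ico 1 (p + 1), a⁻¹ * ((m : K) * (γ m * (b⁻¹) ^ (p - m))) := by
    refine Finset.sum_congr rfl fun m hm => ?_
    obtain ⟨hm1, hm2⟩ := Finset.mem_Ico.mp hm
    rw [hγ m hm1 (by omega)]
    have := term_identity p ha0 hb0 (γ m) (show m ≤ p by omega)
    calc (m : K) * (γ m * a ^ p * b ^ m) * ((a⁻¹) ^ (p + 1) * (b⁻¹) ^ p)
        = (m : K) * (γ m * a ^ p * b ^ m * ((a⁻¹) ^ (p + 1) * (b⁻¹) ^ p)) := by ring
      _ = a⁻¹ * ((m : K) * (γ m * (b⁻¹) ^ (p - m))) := by rw [this]; ring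
  rw [h1, h3]

end Key


/-! ### the dichotomy -/

section Dichotomy

variable {K : Type*} [Field K] (O : ValuationSubring K) (ι₀ : Zb →+* O)
variable (p : ℕ) [Fact p.Prime]

omit [Fact p.Prime] in
/-- the inverse of an element outside `O` lies in the maximal ideal -/
theorem exists_inv_mem_maximalIdeal {x : K} (hx : x ∉ O) :
    ∃ β : O, (β : K) = x⁻¹ ∧ β ∈ IsLocalRing.maximalIdeal O := by
  have hinv : x⁻¹ ∈ O := (O.mem_or_inv_mem x).resolve_left hx
  refine ⟨⟨x⁻¹, hinv⟩, rfl, ?_⟩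
  rw [IsLocalRing.mem_maximalIdeal, mem_nonunits_iff]
  intro hu
  obtain ⟨u, hu⟩ := hu
  apply hx
  have hx0 : x ≠ 0 := by
    rintro rfl
    exact hx O.zero_mem
  have h1 : ((u⁻¹ : Oˣ) : O) * ⟨x⁻¹, hinv⟩ = 1 := by rw [← hu]; exact u.inv_mul
  have h2 : (((u⁻¹ : Oˣ) : O) : K) * x⁻¹ = 1 := by
    have := congrArg (fun y : O => (y : K)) h1
    simpa using this
  have h3 : (((u⁻¹ : Oˣ) : O) : K) = x := by
    field_simp at h2
    exact h2
  rw [← h3]
  exact Subtype.property _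

/-- the sum `∑_{1 ≤ m ≤ p} w_m γ_m β^{p-m}` is congruent to `w_p γ_p` modulo the maximal ideal -/
theorem residue_sum_Ico (γ : ℕ → O) (w : ℕ → O) (β : O) (hβ : β ∈ IsLocalRing.maximalIdeal O) :
    IsLocalRing.residue O (∑ m ∈ Finset.Ico 1 (p + 1), w m * (γ m * β ^ (p - m))) =
      IsLocalRing.residue O (w p) * IsLocalRing.residue O (γ p) := by
  have hp1 : 1 ≤ p := (Fact.out : p.Prime).one_lt.le
  rw [Finset.sum_Ico_succ_top hp1, map_add, map_sum, Finset.sum_eq_zero, zero_add, Nat.sub_self,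
    pow_zero, mul_one, map_mul]
  intro m hm
  obtain ⟨hm1, hm2⟩ := Finset.mem_Ico.mp hm
  rw [map_mul, map_mul, map_pow, (IsLocalRing.residue_eq_zero_iff β).mpr hβ,
    zero_pow (by omega), mul_zero, mul_zero]

/-- **Newton dichotomy** at a pole of `a`: a root `b` of `Φ_p(X, a)` is a pole too, and either
`s = b / a^p ∈ 𝔪` and `b^p / a ≡ 1`, or `s ≡ 1`. -/
theorem newton_dichotomy (hodd : Odd p) {a b : K} (ha : a ∉ O)
    (h : biEval₂ (O.subtype.comp ι₀) (phiZ p) b a = 0) :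
    b ∉ O ∧
      ((∃ σ u : O, (σ : K) = b * (a⁻¹) ^ p ∧ σ ∈ IsLocalRing.maximalIdeal O ∧
          (u : K) = b ^ p * a⁻¹ ∧ IsLocalRing.residue O u = 1) ∨
        (∃ u : O, (u : K) = b * (a⁻¹) ^ p ∧ IsLocalRing.residue O u = 1)) := by
  obtain ⟨α, γ, γ0, hα, hαm, hγ, hγ0, hres_p, hres_0⟩ := exists_gamma O ι₀ p hodd ha
  have ha0 : a ≠ 0 := by
    rintro rfl
    exact ha O.zero_mem
  have hresα : IsLocalRing.residue O α = 0 := (IsLocalRing.residue_eq_zero_iff α).mpr hαm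
  have hp1 : 1 ≤ p := (Fact.out : p.Prime).one_lt.le
  -- (i) `b ∉ O`
  have hbO : b ∉ O := by
    intro hb
    set b' : O := ⟨b, hb⟩ with hb'
    set E : O := b' ^ (p + 1) * α ^ (p + 1) +
      ∑ m ∈ Finset.Ico 1 (p + 1), γ m * b' ^ m * α + γ0 with hE
    have hEK : (E : K) = biEval₂ (O.subtype.comp ι₀) (phiZ p) b a * (a⁻¹) ^ (p + 1) := by
      rw [biEval₂_eq_sum, Finset.range_eq_Ico, Finset.sum_eq_sum_Ico_succ_bot (Nat.succ_pos p),
        add_mul, add_mul, pow_zero, mul_one, hγ0, Finset.sum_mul]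
      have h2 : (γ0 : K) * a ^ (p + 1) * (a⁻¹) ^ (p + 1) = γ0 := by
        rw [mul_assoc, ← mul_pow, mul_inv_cancel₀ ha0, one_pow, mul_one]
      have h3 : ∑ m ∈ Finset.Ico (0 + 1) (p + 1), cAt O ι₀ p a m * b ^ m * (a⁻¹) ^ (p + 1) =
          ∑ m ∈ Finset.Ico 1 (p + 1), ((γ m : K) * b ^ m * a⁻¹) := by
        refine Finset.sum_congr rfl fun m hm => ?_
        obtain ⟨hm1, hm2⟩ := Finset.mem_Ico.mp hm
        rw [hγ m hm1 (by omega)]
        have : a ^ p * (a⁻¹) ^ (p + 1) = a⁻¹ := by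
          rw [pow_succ, ← mul_assoc, ← mul_pow, mul_inv_cancel₀ ha0, one_pow, one_mul]
        calc (γ m : K) * a ^ p * b ^ m * (a⁻¹) ^ (p + 1)
            = (γ m : K) * b ^ m * (a ^ p * (a⁻¹) ^ (p + 1)) := by ring
          _ = (γ m : K) * b ^ m * a⁻¹ := by rw [this]
      rw [h2, h3, hE]
      push_cast
      rw [hα]
      have hb'K : (b' : K) = b := rfl
      rw [hb'K]
      ring
    rw [h, zero_mul] at hEK
    have hE0 : E = 0 := Subtype.ext hEK
    have hres : IsLocalRing.residue O E = IsLocalRing.residue O γ0 := by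
      rw [hE, map_add, map_add, map_mul, map_pow, map_pow, hresα, zero_pow (Nat.succ_ne_zero p),
        mul_zero, zero_add, map_sum, Finset.sum_eq_zero, zero_add]
      intro m _
      rw [map_mul, hresα, mul_zero]
    rw [hE0, map_zero, hres_0] at hres
    exact zero_ne_one hres
  refine ⟨hbO, ?_⟩
  have hb0 : b ≠ 0 := by
    rintro rfl
    exact hbO O.zero_mem
  obtain ⟨β, hβ, hβm⟩ := exists_inv_mem_maximalIdeal O hbO
  have hresβ : IsLocalRing.residue O β = 0 := (IsLocalRing.residue_eq_zero_iff β).mpr hβm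
  -- the unit `U`
  set U : O := ∑ m ∈ Finset.Ico 1 (p + 1), (1 : O) * (γ m * β ^ (p - m)) with hU
  have hresU : IsLocalRing.residue O U = -1 := by
    rw [hU, residue_sum_Ico O p γ (fun _ => 1) β hβm, map_one, one_mul, hres_p]
  have hkey := key_identity O ι₀ p ha0 hb0 (fun m => (γ m : K)) (γ0 : K) hγ hγ0
  rw [h, zero_mul] at hkey
  have hUK : (U : K) = ∑ m ∈ Finset.Ico 1 (p + 1), (γ m : K) * (b⁻¹) ^ (p - m) := by
    rw [hU]
    push_cast
    refine Finset.sum_congr rfl fun m _ => ?_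
    rw [hβ, one_mul]
  rw [← hUK] at hkey
  -- `hkey : 0 = a⁻¹ * (b * a⁻¹ ^ p + U) + γ0 * b⁻¹ ^ p`
  set s : K := b * (a⁻¹) ^ p with hs
  have hainv : a⁻¹ ≠ 0 := inv_ne_zero ha0
  rcases lt_or_ge (O.valuation s) 1 with hlt | hge
  · -- Case A
    left
    have hsO : s ∈ O := (O.valuation_le_one_iff s).mp hlt.le
    set σ : O := ⟨s, hsO⟩ with hσ
    have hσm : σ ∈ IsLocalRing.maximalIdeal O := (O.valuation_lt_one_iff σ).mpr hlt
    have hresσ : IsLocalRing.residue O σ = 0 := (IsLocalRing.residue_eq_zero_iff σ).mpr hσm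
    set W : O := σ + U with hW
    have hresW : IsLocalRing.residue O W = -1 := by
      rw [hW, map_add, hresσ, hresU, zero_add]
    have hWunit : IsUnit W := by
      by_contra hnu
      have : W ∈ IsLocalRing.maximalIdeal O := by
        rw [IsLocalRing.mem_maximalIdeal, mem_nonunits_iff]; exact hnu
      rw [(IsLocalRing.residue_eq_zero_iff W).mpr this] at hresW
      exact one_ne_zero (neg_eq_zero.mp hresW.symm)
    obtain ⟨w, hw⟩ := hWunit
    refine ⟨σ, -γ0 * ((w⁻¹ : Oˣ) : O), rfl, hσm, ?_, ?_⟩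
    · -- `(u : K) = b ^ p * a⁻¹`
      have hWK : (W : K) = s + (U : K) := by rw [hW]; push_cast; rfl
      have hW0 : (W : K) ≠ 0 := by
        intro h0
        have : W = 0 := Subtype.ext h0
        rw [this, map_zero] at hresW
        exact one_ne_zero (neg_eq_zero.mp hresW.symm)
      have h1 : (((w⁻¹ : Oˣ) : O) : K) * (W : K) = 1 := by
        have : ((w⁻¹ : Oˣ) : O) * W = 1 := by rw [← hw]; exact w.inv_mul
        have := congrArg (fun y : O => (y : K)) this
        simpa using this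
      have h2 : a⁻¹ * (W : K) = -((γ0 : K) * (b⁻¹) ^ p) := by
        rw [hWK]
        linear_combination -hkey
      have h3 : b ^ p * (b⁻¹) ^ p = 1 := by
        rw [← mul_pow, mul_inv_cancel₀ hb0, one_pow]
      push_cast
      have h4 : (((w⁻¹ : Oˣ) : O) : K) = (W : K)⁻¹ := eq_inv_of_mul_eq_one_left h1
      rw [h4]
      field_simp
      have h5 : b ^ p * (a⁻¹ * (W : K)) = -(γ0 : K) := by
        rw [h2]
        linear_combination (-(γ0 : K)) * h3
      field_simp at h5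
      linear_combination -h5
    · rw [map_mul, map_neg, hres_0]
      have h1 : IsLocalRing.residue O ((w⁻¹ : Oˣ) : O) * IsLocalRing.residue O W = 1 := by
        rw [← map_mul, ← hw, Units.inv_mul, map_one]
      rw [hresW] at h1
      have h2 : IsLocalRing.residue O ((w⁻¹ : Oˣ) : O) = -1 := by
        linear_combination -h1
      rw [h2]
      ring
  · -- Case B
    right
    -- `δ = b⁻¹ ^ p * a ∈ 𝔪`
    have hδ : O.valuation ((b⁻¹) ^ p * a) < 1 := by
      have hA : 1 < O.valuation a := by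
        rw [← not_le, O.valuation_le_one_iff]; exact ha
      have hB0 : O.valuation b ≠ 0 := (Valuation.ne_zero_iff _).mpr hb0
      have hA0 : O.valuation a ≠ 0 := (Valuation.ne_zero_iff _).mpr ha0
      have h1 : O.valuation a ^ p ≤ O.valuation b := by
        have : O.valuation s = O.valuation b * (O.valuation a ^ p)⁻¹ := by
          rw [hs, map_mul, map_pow, map_inv₀, inv_pow]
        rw [this] at hge
        have hAp : O.valuation a ^ p ≠ 0 := pow_ne_zero _ hA0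
        calc O.valuation a ^ p = 1 * O.valuation a ^ p := (one_mul _).symm
          _ ≤ O.valuation b * (O.valuation a ^ p)⁻¹ * O.valuation a ^ p := by gcongr
          _ = O.valuation b := by rw [mul_assoc, inv_mul_cancel₀ hAp, mul_one]
      have h2 : O.valuation a < O.valuation b ^ p := by
        have hpp : 1 < p * p := by
          have := (Fact.out : p.Prime).two_le
          nlinarith
        calc O.valuation a = O.valuation a ^ 1 := (pow_one _).symm
          _ < O.valuation a ^ (p * p) := pow_lt_pow_right₀ hA hpp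
          _ = (O.valuation a ^ p) ^ p := by rw [pow_mul]
          _ ≤ O.valuation b ^ p := by gcongr
      rw [map_mul, map_pow, map_inv₀, inv_pow]
      have hBp : O.valuation b ^ p ≠ 0 := pow_ne_zero _ hB0
      calc (O.valuation b ^ p)⁻¹ * O.valuation a
          < (O.valuation b ^ p)⁻¹ * O.valuation b ^ p := by gcongr; exact inv_pos.mpr (zero_lt_iff.mpr hBp)
        _ = 1 := inv_mul_cancel₀ hBp
    have hδO : (b⁻¹) ^ p * a ∈ O := (O.valuation_le_one_iff _).mp hδ.le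
    set δ : O := ⟨(b⁻¹) ^ p * a, hδO⟩ with hδdef
    have hδm : δ ∈ IsLocalRing.maximalIdeal O := (O.valuation_lt_one_iff δ).mpr hδ
    have hresδ : IsLocalRing.residue O δ = 0 := (IsLocalRing.residue_eq_zero_iff δ).mpr hδm
    refine ⟨-U - γ0 * δ, ?_, ?_⟩
    · push_cast
      show -(U : K) - (γ0 : K) * ((b⁻¹) ^ p * a) = s
      have h1 : a * (a⁻¹ * (s + (U : K)) + (γ0 : K) * (b⁻¹) ^ p) = 0 := by
        rw [← hkey, mul_zero]
      have h2 : a * a⁻¹ = 1 := mul_inv_cancel₀ ha0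
      linear_combination (-1 : K) * h1 + (s + (U : K)) * h2
    · rw [map_sub, map_neg, map_mul, hresU, hresδ, mul_zero, sub_zero, neg_neg]

/-- **the roots of `Φ_p(X, a)` at a pole of `a` are simple** (residue characteristic `≠ p`) -/
theorem newton_simple (hodd : Odd p) (hpres : ((p : ℕ) : IsLocalRing.ResidueField O) ≠ 0)
    {a b : K} (ha : a ∉ O) (h : biEval₂ (O.subtype.comp ι₀) (phiZ p) b a = 0) :
    ((phiZ p).map (Polynomial.eval₂RingHom (O.subtype.comp ι₀) a)).derivative.eval b ≠ 0 := by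
  intro hd
  obtain ⟨hbO, hcases⟩ := newton_dichotomy O ι₀ p hodd ha h
  obtain ⟨α, γ, γ0, hα, hαm, hγ, hγ0, hres_p, hres_0⟩ := exists_gamma O ι₀ p hodd ha
  have ha0 : a ≠ 0 := by
    rintro rfl
    exact ha O.zero_mem
  have hb0 : b ≠ 0 := by
    rintro rfl
    exact hbO O.zero_mem
  obtain ⟨β, hβ, hβm⟩ := exists_inv_mem_maximalIdeal O hbO
  set U' : O := ∑ m ∈ Finset.Ico 1 (p + 1), ((m : ℕ) : O) * (γ m * β ^ (p - m)) with hU'
  have hresU' : IsLocalRing.residue O U' = -((p : ℕ) : IsLocalRing.ResidueField O) := by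
    rw [hU', residue_sum_Ico O p γ (fun m => ((m : ℕ) : O)) β hβm, hres_p, map_natCast]
    ring
  have hkey := key_identity_derivative O ι₀ p ha0 hb0 (fun m => (γ m : K)) hγ
  rw [hd, zero_mul, zero_mul] at hkey
  have hU'K : (U' : K) =
      ∑ m ∈ Finset.Ico 1 (p + 1), ((m : ℕ) : K) * ((γ m : K) * (b⁻¹) ^ (p - m)) := by
    rw [hU']
    push_cast
    refine Finset.sum_congr rfl fun m _ => ?_
    rw [hβ]
  rw [← hU'K] at hkey
  have hainv : a⁻¹ ≠ 0 := inv_ne_zero ha0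
  have hmain : ((p + 1 : ℕ) : K) * (b * (a⁻¹) ^ p) + (U' : K) = 0 := by
    rcases mul_eq_zero.mp hkey.symm with h0 | h0
    · exact absurd h0 hainv
    · exact h0
  rcases hcases with ⟨σ, u, hσ, hσm, -, -⟩ | ⟨u, hu, hures⟩
  · have h1 : ((p + 1 : ℕ) : O) * σ + U' = 0 := by
      apply Subtype.ext
      push_cast
      rw [hσ]
      push_cast at hmain
      exact hmain
    have h2 := congrArg (IsLocalRing.residue O) h1
    rw [map_add, map_mul, (IsLocalRing.residue_eq_zero_iff σ).mpr hσm, mul_zero, zero_add, hresU',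
      map_zero, neg_eq_zero] at h2
    exact hpres h2
  · have h1 : ((p + 1 : ℕ) : O) * u + U' = 0 := by
      apply Subtype.ext
      push_cast
      rw [hu]
      push_cast at hmain
      exact hmain
    have h2 := congrArg (IsLocalRing.residue O) h1
    rw [map_add, map_mul, hures, mul_one, hresU', map_natCast, map_zero] at h2
    push_cast at h2
    have h3 : (1 : IsLocalRing.ResidueField O) = 0 := by linear_combination h2
    exact one_ne_zero h3

end Dichotomy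

end Fermat.Agent.S15lib.Dict
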