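/-
S15lib / Dict / PlaneModel  (helper8) — Project E, block (DICT), modular layer (M)

The plane model `Φ_p(j_p; j) = 0` of `FBar p = ℚ̄(X₀(p))`, `j_p = j(q^p)`:
* `phi_jP_jB`               : `Φ_p(j_p; j) = 0` in `FBar p`;
* `phiQ_dvd_of_evF_eq_zero` : every polynomial relation `G(j_p; j) = 0` is a multiple of `Φ_p`;
* `exists_place_over`       : over every point `(a, β)` of the plane curve there is a place;
* `place_over_unique`       : it is unique if `Φ_p(·; a)` has `p + 1` distinct roots (`a ≠ 0, 1728`);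
* `gal_smul_place_over`     : hence Galois-fixed if `a, β` are rational.
-/
import Mathlib
import Fermat.Agent.S15lib.Iface
import Fermat.Agent.S15lib.Dict.Newton
import Fermat.Agent.S15lib.Cusp.Polar
import Fermat.Agent.LSb.Val.Kron
import Fermat.Agent.S27lib.Belyi.Points
import Fermat.Agent.S18lib.Gin0.Main

set_option autoImplicit false
set_option linter.unusedSectionVars false
set_option linter.style.haveILetI false

noncomputable section

namespace Fermat.Agent.S15lib.Dict

open AlgebraicCurve ModularCurve Polynomial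
open Fermat.Agent.S28lib Fermat.Agent.S37lib.ConjNorm Fermat.Agent.S18lib
open Fermat.Agent.ProgramR.BarField

local notation "Qb" => AlgebraicClosure ℚ
local notation "GQ" => (AlgebraicClosure ℚ ≃ₐ[ℚ] AlgebraicClosure ℚ)

variable (p : ℕ) [Fact p.Prime] [NeZero p]

/-- `j(q^p)` as an element of `FBar p` -/
def jP : FB p := jNBar (L := Qb) p

/-- the constants `Zb → ℚ̄` -/
abbrev iQ : Zb →+* Qb := (Gink.intToQbar : Zb →+* Qb)

lemma jdBar_congr (N : ℕ) {d d' : ℕ} [NeZero d] [NeZero d'] (h : d = d') (hd : d ∣ N) (hd' : d' ∣ N) :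
    jdBar (L := Qb) N d hd = jdBar (L := Qb) N d' hd' := by
  subst h
  rfl

/-- **the modular equation** `Φ_p(j(q^p); j(q)) = 0` in `FBar p` -/
theorem phi_jP_jB :
    biEval₂ ((algebraMap Qb (FB p)).comp iQ) (phiZ p) (jP p) (jB p) = 0 := by
  have h := Fermat.Agent.LSb.Val.biEval₂_jd_mul p p 1 (one_dvd p) (by rw [one_mul])
  have e1 : Fermat.Agent.LSb.Val.jd p (1 * p) (by rw [one_mul]) = jP p :=
    jdBar_congr p (one_mul p) _ dvd_rfl
  have e2 : Fermat.Agent.LSb.Val.jd p 1 (one_dvd p) = jB p := rfl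
  rw [e1, e2] at h
  exact h

/-- `Φ_p` over `ℚ̄` -/
def phiQ : Qb[X][X] := (phiZ p).map (mapRingHom iQ)

lemma phiQ_monic : (phiQ p).Monic := (phiZ_monic p).map _

lemma phiQ_natDegree : (phiQ p).natDegree = p + 1 := by
  rw [phiQ, (phiZ_monic p).natDegree_map, phiZ_natDegree]

/-- evaluation `G ↦ G(j_p; j)`, `ℚ̄[X][Y] → FBar p` -/
def evF : Qb[X][X] →+* FB p :=
  eval₂RingHom ((aeval (jB p) : Qb[X] →ₐ[Qb] FB p) : Qb[X] →+* FB p) (jP p)

lemma evF_apply (G : Qb[X][X]) :
    evF p G = G.eval₂ ((aeval (jB p) : Qb[X] →ₐ[Qb] FB p) : Qb[X] →+* FB p) (jP p) := rfl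

lemma aeval_comp_mapRingHom :
    ((aeval (jB p) : Qb[X] →ₐ[Qb] FB p) : Qb[X] →+* FB p).comp (mapRingHom iQ) =
      eval₂RingHom ((algebraMap Qb (FB p)).comp iQ) (jB p) := by
  apply Polynomial.ringHom_ext
  · intro c
    simp
  · simp

lemma evF_phiQ : evF p (phiQ p) = 0 := by
  rw [evF_apply, phiQ, eval₂_map, aeval_comp_mapRingHom]
  exact phi_jP_jB p

/-- **the kernel of the plane model**: every relation between `j` and `j_p` is a multiple of
`Φ_p` (as `[FBar p : ℚ̄(j)] = p + 1 = deg Φ_p`). -/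
theorem phiQ_dvd_of_evF_eq_zero {G : Qb[X][X]} (h : evF p G = 0) : phiQ p ∣ G := by
  have hmon := phiQ_monic p
  rw [← Polynomial.modByMonic_eq_zero_iff_dvd hmon]
  set R := G %ₘ phiQ p with hR
  have hdeg : R.natDegree < p + 1 ∨ R = 0 := by
    by_cases h0 : R = 0
    · exact Or.inr h0
    · left
      have := Polynomial.natDegree_modByMonic_lt G hmon (by
        intro h1
        have := congrArg Polynomial.natDegree h1
        rw [phiQ_natDegree, natDegree_one] at this
        omega)
      rwa [phiQ_natDegree] at this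
  have hRev : evF p R = 0 := by
    have h1 : G = R + phiQ p * (G /ₘ phiQ p) := (Polynomial.modByMonic_add_div G (phiQ p)).symm
    have h2 := congrArg (evF p) h1
    rw [map_add, map_mul, evF_phiQ, zero_mul, add_zero, h] at h2
    exact h2.symm
  have hpsi : dedekindPsi p = p + 1 := Fermat.Agent.S15lib.Cusp.dedekindPsi_prime Fact.out
  -- the coefficient family
  have hsum : ∑ k : Fin (dedekindPsi p), aeval (jBar Qb p) (R.coeff (k : ℕ)) *
      (jNBar (L := Qb) p) ^ (k : ℕ) = 0 := by
    rw [evF_apply, eval₂_eq_sum_range' _ (n := dedekindPsi p)] at hRev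
    · rw [← hRev, Finset.sum_range]
      rfl
    · rcases hdeg with h1 | h1
      · rw [hpsi]; exact h1
      · rw [h1, natDegree_zero, hpsi]; omega
  have hz := eq_zero_of_sum_pow_jNBar p qbarEmb (fun k : Fin (dedekindPsi p) => R.coeff (k : ℕ)) hsum
  refine Polynomial.ext fun k => ?_
  rw [coeff_zero]
  by_cases hk : k < dedekindPsi p
  · exact hz ⟨k, hk⟩
  · apply coeff_eq_zero_of_natDegree_lt
    rcases hdeg with h1 | h1
    · rw [hpsi] at hk; omega
    · rw [h1, natDegree_zero]; rw [hpsi] at hk; omega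

/-! ### lying over -/

/-- lying over for an integral ring homomorphism into a domain -/
theorem exists_prime_comap_eq_of_isIntegral {R S : Type*} [CommRing R] [CommRing S] [IsDomain S]
    (f : R →+* S) (hf : f.IsIntegral) (P : Ideal R) [P.IsPrime] (hP : RingHom.ker f ≤ P) :
    ∃ Q : Ideal S, Q.IsPrime ∧ Q.comap f = P := by
  letI := f.toAlgebra
  haveI : Algebra.IsIntegral R S := ⟨hf⟩
  exact Ideal.exists_ideal_over_prime_of_isIntegral_of_isDomain P hP

/-- a `K`-point of `S` over a `K`-point of `R` -/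
theorem exists_point_over {K R S : Type*} [Field K] [IsAlgClosed K] [CommRing R] [CommRing S]
    [IsDomain S] [Algebra K S] (f : R →+* S) (hf : f.IsIntegral) (e : R →+* K)
    (hker : RingHom.ker f ≤ RingHom.ker e)
    (hcompat : ∀ r : R, f r - algebraMap K S (e r) ∈ Ideal.map f (RingHom.ker e)) :
    ∃ q : S →ₐ[K] K, ∀ r : R, q (f r) = e r := by
  haveI : (RingHom.ker e).IsPrime := RingHom.ker_isPrime e
  obtain ⟨Q, hQ, hQc⟩ := exists_prime_comap_eq_of_isIntegral f hf (RingHom.ker e) hker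
  have hmapQ : Ideal.map f (RingHom.ker e) ≤ Q := by
    rw [Ideal.map_le_iff_le_comap, hQc]
  have hint : Algebra.IsIntegral K (S ⧸ Q) := by
    refine ⟨fun y => ?_⟩
    obtain ⟨b, rfl⟩ := Ideal.Quotient.mk_surjective y
    obtain ⟨Pm, hPm, hPb⟩ := hf b
    refine ⟨Pm.map e, hPm.map e, ?_⟩
    have h1 : (algebraMap K (S ⧸ Q)).comp e = (Ideal.Quotient.mk Q).comp f := by
      ext r
      have := hmapQ (hcompat r)
      rw [RingHom.comp_apply, RingHom.comp_apply]
      rw [IsScalarTower.algebraMap_apply K S (S ⧸ Q)]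
      symm
      rw [← sub_eq_zero]
      rw [Ideal.Quotient.algebraMap_eq, ← map_sub, Ideal.Quotient.eq_zero_iff_mem]
      exact this
    rw [eval₂_map, h1, ← hom_eval₂, hPb, map_zero]
  have hbij : Function.Bijective (algebraMap K (S ⧸ Q)) :=
    IsAlgClosed.algebraMap_bijective_of_isIntegral
  let E : K ≃ₐ[K] (S ⧸ Q) := AlgEquiv.ofBijective (Algebra.ofId K (S ⧸ Q)) hbij
  refine ⟨(E.symm : (S ⧸ Q) →ₐ[K] K).comp (Ideal.Quotient.mkₐ K Q), fun r => ?_⟩
  show E.symm (Ideal.Quotient.mk Q (f r)) = e r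
  rw [AlgEquiv.symm_apply_eq]
  show Ideal.Quotient.mk Q (f r) = algebraMap K (S ⧸ Q) (e r)
  rw [IsScalarTower.algebraMap_apply K S (S ⧸ Q), Ideal.Quotient.algebraMap_eq, ← sub_eq_zero,
    ← map_sub, Ideal.Quotient.eq_zero_iff_mem]
  exact hmapQ (hcompat r)

/-! ### values at a place -/

section Value

variable {K F : Type*} [Field K] [Field F] [Algebra K F]

/-- `f` takes the value `c` at the place `P` -/
def HasValue (P : Place K F) (f : F) (c : K) : Prop :=
  f = algebraMap K F c ∨ 0 < P.ord (f - algebraMap K F c)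

theorem HasValue.unique {P : Place K F} {f : F} {c c' : K} (h : HasValue P f c)
    (h' : HasValue P f c') : c = c' := by
  by_contra hne
  have h1 : (f - algebraMap K F c') = 0 ∨ 1 ≤ P.ord (f - algebraMap K F c') := by
    rcases h' with h' | h'
    · left; rw [h', sub_self]
    · right; omega
  have h2 : -(f - algebraMap K F c) = 0 ∨ 1 ≤ P.ord (-(f - algebraMap K F c)) := by
    rcases h with h | h
    · left; rw [h, sub_self, neg_zero]
    · right; rw [Fermat.Agent.S18lib.Cech.ord_neg]; omega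
  have h3 := Fermat.Agent.S18lib.Cech.ord_add_ge P h1 h2
  have e : (f - algebraMap K F c') + -(f - algebraMap K F c) = algebraMap K F (c - c') := by
    rw [map_sub]; ring
  rw [e, Fermat.Agent.S18lib.Cech.ord_const] at h3
  rcases h3 with h3 | h3
  · rw [map_eq_zero, sub_eq_zero] at h3
    exact hne h3
  · omega

end Value

/-! ### places over the points of the plane model -/

section Points

open Fermat.Agent.S27lib.Belyi Fermat.Agent.ProgramR

instance finiteDimensional_jB : FiniteDimensional (IntermediateField.adjoin Qb {jB p}) (FB p) :=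
  Gin0.finiteDimensional_jF p

/-- the affine coordinate ring of `X₀(p)` away from the cusps -/
abbrev IB : Type := IntB Qb (jB p)

/-- `ℚ̄[X] → ℚ̄[j]` -/
def thetaA : Qb[X] →+* Algebra.adjoin Qb {jB p} :=
  ((aeval (FF.genA Qb (jB p)) : Qb[X] →ₐ[Qb] Algebra.adjoin Qb {jB p}) : Qb[X] →+* _)

lemma algebraMap_thetaA (g : Qb[X]) :
    algebraMap (Algebra.adjoin Qb {jB p}) (FB p) (thetaA p g) = aeval (jB p) g := by
  have h : ((algebraMap (Algebra.adjoin Qb {jB p}) (FB p)).comp (thetaA p)) =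
      ((aeval (jB p) : Qb[X] →ₐ[Qb] FB p) : Qb[X] →+* FB p) := by
    apply Polynomial.ringHom_ext
    · intro c
      simp [thetaA]
    · simp [thetaA]
      rfl
  exact congrArg (fun φ : Qb[X] →+* FB p => φ g) h

lemma isIntegral_jP : IsIntegral (Algebra.adjoin Qb {jB p}) (jP p) := by
  refine ⟨(phiQ p).map (thetaA p), (phiQ_monic p).map _, ?_⟩
  rw [eval₂_map]
  have h : (algebraMap (Algebra.adjoin Qb {jB p}) (FB p)).comp (thetaA p) =
      ((aeval (jB p) : Qb[X] →ₐ[Qb] FB p) : Qb[X] →+* FB p) :=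
    RingHom.ext fun g => algebraMap_thetaA p g
  rw [h]
  exact evF_phiQ p

/-- `j_p` in the coordinate ring -/
def jPI : IB p := ⟨jP p, isIntegral_jP p⟩

/-- `ℚ̄[X] → IB` -/
def thetaI : Qb[X] →+* IB p :=
  ((aeval (FF.genB Qb (jB p)) : Qb[X] →ₐ[Qb] IB p) : Qb[X] →+* IB p)

lemma algebraMap_thetaI (g : Qb[X]) :
    algebraMap (IB p) (FB p) (thetaI p g) = aeval (jB p) g := by
  have h : ((algebraMap (IB p) (FB p)).comp (thetaI p)) =
      ((aeval (jB p) : Qb[X] →ₐ[Qb] FB p) : Qb[X] →+* FB p) := by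
    apply Polynomial.ringHom_ext
    · intro c
      simp only [thetaI, RingHom.comp_apply, RingHom.coe_coe, aeval_C]
      rfl
    · simp only [thetaI, RingHom.comp_apply, RingHom.coe_coe, aeval_X]
      rfl
  exact congrArg (fun φ : Qb[X] →+* FB p => φ g) h

/-- evaluation `G ↦ G(j_p; j)` into the coordinate ring -/
def evI : Qb[X][X] →+* IB p := eval₂RingHom (thetaI p) (jPI p)

lemma algebraMap_comp_evI : (algebraMap (IB p) (FB p)).comp (evI p) = evF p := by
  apply Polynomial.ringHom_ext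
  · intro g
    simp only [evI, evF, RingHom.comp_apply, coe_eval₂RingHom, eval₂_C]
    exact algebraMap_thetaI p g
  · simp only [evI, evF, RingHom.comp_apply, coe_eval₂RingHom, eval₂_X]
    rfl

lemma algebraMap_evI (G : Qb[X][X]) : algebraMap (IB p) (FB p) (evI p G) = evF p G :=
  congrArg (fun φ : Qb[X][X] →+* FB p => φ G) (algebraMap_comp_evI p)

lemma evI_C_X : evI p (C X) = FF.genB Qb (jB p) := by
  apply Subtype.ext
  show algebraMap (IB p) (FB p) (evI p (C X)) = jB p
  rw [algebraMap_evI, evF_apply, eval₂_C]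
  simp

lemma evI_X : evI p X = jPI p := by
  simp [evI]

lemma evI_C_C (c : Qb) : evI p (C (C c)) = algebraMap Qb (IB p) c := by
  apply Subtype.ext
  show algebraMap (IB p) (FB p) (evI p (C (C c))) = algebraMap Qb (FB p) c
  rw [algebraMap_evI, evF_apply, eval₂_C]
  simp

lemma evI_isIntegral : (evI p).IsIntegral := by
  intro b
  -- `b` is integral over `ℚ̄[j]`
  obtain ⟨Pm, hPm, hPb⟩ : IsIntegral (Algebra.adjoin Qb {jB p}) (b : FB p) := b.2
  -- lift the coefficients to `ℚ̄[X]`
  have hsurj : Function.Surjective (thetaA p) := by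
    intro y
    obtain ⟨g, hg⟩ := (Algebra.adjoin_singleton_eq_range_aeval Qb (jB p) ▸ y.2 :
      (y : FB p) ∈ (aeval (jB p) : Qb[X] →ₐ[Qb] FB p).range)
    refine ⟨g, Subtype.ext ?_⟩
    have := algebraMap_thetaA p g
    exact this.trans hg
  have hl : Pm ∈ Polynomial.lifts (thetaA p) := by
    rw [Polynomial.lifts_iff_coeff_lifts]
    intro n
    exact hsurj _
  obtain ⟨P', hP', -, hP'm⟩ := Polynomial.lifts_and_natDegree_eq_and_monic hl hPm
  refine ⟨P'.map C, hP'm.map _, ?_⟩
  apply Subtype.ext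
  show algebraMap (IB p) (FB p) (eval₂ (evI p) b ((P'.map C))) = 0
  rw [hom_eval₂, eval₂_map]
  have h : ((algebraMap (IB p) (FB p)).comp (evI p)).comp C =
      (algebraMap (Algebra.adjoin Qb {jB p}) (FB p)).comp (thetaA p) := by
    rw [algebraMap_comp_evI]
    refine RingHom.ext fun g => ?_
    rw [RingHom.comp_apply, RingHom.comp_apply, algebraMap_thetaA]
    simp [evF]
  rw [h, ← eval₂_map, hP']
  exact hPb

variable {p}

/-- evaluation at the point `(a, β)` -/
def evPt (a β : Qb) : Qb[X][X] →+* Qb := eval₂RingHom (evalRingHom a) β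

lemma evPt_phiQ (a β : Qb) : evPt a β (phiQ p) = biEval₂ iQ (phiZ p) β a := by
  rw [evPt, coe_eval₂RingHom, phiQ, eval₂_map, biEval₂]
  congr 1
  apply Polynomial.ringHom_ext
  · intro c; simp
  · simp

/-- **existence**: over every point `(a, β)` of the plane model `Φ_p(β; a) = 0` there is a place
of `FBar p`. -/
theorem exists_place_over {a β : Qb} (h : biEval₂ iQ (phiZ p) β a = 0) :
    ∃ P : Place Qb (FB p), 0 < P.ord (jB p - algebraMap Qb (FB p) a) ∧
      HasValue P (jP p) β := by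
  have hx : Transcendental Qb (jB p) := Fermat.Agent.S15lib.Cusp.transcendental_jB p
  have hker : RingHom.ker (evI p) ≤ RingHom.ker (evPt a β) := by
    intro G hG
    rw [RingHom.mem_ker] at hG ⊢
    have h1 : evF p G = 0 := by rw [← algebraMap_evI, hG, map_zero]
    obtain ⟨Q, rfl⟩ := phiQ_dvd_of_evF_eq_zero p h1
    rw [map_mul, evPt_phiQ, h, zero_mul]
  have hcompat : ∀ G : Qb[X][X],
      evI p G - algebraMap Qb (IB p) (evPt a β G) ∈ Ideal.map (evI p) (RingHom.ker (evPt a β)) := by
    intro G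
    rw [← evI_C_C, ← map_sub]
    apply Ideal.mem_map_of_mem
    rw [RingHom.mem_ker, map_sub]
    simp [evPt]
  obtain ⟨q, hq⟩ := exists_point_over (evI p) (evI_isIntegral p) (evPt a β) hker hcompat
  obtain ⟨P, hP, hPq⟩ := exists_place_of_point (jB p) hx q
  refine ⟨P, ?_, ?_⟩
  · rw [← pointOfPlace_genB_eq_iff (jB p) hx P hP a, hPq, ← evI_C_X, hq]
    simp [evPt]
  · have h2 := ord_sub_pointOfPlace (jB p) hx P hP (jPI p)
    rw [hPq, ← evI_X, hq] at h2
    have h3 : evPt a β X = β := by simp [evPt]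
    rw [h3, evI_X] at h2
    exact h2

end Points

/-! ### uniqueness -/

section Unique

open Fermat.Agent.S27lib.Belyi Fermat.Agent.ProgramR

variable {p}

/-- `Φ_p(X; a) ∈ ℚ̄[X]` -/
def phiAt (p : ℕ) (a : Qb) : Qb[X] := (phiZ p).map (eval₂RingHom iQ a)

lemma eval_phiAt (a β : Qb) : (phiAt p a).eval β = biEval₂ iQ (phiZ p) β a := by
  rw [phiAt, eval_map, biEval₂]

lemma phiAt_monic (a : Qb) : (phiAt p a).Monic := (phiZ_monic p).map _

lemma phiAt_natDegree (a : Qb) : (phiAt p a).natDegree = p + 1 := by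
  rw [phiAt, (phiZ_monic p).natDegree_map, phiZ_natDegree]

/-- the value of `j_p` at a place over `j = a` is a root of `Φ_p(X; a)` -/
theorem phi_value_eq_zero {P : Place Qb (FB p)} {a β : Qb} (ha : HasValue P (jB p) a)
    (hβ : HasValue P (jP p) β) : biEval₂ iQ (phiZ p) β a = 0 :=
  biEval₂_eq_zero_of_place P iQ (phiZ p) hβ ha (phi_jP_jB p)

/-- every place over `j = a` has a value of `j_p` -/
theorem exists_value_jP {P : Place Qb (FB p)} {a : Qb}
    (hP : 0 < P.ord (jB p - algebraMap Qb (FB p) a)) : ∃ β : Qb, HasValue P (jP p) β := by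
  have hx : Transcendental Qb (jB p) := Fermat.Agent.S15lib.Cusp.transcendental_jB p
  have hreg : 0 ≤ P.ord (jB p) := Fermat.Agent.ProgramR.RHLocal.ord_nonneg_of_ord_sub_pos hP
  exact ⟨pointOfPlace (jB p) hx P hreg (jPI p), ord_sub_pointOfPlace (jB p) hx P hreg (jPI p)⟩

/-- **uniqueness**: if `Φ_p(X; a)` is separable and `a ≠ 0, 1728`, there is exactly one place over
each point `(a, β)` of the plane model. -/
theorem place_over_unique {a : Qb} (h0 : a ≠ 0) (h1728 : a ≠ 1728) (hsep : (phiAt p a).Separable)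
    {β : Qb} {P P' : Place Qb (FB p)}
    (hP : 0 < P.ord (jB p - algebraMap Qb (FB p) a)) (hPβ : HasValue P (jP p) β)
    (hP' : 0 < P'.ord (jB p - algebraMap Qb (FB p) a)) (hP'β : HasValue P' (jP p) β) : P = P' := by
  classical
  -- the two finite sets
  let S : Type := ↥(Fermat.Agent.ProgramR.RHLocal.fibre (Gin0.jF p) a)
  let T : Type := ↥((phiAt p a).rootSet Qb)
  have hcardS : Nat.card S = p + 1 := by
    rw [Gin0.card_fibre_jF p a h0 h1728, Fermat.Agent.S15lib.Cusp.dedekindPsi_prime Fact.out]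
  have hcardT : Nat.card T = p + 1 := by
    rw [Nat.card_eq_fintype_card, card_rootSet_eq_natDegree hsep (IsAlgClosed.splits _),
      phiAt_natDegree]
  haveI : Finite S := Nat.finite_of_card_ne_zero (by rw [hcardS]; omega)
  haveI : Finite T := inferInstance
  -- the value map
  have hval : ∀ s : S, ∃ β : Qb, HasValue s.1 (jP p) β := fun s => exists_value_jP s.2
  choose v hv using hval
  have hroot : ∀ s : S, v s ∈ (phiAt p a).rootSet Qb := by
    intro s
    rw [mem_rootSet_of_ne (phiAt_monic a).ne_zero]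
    show aeval (v s) (phiAt p a) = 0
    rw [coe_aeval_eq_eval, eval_phiAt]
    exact phi_value_eq_zero (Or.inr s.2) (hv s)
  let φ : S → T := fun s => ⟨v s, hroot s⟩
  have hsurj : Function.Surjective φ := by
    rintro ⟨β', hβ'⟩
    rw [mem_rootSet_of_ne (phiAt_monic a).ne_zero] at hβ'
    have h1 : biEval₂ iQ (phiZ p) β' a = 0 := by
      rw [← eval_phiAt, ← coe_aeval_eq_eval]
      exact hβ'
    obtain ⟨P₁, hP₁, hP₁β⟩ := exists_place_over h1
    refine ⟨⟨P₁, hP₁⟩, Subtype.ext ?_⟩
    exact (hv ⟨P₁, hP₁⟩).unique hP₁β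
  have hequiv : Nonempty (S ≃ T) := Finite.card_eq.mp (hcardS.trans hcardT.symm)
  obtain ⟨e⟩ := hequiv
  have hinj : Function.Injective φ := (Finite.injective_iff_surjective_of_equiv e).mpr hsurj
  have h2 : φ ⟨P, hP⟩ = φ ⟨P', hP'⟩ := by
    apply Subtype.ext
    show v ⟨P, hP⟩ = v ⟨P', hP'⟩
    rw [(hv ⟨P, hP⟩).unique hPβ, (hv ⟨P', hP'⟩).unique hP'β]
  exact congrArg Subtype.val (hinj h2)

end Unique

/-! ### the Galois action -/

section Galois

variable {p}

lemma coeffMap_coeffEmb (σ : GQ) (y : LaurentSeries ℚ) :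
    coeffMap (σ : Qb →+* Qb) (coeffEmb Qb y) = coeffEmb Qb y := by
  ext k
  show σ (algebraMap ℚ Qb (y.coeff k)) = algebraMap ℚ Qb (y.coeff k)
  exact σ.commutes _

lemma gal_smul_jdBar (σ : GQ) (d : ℕ) [NeZero d] (hd : d ∣ p) :
    gal p σ • (jdBar (L := Qb) p d hd : FB p) = jdBar (L := Qb) p d hd := by
  apply Subtype.ext
  rw [coe_arithmeticGalois_smul]
  exact coeffMap_coeffEmb σ _

lemma gal_smul_jB (σ : GQ) : gal p σ • jB p = jB p := gal_smul_jdBar σ 1 (one_dvd p)

lemma gal_smul_jP (σ : GQ) : gal p σ • jP p = jP p := gal_smul_jdBar σ p dvd_rfl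

lemma gal_smul_algebraMap (σ : GQ) (c : Qb) :
    gal p σ • algebraMap Qb (FB p) c = algebraMap Qb (FB p) (σ c) :=
  SemilinearAut.smul_algebraMap (gal p σ) c

/-- values of Galois-fixed functions at conjugate places -/
theorem hasValue_gal_smul {σ : GQ} {P : Place Qb (FB p)} {f : FB p} {c : Qb}
    (hf : gal p σ • f = f) (hc : σ c = c) (h : HasValue P f c) : HasValue (gal p σ • P) f c := by
  rcases h with h | h
  · exact Or.inl h
  · right
    have e : f - algebraMap Qb (FB p) c = gal p σ • (f - algebraMap Qb (FB p) c) := by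
      rw [smul_sub, hf, gal_smul_algebraMap, hc]
    rw [e, SemilinearAut.ord_smul]
    exact h

theorem ord_gal_smul {σ : GQ} {P : Place Qb (FB p)} {f : FB p} (hf : gal p σ • f = f) :
    (gal p σ • P).ord f = P.ord f := by
  conv_lhs => rw [← hf]
  exact SemilinearAut.ord_smul (gal p σ) P f

/-- **the place over a rational point `(a, β)` of the plane model is Galois-fixed** (when it is
unique). -/
theorem gal_smul_place_over {a : Qb} (h0 : a ≠ 0) (h1728 : a ≠ 1728)
    (hsep : (phiAt p a).Separable) {β : Qb} (ha : ∀ σ : GQ, σ a = a) (hβ : ∀ σ : GQ, σ β = β)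
    {P : Place Qb (FB p)} (hP : 0 < P.ord (jB p - algebraMap Qb (FB p) a))
    (hPβ : HasValue P (jP p) β) (σ : GQ) : gal p σ • P = P := by
  have h1 : HasValue (gal p σ • P) (jB p) a := hasValue_gal_smul (gal_smul_jB σ) (ha σ) (Or.inr hP)
  have h2 : HasValue (gal p σ • P) (jP p) β := hasValue_gal_smul (gal_smul_jP σ) (hβ σ) hPβ
  have h3 : 0 < (gal p σ • P).ord (jB p - algebraMap Qb (FB p) a) := by
    rcases h1 with h1 | h1
    · exfalso
      have ht : Transcendental Qb (jB p) := Fermat.Agent.S15lib.Cusp.transcendental_jB p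
      apply ht
      rw [h1]
      exact isAlgebraic_algebraMap a
    · exact h1
  exact place_over_unique h0 h1728 hsep h3 h2 hP hPβ

end Galois

end Fermat.Agent.S15lib.Dict
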