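/-
S15lib / Dict / ModRed  (helper8) — Project E, block (DICT), modular layer (M)

The reduction of a place `x` of `FBar p` over a point `(a, b)` of the plane model `Φ_p(b; a) = 0`
with `a ∉ A`  (`A ∣ ℓ ≠ p`):
* `r x` is a pole of `j̄`, hence `r x ∈ {r ∞, r 0}`;
* if `b / a^p` is a unit then `r x = r ∞`  (the function `j_p / j^p` takes a unit value at `x`,
  vanishes at the cusp `0`, and its poles are zeros of `j`, which do not reduce to poles of `j̄`);
* otherwise `b^p / a` is a unit (Newton) and `r x = r 0`  (same with `j / j_p^p` and the cusp `∞`).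
-/
import Mathlib
import Fermat.Agent.S15lib.Dict.PlaneModel
import Fermat.Agent.S15lib.Dict.ModRedAbs
import Fermat.Agent.S15lib.Dict.Iface
import Fermat.Agent.S15lib.Cusp.Zero
import Fermat.Agent.S37lib.ES.SupportMod
import Fermat.Agent.LSb.Val.KronNewton

set_option autoImplicit false
set_option linter.unusedSectionVars false
set_option linter.style.haveILetI false

noncomputable section

namespace Fermat.Agent.S15lib.Dict

open AlgebraicCurve ModularCurve Polynomial
open Fermat.Agent.S28lib Fermat.Agent.S37lib.ConjNorm Fermat.Agent.S18lib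
open Fermat.Agent.ProgramR.BarField Fermat.Agent.S15lib.Cusp

local notation "Qb" => AlgebraicClosure ℚ
local notation "GQ" => (AlgebraicClosure ℚ ≃ₐ[ℚ] AlgebraicClosure ℚ)

/-! ### the Atkin–Lehner involution, explicitly on `j` and `j_p` -/

theorem exists_AL_explicit_aux (p : ℕ) (hp : p.Prime) [NeZero p] (N : ℕ) (hN : N = 1 * p)
    [NeZero N] :
    ∃ w : FB N ≃ₐ[Qb] FB N, (∀ f, w (w f) = f) ∧
      w (jB N) = jdBar (L := Qb) N p (by rw [hN, one_mul]) ∧
      w (jdBar (L := Qb) N p (by rw [hN, one_mul])) = jB N := by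
  subst hN
  have hqM : ¬ p ∣ 1 := fun h => hp.one_lt.ne' (Nat.dvd_one.mp h)
  refine ⟨Fermat.Agent.LSb.Val.wq 1 p hp hqM, Fermat.Agent.LSb.Val.wq_wq 1 p hp hqM, ?_, ?_⟩
  · have h1 := Fermat.Agent.LSb.Val.wq_jd 1 p hp hqM 1 (dvd_refl 1)
    have e1 : Fermat.Agent.LSb.Val.jd (1 * p) (1 * p) (Nat.mul_dvd_mul_right (dvd_refl 1) p) =
        jdBar (L := Qb) (1 * p) p (by rw [one_mul]) := jdBar_congr (1 * p) (one_mul p) _ _
    rw [e1] at h1
    exact h1
  · have h1 := Fermat.Agent.LSb.Val.wq_jd_mul 1 p hp hqM 1 (dvd_refl 1)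
    have e1 : Fermat.Agent.LSb.Val.jd (1 * p) (1 * p) (Nat.mul_dvd_mul_right (dvd_refl 1) p) =
        jdBar (L := Qb) (1 * p) p (by rw [one_mul]) := jdBar_congr (1 * p) (one_mul p) _ _
    rw [e1] at h1
    exact h1

variable (p : ℕ) [Fact p.Prime] [NeZero p]

theorem exists_AL_explicit :
    ∃ w : FB p ≃ₐ[Qb] FB p, (∀ f, w (w f) = f) ∧ w (jB p) = jP p ∧ w (jP p) = jB p :=
  exists_AL_explicit_aux p Fact.out p (one_mul p).symm

/-! ### the orders of `j_p` at the cusps -/

theorem order_coe_jB : ((jB p : FB p) : LaurentSeries Qb).order = -1 := by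
  have h := order_coe_jd p 1 (one_dvd p)
  have e2 : Fermat.Agent.LSb.Val.jd p 1 (one_dvd p) = jB p := rfl
  rw [e2] at h
  simpa using h

theorem order_coe_jP : ((jP p : FB p) : LaurentSeries Qb).order = -(p : ℤ) :=
  order_coe_jd p p dvd_rfl

variable {p}

theorem eq_cInf_of_isCuspInf {c : Place Qb (FB p)} (hc : IsCuspInf p c) : c = cInf p := by
  have hp : p.Prime := Fact.out
  rcases eq_cusp_of_ord_jB_neg p hp c (by rw [hc]; omega) with h | h
  · exact h
  · exfalso
    have h2 : (cZero p hp).ord (jB p) = -(p : ℤ) := isCuspZero_cZero p hp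
    rw [h] at hc
    rw [hc] at h2
    have := hp.one_lt
    omega

theorem eq_cZero_of_isCuspZero {c : Place Qb (FB p)} (hc : IsCuspZero p c) :
    c = cZero p Fact.out := by
  have hp : p.Prime := Fact.out
  have hpos : (0 : ℤ) < p := by exact_mod_cast hp.pos
  rcases eq_cusp_of_ord_jB_neg p hp c (by rw [hc]; omega) with h | h
  · exfalso
    have h2 : (cInf p).ord (jB p) = -1 := isCuspInf_cInf p
    rw [h] at hc
    rw [hc] at h2
    have := hp.one_lt
    omega
  · exact h

theorem ord_jP_of_isCuspInf {c : Place Qb (FB p)} (hc : IsCuspInf p c) :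
    c.ord (jP p) = -(p : ℤ) := by
  rw [eq_cInf_of_isCuspInf hc, ord_cInf, order_coe_jP]

theorem ord_jP_of_isCuspZero {c : Place Qb (FB p)} (hc : IsCuspZero p c) :
    c.ord (jP p) = -1 := by
  obtain ⟨w, hww, hwB, hwP⟩ := exists_AL_explicit p
  have hord : ∀ f : FB p, (w • cInf p).ord f = ((w f : FB p) : LaurentSeries Qb).order := by
    intro f
    have h := Place.ord_smul w (cInf p) (w f)
    rw [hww] at h
    rw [h, ord_cInf]
  have hZ : IsCuspZero p (w • cInf p) := by
    unfold IsCuspZero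
    rw [hord, hwB, order_coe_jP]
  rw [eq_cZero_of_isCuspZero hc, ← eq_cZero_of_isCuspZero hZ, hord, hwP, order_coe_jB]

/-! ### regularity of `j_p` away from the cusps -/

open Fermat.Agent.S27lib.Belyi Fermat.Agent.ProgramR in
/-- every place where `j` is regular has a value of `j_p` -/
theorem exists_value_jP_of_reg {P : Place Qb (FB p)} (hreg : 0 ≤ P.ord (jB p)) :
    ∃ β : Qb, HasValue P (jP p) β := by
  have hx : Transcendental Qb (jB p) := Fermat.Agent.S15lib.Cusp.transcendental_jB p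
  exact ⟨pointOfPlace (jB p) hx P hreg (jPI p), ord_sub_pointOfPlace (jB p) hx P hreg (jPI p)⟩

theorem HasValue.ord_nonneg {K F : Type*} [Field K] [Field F] [Algebra K F] {P : Place K F} {f : F}
    {c : K} (h : HasValue P f c) : 0 ≤ P.ord f := by
  rcases h with h | h
  · rw [h, Fermat.Agent.S18lib.Cech.ord_const]
  · exact Fermat.Agent.ProgramR.RHLocal.ord_nonneg_of_ord_sub_pos h

theorem ord_jP_nonneg_of_reg {P : Place Qb (FB p)} (hreg : 0 ≤ P.ord (jB p)) :
    0 ≤ P.ord (jP p) := by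
  obtain ⟨β, hβ⟩ := exists_value_jP_of_reg hreg
  exact hβ.ord_nonneg

theorem jP_ne_zero : jP p ≠ 0 := by
  intro h
  have h1 := order_coe_jP p
  rw [h] at h1
  have hp : (0 : ℤ) < p := by exact_mod_cast (Fact.out : p.Prime).pos
  simp at h1
  omega

/-- the order of `j_p / j^p` -/
theorem ord_ratio (P : Place Qb (FB p)) {s t : FB p} (hs : s ≠ 0) (ht : t ≠ 0) (n : ℕ) :
    P.ord (t * (s⁻¹) ^ n) = P.ord t - n * P.ord s := by
  rw [P.ord_mul ht (pow_ne_zero _ (inv_ne_zero hs)), Fermat.Agent.S18lib.Cech.ord_pow, P.ord_inv]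
  ring

/-! ### the reduction -/

section Reduction

variable (A : ValuationSubring Qb) {ℓ : ℕ} [Fact ℓ.Prime]
variable (hℓp : ¬ ℓ ∣ p) (hA : A.LiesOverPrime ℓ) (h : ReductionInputsModL A p)

local notation "DD" => Fermat.Agent.S37lib.ES.theDatum p A hℓp hA h

theorem redF_jB : (DD).redF (jB p) = Gink.jK A p := V.gaussDatum_redF_jF p A hℓp hA

theorem jB_mem_O : jB p ∈ (DD).O := V.jF_mem_gaussDatum_O p A hℓp hA

theorem redF_jB_ne_zero : (DD).redF (jB p) ≠ 0 := by
  rw [redF_jB]
  intro h0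
  exact Fermat.Agent.S37lib.ES.jK_ne_const p A 0 (by rw [h0, map_zero])

theorem jP_mem_O : jP p ∈ (DD).O :=
  Fermat.Agent.LSb.Val.jd_mem_O p ℓ A hℓp hA p dvd_rfl

theorem redF_jP_ne_zero : (DD).redF (jP p) ≠ 0 := by
  have h1 : (DD).redF (jP p) = V.elemK (Fermat.Agent.LSb.Val.jI A p p dvd_rfl) := by
    have h2 := V.gaussDatum_redF_elemL p A hℓp hA (Fermat.Agent.LSb.Val.jI A p p dvd_rfl)
    rw [Fermat.Agent.LSb.Val.elemL_jI] at h2
    exact h2
  rw [h1]
  intro h0
  have h3 := Fermat.Agent.LSb.Val.coe_elemK_jI A p p dvd_rfl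
  rw [h0] at h3
  have h4 : qExpand (kRes A) p (jqModC (kRes A)) = 0 := h3.symm
  have h5 : jqModC (kRes A) = 0 := qExpand_injective (R := kRes A) p (h4.trans (map_zero _).symm)
  have h6 := Fermat.Agent.S28lib.order_jqModC (kRes A)
  rw [h5] at h6
  simp at h6

section Main

variable [HasPrincipalDivisors Qb (FBar p)] [HasPrincipalDivisors (kRes A) (FRes A p)]
variable (hdegpos : ∀ Q : Place (kRes A) (FRes A p), 0 < Q.deg)

include hdegpos in
/-- a place with an `A`-integral value of `j` does not reduce to a pole of `j̄` -/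
theorem r_ne_of_integral_value {α : Qb} (hα : α ∈ A) {P x : Place Qb (FB p)}
    (hP : 0 < P.ord (jB p - algebraMap Qb (FB p) α))
    (hx : ((DD).r x).ord ((DD).redF (jB p)) < 0) : (DD).r P ≠ (DD).r x := by
  intro hPx
  have h1 := RedDatum.ord_r_pos_of_ord_pos (DD) hdegpos (jB_mem_O A hℓp hA h)
    (by rw [redF_jB]; exact Fermat.Agent.S37lib.ES.jK_ne_const p A)
    (V.degree_polesOf_jF_eq p A hℓp hA) ⟨α, hα⟩ hP
  rw [hPx, ord_sub_algebraMap_of_neg _ hx] at h1
  omega

include hdegpos in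
/-- a place over `j = a ∉ A` reduces to a pole of `j̄` -/
theorem ord_r_neg_of_value_not_mem {a : Qb} (haA : a ∉ A) {x : Place Qb (FB p)}
    (hxa : 0 < x.ord (jB p - algebraMap Qb (FB p) a)) :
    ((DD).r x).ord ((DD).redF (jB p)) < 0 :=
  Fermat.Agent.S37lib.ES.ord_r_neg_of_not_mem' (DD) hdegpos (jB_mem_O A hℓp hA h)
    (redF_jB_ne_zero A hℓp hA h) (V.degree_polesOf_jF_eq p A hℓp hA) haA hxa

include hdegpos in
/-- a pole of `j̄` is the reduction of a cusp -/
theorem r_eq_cusp_of_ord_neg {x : Place Qb (FB p)}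
    (hx : ((DD).r x).ord ((DD).redF (jB p)) < 0) :
    (DD).r x = (DD).r (cInf p) ∨ (DD).r x = (DD).r (cZero p Fact.out) := by
  obtain ⟨P, hP, hPneg⟩ := RedDatum.exists_ord_neg_of_ord_neg (DD) hdegpos
    (redF_jB_ne_zero A hℓp hA h) (V.degree_polesOf_jF_eq p A hℓp hA) hx
  rcases eq_cusp_of_ord_jB_neg p Fact.out P hPneg with h1 | h1
  · left; rw [← hP, h1]
  · right; rw [← hP, h1]

/-- **separation by a ratio** `t / s^n` with a unit value at `x`, a zero at `c`, no pole over `r x` -/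
theorem r_ne_of_ratio {s t : FB p} (hs : (DD).redF s ≠ 0) (ht : (DD).redF t ≠ 0) {α β : Qb}
    (hα : α ≠ 0) (n : ℕ) (u₀ : A) (hu₀ : (u₀ : Qb) = β * (α⁻¹) ^ n)
    (hu₀r : IsLocalRing.residue A u₀ ≠ 0) {x c : Place Qb (FB p)}
    (hxs : 0 < x.ord (s - algebraMap Qb (FB p) α)) (hxt : 0 < x.ord (t - algebraMap Qb (FB p) β))
    (hc : 0 < c.ord (t * (s⁻¹) ^ n))
    (hreg : ∀ P : Place Qb (FB p), (DD).r P = (DD).r x → 0 ≤ P.ord (t * (s⁻¹) ^ n)) :
    (DD).r x ≠ (DD).r c := by
  obtain ⟨us, hus⟩ := (RedDatum.redF_ne_zero_iff (DD)).mp hs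
  obtain ⟨ut, hut⟩ := (RedDatum.redF_ne_zero_iff (DD)).mp ht
  have hf0 : (DD).redF (t * (s⁻¹) ^ n) ≠ 0 := by
    rw [RedDatum.redF_ne_zero_iff]
    refine ⟨ut * us⁻¹ ^ n, ?_⟩
    have hinv : (((us⁻¹ : (DD).Oˣ) : (DD).O) : FB p) = (((us : (DD).O) : FB p))⁻¹ := by
      apply eq_inv_of_mul_eq_one_left
      have h1 : ((us⁻¹ : (DD).Oˣ) : (DD).O) * (us : (DD).O) = 1 := us.inv_mul
      have h2 := congrArg (Subtype.val : (DD).O → FB p) h1
      rw [MulMemClass.coe_mul, OneMemClass.coe_one] at h2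
      exact h2
    rw [← hus, ← hut]
    push_cast
    rw [hinv]
  have hu0L : (u₀ : Qb) ≠ 0 := by
    intro h0
    apply hu₀r
    have : u₀ = 0 := Subtype.ext h0
    rw [this, map_zero]
  have hx : 0 < x.ord (t * (s⁻¹) ^ n - algebraMap Qb (FB p) (u₀ : Qb)) := by
    have hne : t * (s⁻¹) ^ n - algebraMap Qb (FB p) (u₀ : Qb) ≠ 0 := by
      intro h0
      rw [sub_eq_zero] at h0
      rw [h0, ord_algebraMap_eq_zero c hu0L] at hc
      exact lt_irrefl _ hc
    apply ord_pos_of_adicValuation_lt_one x hne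
    rw [hu₀]
    exact adicValuation_ratio_sub_lt_one x hα (adicValuation_lt_one_of_ord_pos x hxs)
      (adicValuation_lt_one_of_ord_pos x hxt) n
  exact RedDatumAux.r_ne_of_value (DD) hf0 u₀ hu₀r hx hc hreg

include hdegpos in
/-- **type I**: `b / a^p` a unit: the place over `(a, b)` reduces to the cusp `∞` -/
theorem r_eq_cInf_of_unit {a b : Qb} (haA : a ∉ A)
    {x : Place Qb (FB p)} (hxa : 0 < x.ord (jB p - algebraMap Qb (FB p) a))
    (hxb : 0 < x.ord (jP p - algebraMap Qb (FB p) b))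
    (hval : A.valuation (b * (a⁻¹) ^ p) = 1) : (DD).r x = (DD).r (cInf p) := by
  have hp : p.Prime := Fact.out
  have hp2 : (2 : ℤ) ≤ p := by exact_mod_cast hp.two_le
  have hpole := ord_r_neg_of_value_not_mem A hℓp hA h hdegpos haA hxa
  have hcusp := r_eq_cusp_of_ord_neg A hℓp hA h hdegpos hpole
  have ha0 : a ≠ 0 := by
    rintro rfl
    exact haA A.zero_mem
  have hmem : b * (a⁻¹) ^ p ∈ A := (A.valuation_le_one_iff _).mp hval.le
  have hunit : IsUnit (⟨b * (a⁻¹) ^ p, hmem⟩ : A) := (A.valuation_eq_one_iff _).mpr hval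
  have hres : IsLocalRing.residue A ⟨b * (a⁻¹) ^ p, hmem⟩ ≠ 0 := by
    intro h0
    rw [IsLocalRing.residue_eq_zero_iff] at h0
    exact (IsLocalRing.mem_maximalIdeal _).mp h0 hunit
  have hB0 : jB p ≠ 0 := jB_ne_zero p
  have hP0 : jP p ≠ 0 := jP_ne_zero
  have hZ : IsCuspZero p (cZero p hp) := isCuspZero_cZero p hp
  have hne := r_ne_of_ratio A hℓp hA h (redF_jB_ne_zero A hℓp hA h) (redF_jP_ne_zero A hℓp hA h)
    ha0 p ⟨b * (a⁻¹) ^ p, hmem⟩ rfl hres hxa hxb (c := cZero p hp)
    (by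
      rw [ord_ratio _ hB0 hP0, ord_jP_of_isCuspZero hZ, hZ]
      nlinarith)
    (by
      intro P hP
      by_contra hneg
      push Not at hneg
      rw [ord_ratio _ hB0 hP0] at hneg
      by_cases hB : P.ord (jB p) < 0
      · rcases eq_cusp_of_ord_jB_neg p hp P hB with h1 | h1
        · have e1 : P.ord (jB p) = -1 := by rw [h1]; exact isCuspInf_cInf p
          have e2 : P.ord (jP p) = -(p : ℤ) := by
            rw [h1]; exact ord_jP_of_isCuspInf (isCuspInf_cInf p)
          rw [e1, e2] at hneg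
          omega
        · have e1 : P.ord (jB p) = -(p : ℤ) := by rw [h1]; exact hZ
          have e2 : P.ord (jP p) = -1 := by rw [h1]; exact ord_jP_of_isCuspZero hZ
          rw [e1, e2] at hneg
          nlinarith
      · push Not at hB
        have hPnn := ord_jP_nonneg_of_reg hB
        have hBpos : 0 < P.ord (jB p) := by
          by_contra hle
          push Not at hle
          have : P.ord (jB p) = 0 := le_antisymm hle hB
          rw [this] at hneg
          omega
        have hBpos' : 0 < P.ord (jB p - algebraMap Qb (FB p) 0) := by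
          rwa [map_zero, sub_zero]
        exact r_ne_of_integral_value A hℓp hA h hdegpos A.zero_mem hBpos' hpole hP)
  exact hcusp.resolve_right hne

include hdegpos in
/-- **type II**: `b / a^p` not a unit: the place over `(a, b)` reduces to the cusp `0` -/
theorem r_eq_cZero_of_not_unit (hodd : Odd p) {a b : Qb} (haA : a ∉ A)
    (hΦ : biEval₂ iQ (phiZ p) b a = 0)
    {x : Place Qb (FB p)} (hxa : 0 < x.ord (jB p - algebraMap Qb (FB p) a))
    (hxb : 0 < x.ord (jP p - algebraMap Qb (FB p) b))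
    (hval : A.valuation (b * (a⁻¹) ^ p) < 1) : (DD).r x = (DD).r (cZero p Fact.out) := by
  have hp : p.Prime := Fact.out
  have hp2 : (2 : ℤ) ≤ p := by exact_mod_cast hp.two_le
  have hpole := ord_r_neg_of_value_not_mem A hℓp hA h hdegpos haA hxa
  have hcusp := r_eq_cusp_of_ord_neg A hℓp hA h hdegpos hpole
  have ha0 : a ≠ 0 := by
    rintro rfl
    exact haA A.zero_mem
  obtain ⟨hbA, hcases⟩ := newton_dichotomy A (Gink.intToA A) p hodd haA hΦ
  have hb0 : b ≠ 0 := by
    rintro rfl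
    exact hbA A.zero_mem
  have hunit_of_res : ∀ u : A, IsLocalRing.residue A u = 1 → IsUnit u := by
    intro u hu
    by_contra hnu
    have : u ∈ IsLocalRing.maximalIdeal A := (IsLocalRing.mem_maximalIdeal _).mpr hnu
    rw [← IsLocalRing.residue_eq_zero_iff, hu] at this
    exact one_ne_zero this
  rcases hcases with ⟨σ, u, hσ, hσm, hu, hures⟩ | ⟨u, hu, hures⟩
  swap
  · exfalso
    have h1 : A.valuation (u : Qb) = 1 := (A.valuation_eq_one_iff u).mp (hunit_of_res u hures)
    rw [hu] at h1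
    rw [h1] at hval
    exact lt_irrefl _ hval
  obtain ⟨uu, huu⟩ := hunit_of_res u hures
  have hinv : (((uu⁻¹ : Aˣ) : A) : Qb) = a * (b⁻¹) ^ p := by
    have h1 : ((uu⁻¹ : Aˣ) : A) * (uu : A) = 1 := uu.inv_mul
    have h2 := congrArg (Subtype.val : A → Qb) h1
    rw [MulMemClass.coe_mul, OneMemClass.coe_one, huu, hu] at h2
    have h3 : (((uu⁻¹ : Aˣ) : A) : Qb) = (b ^ p * a⁻¹)⁻¹ := eq_inv_of_mul_eq_one_left h2
    rw [h3, mul_inv, inv_inv, inv_pow, mul_comm]
  have hres : IsLocalRing.residue A ((uu⁻¹ : Aˣ) : A) ≠ 0 := by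
    intro h0
    rw [IsLocalRing.residue_eq_zero_iff] at h0
    exact (IsLocalRing.mem_maximalIdeal _).mp h0 (uu⁻¹).isUnit
  have hB0 : jB p ≠ 0 := jB_ne_zero p
  have hP0 : jP p ≠ 0 := jP_ne_zero
  have hZ : IsCuspZero p (cZero p hp) := isCuspZero_cZero p hp
  have hI : IsCuspInf p (cInf p) := isCuspInf_cInf p
  have hne := r_ne_of_ratio A hℓp hA h (redF_jP_ne_zero A hℓp hA h) (redF_jB_ne_zero A hℓp hA h)
    hb0 p ((uu⁻¹ : Aˣ) : A) hinv hres hxb hxa (c := cInf p)
    (by
      rw [ord_ratio _ hP0 hB0, ord_jP_of_isCuspInf hI, hI]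
      nlinarith)
    (by
      intro P hP
      by_contra hneg
      push Not at hneg
      rw [ord_ratio _ hP0 hB0] at hneg
      by_cases hB : P.ord (jB p) < 0
      · rcases eq_cusp_of_ord_jB_neg p hp P hB with h1 | h1
        · have e1 : P.ord (jB p) = -1 := by rw [h1]; exact hI
          have e2 : P.ord (jP p) = -(p : ℤ) := by rw [h1]; exact ord_jP_of_isCuspInf hI
          rw [e1, e2] at hneg
          nlinarith
        · have e1 : P.ord (jB p) = -(p : ℤ) := by rw [h1]; exact hZ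
          have e2 : P.ord (jP p) = -1 := by rw [h1]; exact ord_jP_of_isCuspZero hZ
          rw [e1, e2] at hneg
          omega
      · push Not at hB
        have hPnn := ord_jP_nonneg_of_reg hB
        have hPpos : 0 < P.ord (jP p) := by
          by_contra hle
          push Not at hle
          have : P.ord (jP p) = 0 := le_antisymm hle hPnn
          rw [this] at hneg
          omega
        have hPpos' : HasValue P (jP p) 0 := Or.inr (by rwa [map_zero, sub_zero])
        obtain ⟨α, hα⟩ := Fermat.Agent.S37lib.B3.exists_value P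
          (Fermat.Agent.S37lib.HeckeInst.deg_eq_one p P) hB
        have hα' : 0 < P.ord (jB p - algebraMap Qb (FB p) α) := by
          rcases hα with hα | hα
          · exfalso
            have ht : Transcendental Qb (jB p) := transcendental_jB p
            apply ht
            rw [sub_eq_zero.mp hα]
            exact isAlgebraic_algebraMap α
          · exact hα
        have hΦ0 : biEval₂ iQ (phiZ p) 0 α = 0 := phi_value_eq_zero (Or.inr hα') hPpos'
        have hαA : α ∈ A := by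
          by_contra hαA
          exact (newton_dichotomy A (Gink.intToA A) p hodd hαA hΦ0).1 A.zero_mem
        exact r_ne_of_integral_value A hℓp hA h hdegpos hαA hα' hpole hP)
  exact hcusp.resolve_left hne

end Main

end Reduction

/-! ### separability of `Φ_p(X; a)` at a pole of `a` -/

theorem phiAt_separable_of_not_mem (hodd : Odd p) {ℓ₀ : ℕ} (hℓ₀ : ℓ₀.Prime) (hℓ₀p : ℓ₀ ≠ p)
    (A₀ : ValuationSubring Qb) (hA₀ : A₀.LiesOverPrime ℓ₀) {a : Qb} (haA₀ : a ∉ A₀) :
    (phiAt p a).Separable := by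
  haveI : Fact ℓ₀.Prime := ⟨hℓ₀⟩
  have hp : p.Prime := Fact.out
  haveI := Gink.charP_kRes A₀ hA₀
  have hpres : ((p : ℕ) : IsLocalRing.ResidueField A₀) ≠ 0 := by
    intro h0
    rw [CharP.cast_eq_zero_iff (IsLocalRing.ResidueField A₀) ℓ₀] at h0
    exact hℓ₀p ((Nat.prime_dvd_prime_iff_eq hℓ₀ hp).mp h0)
  rw [Polynomial.separable_def, Polynomial.isCoprime_iff_aeval_ne_zero_of_isAlgClosed Qb Qb]
  intro β
  by_cases hβ : (phiAt p a).eval β = 0
  · right
    rw [coe_aeval_eq_eval]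
    rw [eval_phiAt] at hβ
    exact newton_simple A₀ (Gink.intToA A₀) p hodd hpres haA₀ hβ
  · left
    rw [coe_aeval_eq_eval]
    exact hβ

/-! ### the modular layer -/

theorem modStmt : ModStmt := by
  intro p _ hp5 a b ha hb hΦ h₀
  obtain ⟨ℓ₀, hℓ₀, hℓ₀p, A₀, hA₀, haA₀⟩ := h₀
  haveI : NeZero p := ⟨(Fact.out : p.Prime).ne_zero⟩
  have hp : p.Prime := Fact.out
  have hodd : Odd p := hp.odd_of_ne_two (by omega)
  have ha0 : a ≠ 0 := by
    rintro rfl
    exact haA₀ A₀.zero_mem
  have h1728 : a ≠ 1728 := by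
    rintro rfl
    apply haA₀
    have : ((1728 : ℕ) : Qb) ∈ A₀ := natCast_mem A₀ 1728
    exact_mod_cast this
  have hsep := phiAt_separable_of_not_mem hodd hℓ₀ hℓ₀p A₀ hA₀ haA₀
  obtain ⟨x, hxa, hxb⟩ := exists_place_over hΦ
  refine ⟨x, gal_smul_place_over ha0 h1728 hsep ha hb hxa hxb, ?_⟩
  intro ℓ hℓ hℓp A hA haA h c
  haveI : Fact ℓ.Prime := ⟨hℓ⟩
  have hℓp' : ¬ ℓ ∣ p := fun hd => hℓp ((Nat.prime_dvd_prime_iff_eq hℓ hp).mp hd)
  obtain ⟨g, hF, hFk⟩ := Fermat.Agent.S37lib.B3.exists_genus_level p A hℓp' hA h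
  haveI := hF.hasPrincipalDivisors
  haveI := hFk.hasPrincipalDivisors
  have hdegpos : ∀ Q : Place (kRes A) (FRes A p), 0 < Q.deg := fun Q => by
    rw [hFk.deg_eq_one Q]; exact one_pos
  have hxb' : 0 < x.ord (jP p - algebraMap Qb (FB p) b) := by
    rcases hxb with hxb | hxb
    · exfalso
      have h1 := order_coe_jP p
      rw [hxb] at h1
      have h2 : ((algebraMap Qb (FB p) b : FB p) : LaurentSeries Qb) = HahnSeries.C b :=
        qEmb_algebraMap p b
      rw [h2] at h1
      have hp0 : (0 : ℤ) < p := by exact_mod_cast hp.pos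
      have h3 : 0 ≤ (HahnSeries.C b : LaurentSeries Qb).order := by
        by_cases hb0 : b = 0
        · rw [hb0, map_zero, HahnSeries.order_zero]
        · rw [HahnSeries.order_C]
      omega
    · exact hxb
  constructor
  · intro hval hc
    rw [eq_cInf_of_isCuspInf hc]
    exact r_eq_cInf_of_unit A hℓp' hA h hdegpos haA hxa hxb' hval
  · intro hval hc
    rw [eq_cZero_of_isCuspZero hc]
    exact r_eq_cZero_of_not_unit A hℓp' hA h hdegpos hodd haA hΦ hxa hxb' hval

end Fermat.Agent.S15lib.Dict
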