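/-
S15lib / Dict / Transfer  (helper5)  — Project E, block (DICT): the transfer `ℂ → ℚ̄` of (EA)

`Gink.intToQbar : Zb →ₐ[ℤ] ℚ̄` (an embedding of the algebraic integers of `ℂ`) is injective, so
`ℚ̄` is a torsion-free algebraic `Zb`-algebra and `IsAlgClosed.lift : ℚ̄ →ₐ[Zb] ℂ` is an embedding
`ι` with `ι ∘ intToQbar = zbIncl`.  Vélu's invariants and the bivariate evaluation of `phiZ p`
commute with `ι`; hence `VeluCStmt` (over `ℂ`) gives the same statement over `ℚ̄`.
-/
import Mathlib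
import Fermat.Agent.S15lib.Dict.Iface
import Fermat.Agent.S58lib.Lat.PointMap

set_option autoImplicit false
set_option linter.unusedSectionVars false
set_option linter.style.haveILetI false

noncomputable section

namespace Fermat.Agent.S15lib.Dict

open WeierstrassCurve Fermat.Agent.S28lib Fermat.Agent.S37lib.ConjNorm Fermat.Agent.S18lib
open Fermat.Agent.S58lib.Lat

local notation "Qb" => AlgebraicClosure ℚ

/-! ### the embedding `ℚ̄ → ℂ` compatible with `intToQbar` -/

theorem intToQbar_injective : Function.Injective (Gink.intToQbar : Zb → Qb) := by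
  have hker : RingHom.ker (Gink.intToQbar : Zb →+* Qb) = ⊥ := by
    apply Ideal.eq_bot_of_comap_eq_bot (R := ℤ)
    rw [eq_bot_iff]
    intro n hn
    rw [Ideal.mem_comap, RingHom.mem_ker] at hn
    have h1 : (Gink.intToQbar : Zb →+* Qb) (algebraMap ℤ Zb n) = ((n : ℤ) : Qb) := by
      rw [eq_intCast (algebraMap ℤ Zb) n, map_intCast]
    rw [h1, Int.cast_eq_zero] at hn
    rw [hn]
    exact Ideal.zero_mem _
  exact (RingHom.injective_iff_ker_eq_bot _).2 hker

/-- **an embedding `ℚ̄ → ℂ` extending the inclusion of the algebraic integers** -/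
theorem exists_embedding_compat :
    ∃ ι : Qb →+* ℂ, ∀ z : Zb, ι (Gink.intToQbar z) = zbIncl z := by
  letI : Algebra Zb Qb := (Gink.intToQbar : Zb →+* Qb).toAlgebra
  haveI : Module.IsTorsionFree Zb Qb := by
    refine (Module.isTorsionFree_iff_algebraMap_injective (R := Zb) (A := Qb)).2 ?_
    exact intToQbar_injective
  haveI : Algebra.IsAlgebraic Zb Qb := by
    refine ⟨fun x => ?_⟩
    have hx : IsAlgebraic ℤ x := by
      have hq : IsAlgebraic ℚ x := (AlgebraicClosure.isAlgebraic ℚ).isAlgebraic x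
      exact (IsFractionRing.isAlgebraic_iff ℤ ℚ Qb).2 hq
    obtain ⟨P, hP0, hP⟩ := hx
    refine ⟨P.map (algebraMap ℤ Zb), ?_, ?_⟩
    · exact (Polynomial.map_ne_zero_iff (FaithfulSMul.algebraMap_injective ℤ Zb)).2 hP0
    · rw [Polynomial.aeval_map_algebraMap]
      exact hP
  let f : Qb →ₐ[Zb] ℂ := IsAlgClosed.lift
  exact ⟨f.toRingHom, fun z => f.commutes z⟩

/-! ### Vélu's invariants commute with field embeddings -/

section Map

variable {K K' : Type*} [Field K] [Field K'] [DecidableEq K] [DecidableEq K']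

theorem ptX_pmap (W : WeierstrassCurve K) (f : K →+* K') (P : W.toAffine.Point) :
    ptX (pmap (W := W.toAffine) f rfl P) = f (ptX P) := by
  rcases P with _ | ⟨x, y, h⟩
  · exact (map_zero f).symm
  · rw [pmap_some]
    rfl

theorem ptY_pmap (W : WeierstrassCurve K) (f : K →+* K') (P : W.toAffine.Point) :
    ptY (pmap (W := W.toAffine) f rfl P) = f (ptY P) := by
  rcases P with _ | ⟨x, y, h⟩
  · exact (map_zero f).symm
  · rw [pmap_some]
    rfl

theorem psi2_pmap (W : WeierstrassCurve K) (f : K →+* K') (P : W.toAffine.Point) :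
    psi2 (W.map f) (pmap (W := W.toAffine) f rfl P) = f (psi2 W P) := by
  rw [psi2, psi2, ptX_pmap, ptY_pmap]
  simp [WeierstrassCurve.map, map_ofNat]

theorem veluT_pmap (W : WeierstrassCurve K) (f : K →+* K') (Q : W.toAffine.Point) (p : ℕ) :
    veluT (W.map f) (pmap (W := W.toAffine) f rfl Q) p = f (veluT W Q p) := by
  rw [veluT, veluT, map_sum]
  refine Finset.sum_congr rfl fun k _ => ?_
  rw [← map_nsmul, ptX_pmap, WeierstrassCurve.map_b₂, WeierstrassCurve.map_b₄]
  simp [map_ofNat]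

theorem veluW_pmap (W : WeierstrassCurve K) (f : K →+* K') (Q : W.toAffine.Point) (p : ℕ) :
    veluW (W.map f) (pmap (W := W.toAffine) f rfl Q) p = f (veluW W Q p) := by
  rw [veluW, veluW, map_sum]
  refine Finset.sum_congr rfl fun k _ => ?_
  rw [← map_nsmul, ptX_pmap, WeierstrassCurve.map_b₂, WeierstrassCurve.map_b₄,
    WeierstrassCurve.map_b₆]
  simp [map_ofNat]

theorem veluC4_pmap (W : WeierstrassCurve K) (f : K →+* K') (Q : W.toAffine.Point) (p : ℕ) :
    veluC4 (W.map f) (pmap (W := W.toAffine) f rfl Q) p = f (veluC4 W Q p) := by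
  rw [veluC4, veluC4, veluT_pmap, WeierstrassCurve.map_c₄]
  simp [map_ofNat]

theorem veluC6_pmap (W : WeierstrassCurve K) (f : K →+* K') (Q : W.toAffine.Point) (p : ℕ) :
    veluC6 (W.map f) (pmap (W := W.toAffine) f rfl Q) p = f (veluC6 W Q p) := by
  rw [veluC6, veluC6, veluT_pmap, veluW_pmap, WeierstrassCurve.map_c₆, WeierstrassCurve.map_b₂]
  simp [map_ofNat]

theorem veluPsi_pmap (W : WeierstrassCurve K) (f : K →+* K') (Q : W.toAffine.Point) (p : ℕ) :
    veluPsi (W.map f) (pmap (W := W.toAffine) f rfl Q) p = f (veluPsi W Q p) := by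
  rw [veluPsi, veluPsi, map_prod]
  refine Finset.prod_congr rfl fun k _ => ?_
  rw [← map_nsmul, psi2_pmap]

theorem veluJ_pmap (W : WeierstrassCurve K) (f : K →+* K') (Q : W.toAffine.Point) (p : ℕ) :
    veluJ (W.map f) (pmap (W := W.toAffine) f rfl Q) p = f (veluJ W Q p) := by
  rw [veluJ, veluJ, veluC4_pmap, veluC6_pmap]
  simp [map_ofNat]

end Map

/-! ### the transfer -/

/-- **(EA) over `ℚ̄` from (EA) over `ℂ`** -/
theorem veluQb_of_veluC (h : VeluCStmt) :
    ∀ {p : ℕ} [Fact p.Prime] (_hodd : p ≠ 2) (E : WeierstrassCurve Qb) (_hΔ : E.Δ ≠ 0)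
      (Q : E.toAffine.Point) (_hQ : addOrderOf Q = p),
      (veluC4 E Q p ^ 3 - veluC6 E Q p ^ 2) * veluPsi E Q p ^ 4 = 1728 * E.Δ ^ p ∧
      biEval₂ (Gink.intToQbar : Zb →+* Qb) (phiZ p) (veluJ E Q p) (E.c₄ ^ 3 / E.Δ) = 0 := by
  intro p _ hodd E hΔ Q hQ
  obtain ⟨ι, hι⟩ := exists_embedding_compat
  have hcomp : ι.comp (Gink.intToQbar : Zb →+* Qb) = zbIncl := RingHom.ext hι
  have hΔ' : (E.map ι).Δ ≠ 0 := by
    rw [WeierstrassCurve.map_Δ]
    exact (_root_.map_ne_zero ι).2 hΔ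
  have hQ' : addOrderOf (pmap (W := E.toAffine) ι rfl Q) = p := by
    rw [addOrderOf_injective (pmap (W := E.toAffine) ι rfl) (pmap_injective ι rfl) Q]
    exact hQ
  obtain ⟨h1, h2⟩ := h hodd (E.map ι) hΔ' (pmap (W := E.toAffine) ι rfl Q) hQ'
  rw [veluC4_pmap, veluC6_pmap, veluPsi_pmap, WeierstrassCurve.map_Δ] at h1
  rw [veluJ_pmap, WeierstrassCurve.map_Δ, WeierstrassCurve.map_c₄, ← map_pow, ← map_div₀,
    ← hcomp, ← map_biEval₂] at h2
  refine ⟨ι.injective ?_, ι.injective ?_⟩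
  · rw [map_mul, map_sub, map_pow, map_pow, map_pow, h1]
    simp [map_ofNat]
  · rw [h2, map_zero]

end Fermat.Agent.S15lib.Dict
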