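/-
S15lib / Dict / VeluGlue  (helper2) — Project E, block (DICT)(EA): the glue

  `veluCStmt_of : UnifStmt → VeluLatStmt → VeluCStmt`.

With `x_k = ℘(k z₀) - b₂/12`, `ψ₂(kQ) = ℘'(k z₀)`, `g₂ = c₄/12`, `g₃ = c₆/216`:
`t_k = 6x_k² + b₂x_k + b₄ = 6℘² - g₂/2 = wpDD`, and
`10x_k³ + 2b₂x_k² + 3b₄x_k + b₆ = ℘'² + ℘·wpDD - (b₂/12)·wpDD`, so that
`veluC4 = 12 g₂'`, `veluC6 = 216 g₃'` (the `504 b₂ t` term cancels); the half sums become full sums
by the reflection `k ↦ p - k` (`℘` even, `℘'` odd, both `Λ`-periodic).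
-/
import Fermat.Agent.S15lib.Dict.Iface

set_option autoImplicit false

noncomputable section

namespace Fermat.Agent.S15lib.Dict

open WeierstrassCurve Fermat.Agent.S28lib Fermat.Agent.S37lib.ConjNorm

namespace VeluGlue

/-- reflection `k ↦ p - k`: a full sum over `1..p-1` of a reflection-invariant function is twice
the half sum. -/
lemma sum_Icc_reflect {M : Type*} [AddCommMonoid M] {p : ℕ} (hp : Odd p) (f : ℕ → M)
    (hf : ∀ k, 1 ≤ k → k ≤ p - 1 → f (p - k) = f k) :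
    ∑ k ∈ Finset.Icc 1 (p - 1), f k = 2 • ∑ k ∈ Finset.Icc 1 ((p - 1) / 2), f k := by
  obtain ⟨m, rfl⟩ := hp
  have h1 : 2 * m + 1 - 1 = 2 * m := by omega
  have h2 : 2 * m / 2 = m := by omega
  rw [h1] at hf
  rw [h1, h2, two_nsmul]
  have hsplit : Finset.Icc 1 (2 * m) = Finset.Icc 1 m ∪ Finset.Icc (m + 1) (2 * m) := by
    ext k; simp only [Finset.mem_Icc, Finset.mem_union]; omega
  have hdisj : Disjoint (Finset.Icc 1 m) (Finset.Icc (m + 1) (2 * m)) := by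
    rw [Finset.disjoint_left]; intro k hk hk'; simp only [Finset.mem_Icc] at hk hk'; omega
  rw [hsplit, Finset.sum_union hdisj]
  congr 1
  refine Finset.sum_nbij' (fun k => 2 * m + 1 - k) (fun k => 2 * m + 1 - k) ?_ ?_ ?_ ?_ ?_
  · intro k hk; simp only [Finset.mem_Icc] at hk ⊢; omega
  · intro k hk; simp only [Finset.mem_Icc] at hk ⊢; omega
  · intro k hk; simp only [Finset.mem_Icc] at hk; show 2 * m + 1 - (2 * m + 1 - k) = k; omega
  · intro k hk; simp only [Finset.mem_Icc] at hk; show 2 * m + 1 - (2 * m + 1 - k) = k; omega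
  · intro k hk; simp only [Finset.mem_Icc] at hk
    exact (hf k (by omega) (by omega)).symm

variable (L : PeriodPair)

/-- `(p - k) z₀ ≡ - k z₀` modulo the lattice. -/
lemma wp_reflect {p : ℕ} {z₀ : ℂ} (hpz : (p : ℂ) * z₀ ∈ L.lattice) {k : ℕ} (hk : k ≤ p) :
    L.weierstrassP (((p - k : ℕ) : ℂ) * z₀) = L.weierstrassP ((k : ℂ) * z₀) := by
  have h : (((p - k : ℕ) : ℂ) * z₀) = -((k : ℂ) * z₀) + ((⟨(p : ℂ) * z₀, hpz⟩ : L.lattice) : ℂ) := by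
    rw [Nat.cast_sub hk]; ring
  rw [h, L.weierstrassP_add_coe, L.weierstrassP_neg]

lemma dwp_reflect {p : ℕ} {z₀ : ℂ} (hpz : (p : ℂ) * z₀ ∈ L.lattice) {k : ℕ} (hk : k ≤ p) :
    L.derivWeierstrassP (((p - k : ℕ) : ℂ) * z₀) = - L.derivWeierstrassP ((k : ℂ) * z₀) := by
  have h : (((p - k : ℕ) : ℂ) * z₀) = -((k : ℂ) * z₀) + ((⟨(p : ℂ) * z₀, hpz⟩ : L.lattice) : ℂ) := by
    rw [Nat.cast_sub hk]; ring
  rw [h, L.derivWeierstrassP_add_coe, L.derivWeierstrassP_neg]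

/-- `k z₀ ∉ Λ` for `p ∤ k` (`p` prime, `z₀ ∉ Λ`, `p z₀ ∈ Λ`). -/
lemma mul_not_mem_lattice {p : ℕ} (hp : p.Prime) {z₀ : ℂ} (hz : z₀ ∉ L.lattice)
    (hpz : (p : ℂ) * z₀ ∈ L.lattice) {k : ℕ} (hk : ¬ p ∣ k) : (k : ℂ) * z₀ ∉ L.lattice := by
  intro hkz
  have hcop : IsCoprime (k : ℤ) (p : ℤ) :=
    Nat.isCoprime_iff_coprime.mpr ((Nat.Prime.coprime_iff_not_dvd hp).mpr hk).symm
  obtain ⟨a, b, hab⟩ := hcop
  apply hz
  have h1 : z₀ = a • ((k : ℂ) * z₀) + b • ((p : ℂ) * z₀) := by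
    have : ((a * k + b * p : ℤ) : ℂ) = 1 := by rw [hab]; simp
    push_cast at this
    simp only [zsmul_eq_mul]
    linear_combination (-z₀) * this
  rw [h1]
  exact L.lattice.add_mem (L.lattice.smul_mem a hkz) (L.lattice.smul_mem b hpz)

end VeluGlue

open VeluGlue in
/-- **the (EA) glue**: uniformisation + Vélu on lattices ⟹ Vélu over `ℂ`. -/
theorem veluCStmt_of (hU : UnifStmt) (hV : VeluLatStmt) : VeluCStmt := by
  intro p _ hodd E hΔ Q hQ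
  have hp : p.Prime := Fact.out
  have hpodd : Odd p := hp.odd_of_ne_two hodd
  obtain ⟨L, z₀, hg2, hg3, hz, hpz, hk⟩ := hU E hΔ Q hQ
  have hV' := hV hodd L z₀ hz hpz
  simp only at hV'
  obtain ⟨hV1, hV2⟩ := hV'
  -- notation
  set P : ℕ → ℂ := fun k => L.weierstrassP ((k : ℂ) * z₀) with hP
  set D : ℕ → ℂ := fun k => L.derivWeierstrassP ((k : ℂ) * z₀) with hD
  -- range facts
  have hnd : ∀ k ∈ Finset.Icc 1 (p - 1), ¬ p ∣ k := by
    intro k hk' hdvd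
    simp only [Finset.mem_Icc] at hk'
    have := Nat.le_of_dvd (by omega) hdvd
    have := hp.two_le
    omega
  have hnd' : ∀ k ∈ Finset.Icc 1 ((p - 1) / 2), ¬ p ∣ k := by
    intro k hk'
    apply hnd
    simp only [Finset.mem_Icc] at hk' ⊢
    omega
  -- the relation `℘'² = 4℘³ - g₂℘ - g₃` at `k z₀`
  have hrel : ∀ k : ℕ, ¬ p ∣ k → D k ^ 2 = 4 * P k ^ 3 - L.g₂ * P k - L.g₃ := fun k hk' =>
    L.derivWeierstrassP_sq _ (mul_not_mem_lattice L hp hz hpz hk')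
  -- the summands
  have hT : veluT E Q p = ∑ k ∈ Finset.Icc 1 ((p - 1) / 2), wpDD L ((k : ℂ) * z₀) := by
    unfold veluT
    refine Finset.sum_congr rfl fun k hk' => ?_
    rw [(hk k (hnd' k hk')).1, wpDD, hg2, WeierstrassCurve.c₄]
    ring
  have hW : veluW E Q p = ∑ k ∈ Finset.Icc 1 ((p - 1) / 2),
      (D k ^ 2 + P k * wpDD L ((k : ℂ) * z₀)) - E.b₂ / 12 * veluT E Q p := by
    rw [hT, Finset.mul_sum, ← Finset.sum_sub_distrib]
    unfold veluW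
    refine Finset.sum_congr rfl fun k hk' => ?_
    rw [(hk k (hnd' k hk')).1, hrel k (hnd' k hk'), wpDD, hg2, hg3, WeierstrassCurve.c₄,
      WeierstrassCurve.c₆]
    simp only [hP]
    ring
  -- full sums as twice the half sums
  have hfull1 : ∑ k ∈ Finset.Icc 1 (p - 1), wpDD L ((k : ℂ) * z₀) = 2 * veluT E Q p := by
    rw [hT, sum_Icc_reflect hpodd (fun k => wpDD L ((k : ℂ) * z₀)), two_nsmul, two_mul]
    intro k hk1 hk2
    simp only [wpDD]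
    rw [wp_reflect L hpz (by omega)]
  have hfull2 : ∑ k ∈ Finset.Icc 1 (p - 1), (D k ^ 2 + P k * wpDD L ((k : ℂ) * z₀)) =
      2 * ∑ k ∈ Finset.Icc 1 ((p - 1) / 2), (D k ^ 2 + P k * wpDD L ((k : ℂ) * z₀)) := by
    rw [sum_Icc_reflect hpodd (fun k => D k ^ 2 + P k * wpDD L ((k : ℂ) * z₀)), two_nsmul, two_mul]
    intro k hk1 hk2
    simp only [wpDD, hP, hD]
    rw [wp_reflect L hpz (by omega), dwp_reflect L hpz (by omega)]
    ring
  have hPsi : veluPsi E Q p = ∏ k ∈ Finset.Icc 1 (p - 1), D k := by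
    unfold veluPsi
    exact Finset.prod_congr rfl fun k hk' => (hk k (hnd k hk')).2
  -- `g₂' = veluC4 / 12`, `g₃' = veluC6 / 216`
  set G : ℂ := ∑ k ∈ Finset.Icc 1 ((p - 1) / 2), (D k ^ 2 + P k * wpDD L ((k : ℂ) * z₀)) with hG
  have hC4 : veluC4 E Q p = 12 * (L.g₂ + 10 * ∑ k ∈ Finset.Icc 1 (p - 1), wpDD L ((k : ℂ) * z₀)) := by
    rw [hfull1, hg2, veluC4]; ring
  have hC6 : veluC6 E Q p = 216 * (L.g₃ + 14 * ∑ k ∈ Finset.Icc 1 (p - 1),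
      (L.derivWeierstrassP ((k : ℂ) * z₀) ^ 2 +
        L.weierstrassP ((k : ℂ) * z₀) * wpDD L ((k : ℂ) * z₀))) := by
    have : ∑ k ∈ Finset.Icc 1 (p - 1), (L.derivWeierstrassP ((k : ℂ) * z₀) ^ 2 +
        L.weierstrassP ((k : ℂ) * z₀) * wpDD L ((k : ℂ) * z₀)) = 2 * G := hfull2
    rw [this, hg3, veluC6, hW]; ring
  have hdisc : L.g₂ ^ 3 - 27 * L.g₃ ^ 2 = E.Δ := by
    rw [hg2, hg3]
    linear_combination (-(1 : ℂ) / 1728) * E.c_relation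
  set g₂' : ℂ := L.g₂ + 10 * ∑ k ∈ Finset.Icc 1 (p - 1), wpDD L ((k : ℂ) * z₀) with hg₂'
  set g₃' : ℂ := L.g₃ + 14 * ∑ k ∈ Finset.Icc 1 (p - 1),
      (L.derivWeierstrassP ((k : ℂ) * z₀) ^ 2 +
        L.weierstrassP ((k : ℂ) * z₀) * wpDD L ((k : ℂ) * z₀)) with hg₃'
  have hdiff : veluC4 E Q p ^ 3 - veluC6 E Q p ^ 2 = 1728 * (g₂' ^ 3 - 27 * g₃' ^ 2) := by
    rw [hC4, hC6]; ring
  refine ⟨?_, ?_⟩
  · rw [hdiff, hPsi, mul_assoc, hV1, hdisc]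
  · have hJ : veluJ E Q p = 1728 * g₂' ^ 3 / (g₂' ^ 3 - 27 * g₃' ^ 2) := by
      rw [veluJ, hdiff, hC4]
      rw [show (1728 : ℂ) * (12 * g₂') ^ 3 = 1728 * (1728 * g₂' ^ 3) by ring,
        mul_div_mul_left _ _ (by norm_num : (1728 : ℂ) ≠ 0)]
    have hj : E.c₄ ^ 3 / E.Δ = 1728 * L.g₂ ^ 3 / (L.g₂ ^ 3 - 27 * L.g₃ ^ 2) := by
      rw [hdisc, hg2]; congr 1; ring
    rw [hJ, hj]
    exact hV2

end Fermat.Agent.S15lib.Dict
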